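import Mathlib.Data.ZMod.Units
import Fermat.Agent.Gamma0.Coset
import Fermat.Agent.RT.GammaH.Ops

/-!
# The groups `Γ_H` and their Hecke double coset sets
-/

set_option autoImplicit false

noncomputable section

namespace Fermat.Agent.RT.GammaH

open CongruenceSubgroup Matrix.SpecialLinearGroup
open scoped MatrixGroups

variable {M : ℕ}

/-- `{g ∈ Γ₀(M) | (a mod M) ∈ K}`. -/
def gammaH (M : ℕ) (K : Subgroup (ZMod M)ˣ) : Subgroup SL(2, ℤ) where
  carrier := {g | (g 1 0 : ZMod M) = 0 ∧ ∃ u ∈ K, (g 0 0 : ZMod M) = u}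
  one_mem' := ⟨by simp, 1, one_mem K, by simp⟩
  mul_mem' := by
    rintro a b ⟨ha, u, hu, hau⟩ ⟨hb, v, hv, hbv⟩
    refine ⟨?_, u * v, mul_mem hu hv, ?_⟩ <;>
      simp [coe_mul, Matrix.mul_apply, Fin.sum_univ_two, ha, hb, hau, hbv]
  inv_mem' := by
    rintro g ⟨hc, u, hu, hau⟩
    refine ⟨by simp [SL2_inv_expl g, hc], u⁻¹, inv_mem hu, ?_⟩
    have hd : (g 0 0 : ZMod M) * g 1 1 - g 0 1 * g 1 0 = 1 := by
      exact_mod_cast congrArg (Int.cast : ℤ → ZMod M) (Gamma0.det_eq g)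
    rw [hc, mul_zero, sub_zero, hau] at hd
    simp only [SL2_inv_expl g, Matrix.cons_val', Matrix.cons_val_zero, Matrix.cons_val_fin_one]
    exact (Units.inv_eq_of_mul_eq_one_right hd).symm

variable {K : Subgroup (ZMod M)ˣ}

/-- `gammaH M K`: `g` lies in `Γ₀(M)` with upper left entry in `K` modulo `M`. -/
theorem mem_gammaH {g : SL(2, ℤ)} :
    g ∈ gammaH M K ↔ (g 1 0 : ZMod M) = 0 ∧ ∃ u ∈ K, (g 0 0 : ZMod M) = u := Iff.rfl

/-- `gammaH M K` is contained in `Γ₀(M)`. -/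
theorem gammaH_le_Gamma0 : gammaH M K ≤ Gamma0 M := fun _ h => Gamma0_mem.2 h.1

/-- `Γ(M)` is contained in `Γ_H`. -/
theorem Gamma_le_gammaH : CongruenceSubgroup.Gamma M ≤ gammaH M K := by
  intro g hg
  rw [Gamma_mem] at hg
  exact ⟨hg.2.2.1, 1, one_mem K, by simpa using hg.1⟩

instance [NeZero M] : (gammaH M K).FiniteIndex := Subgroup.finiteIndex_of_le Gamma_le_gammaH

/-- For the whole unit group, `Γ_H` is `Γ₀(M)`. -/
theorem gammaH_top : gammaH M ⊤ = Gamma0 M := by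
  refine le_antisymm gammaH_le_Gamma0 fun g hg => ?_
  have hc := Gamma0_mem.1 hg
  have hd : (g 0 0 : ZMod M) * g 1 1 - g 0 1 * g 1 0 = 1 := by
    exact_mod_cast congrArg (Int.cast : ℤ → ZMod M) (Gamma0.det_eq g)
  rw [hc, mul_zero, sub_zero] at hd
  exact ⟨hc, Units.mkOfMulEqOne _ _ hd, Subgroup.mem_top _, rfl⟩

/-- `Γ_H` is monotone in the group of units. -/
theorem gammaH_mono {K' : Subgroup (ZMod M)ˣ} (h : K' ≤ K) : gammaH M K' ≤ gammaH M K :=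
  fun _ ⟨hc, u, hu, hau⟩ => ⟨hc, u, h hu, hau⟩

/-- Level change: the subgroup of level `M'` below one of level `M`. -/
theorem gammaH_le_of_dvd {M' : ℕ} (hM : M ∣ M') {K' : Subgroup (ZMod M')ˣ}
    (hK : K' ≤ K.comap (ZMod.unitsMap hM)) : gammaH M' K' ≤ gammaH M K := by
  rintro g ⟨hc, u, hu, hau⟩
  refine ⟨?_, ZMod.unitsMap hM u, hK hu, ?_⟩
  · rw [← map_intCast (ZMod.castHom hM (ZMod M)), hc, map_zero]
  · rw [← map_intCast (ZMod.castHom hM (ZMod M)), hau]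
    rfl

/-- If `-1 ∈ K` then `-1 ∈ Γ_H`. -/
theorem neg_one_mem_gammaH (h : -1 ∈ K) : -1 ∈ gammaH M K :=
  ⟨by simp, -1, h, by simp⟩

/-- Every unit is the upper left entry of an element of `Γ₀(M)`. -/
theorem exists_gamma0_upperLeft (u : (ZMod M)ˣ) :
    ∃ g ∈ Gamma0 M, (g 0 0 : ZMod M) = u := by
  obtain ⟨a, ha⟩ := ZMod.intCast_surjective (u : ZMod M)
  have hcop : IsCoprime a (M : ℤ) := by
    have hu : IsUnit (a : ZMod M) := ha ▸ u.isUnit
    exact ((ZMod.coe_int_isUnit_iff_isCoprime _ _).1 hu).symm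
  obtain ⟨g, h0, h1⟩ := Gamma0.exists_col hcop
  exact ⟨g, Gamma0_mem.2 (by simp [h1]), by rw [h0, ha]⟩

end Fermat.Agent.RT.GammaH
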