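import Mathlib.Algebra.Group.Basic
import Mathlib.Data.Fintype.EquivFin
import Mathlib.FieldTheory.Finite.Basic
import Fermat.Agent.RT.GammaH.LevelOps
import Fermat.Agent.Gamma0.Count
import Fermat.Prelude.Def_ModularForm_HeckeOperator

/-!
# Elliptic elements and invariant homomorphisms

With `2` but not `3` inverted, and `-1` in the groups, homomorphisms on `Γ ⊆ SL(2, ℤ)` lift along a
surjection of coefficients as soon as they vanish on the elements of cube `-1`; corestriction is
surjective on torsion-free coefficients. For a prime `n ≡ 2 mod 3` the operator `T_n` produces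
homomorphisms vanishing on these elements. For any `n ∤ M`, `T_n - n - 1` maps the homomorphisms on
`Γ_H` fixed by the diamond operators into the image of restriction from `Γ₀(M)`.

The last statement is `exists_resTop_eq_hecke_sub`.
-/

set_option autoImplicit false

noncomputable section

namespace Fermat.Agent.RT.GammaH

open CongruenceSubgroup Matrix.SpecialLinearGroup
open scoped MatrixGroups

/-! ## Orbits of length three -/

section Orbit

variable {X : Type*} {R : X → X}

/-- One point in each orbit of length three. -/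
theorem exists_orbit_weight [Finite X] (h3 : ∀ x, R (R (R x)) = x) :
    ∃ ε : X → ℕ, (∀ x, R x = x → ε x = 0) ∧
      ∀ x, R x ≠ x → ε x + ε (R x) + ε (R (R x)) = 1 := by
  classical
  obtain ⟨n, ⟨f⟩⟩ := Finite.exists_equiv_fin X
  refine ⟨fun x => if f x < f (R x) ∧ f x < f (R (R x)) then 1 else 0,
    fun x hx => if_neg (by simp [hx]), fun x hx => ?_⟩
  simp only [h3]
  have h1 : f x ≠ f (R x) := fun h => hx (f.injective h).symm
  have h2 : f (R x) ≠ f (R (R x)) := fun h => hx (by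
    have := congrArg (R ∘ R) (f.injective h)
    simp only [Function.comp, h3] at this
    exact this.symm)
  have h4 : f x ≠ f (R (R x)) := fun h => hx (by
    have := congrArg R (f.injective h)
    simp only [h3] at this
    exact this)
  rw [ne_eq, Fin.ext_iff] at h1 h2 h4
  simp only [Fin.lt_def]
  split_ifs <;> omega

theorem bijective_of_cube (h3 : ∀ x, R (R (R x)) = x) : Function.Bijective R :=
  ⟨fun a b h => by rw [← h3 a, ← h3 b, h], fun x => ⟨R (R x), h3 x⟩⟩

variable {A : Type*} [AddCommGroup A]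

theorem sum_eq_zero_of_orbit [Fintype X] (h3 : ∀ x, R (R (R x)) = x) (hfix : ∀ x, R x ≠ x)
    (f : X → A) (h : ∀ x, f x + f (R x) + f (R (R x)) = 0) : ∑ x, f x = 0 := by
  obtain ⟨ε, -, hε⟩ := exists_orbit_weight h3
  have hR := bijective_of_cube h3
  have h1 := (hR.comp hR).sum_comp fun x => ε (R x) • f x
  have h2 := hR.sum_comp fun x => ε (R (R x)) • f x
  simp only [Function.comp, h3] at h1 h2
  calc ∑ x, f x = ∑ x, (ε x + ε (R x) + ε (R (R x))) • f x :=
        Finset.sum_congr rfl fun x _ => by rw [hε x (hfix x), one_nsmul]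
    _ = ∑ x, ε x • f x + ∑ x, ε x • f (R (R x)) + ∑ x, ε x • f (R x) := by
        simp only [add_nsmul, Finset.sum_add_distrib]
        rw [← h1, ← h2]
    _ = ∑ x, ε x • (f x + f (R x) + f (R (R x))) := by
        simp only [nsmul_add, Finset.sum_add_distrib]
        abel
    _ = 0 := by simp [h]

variable (R) in
/-- The projection onto the relation of order three. -/
def projE (ε : X → ℕ) (w : X → A) : X → A :=
  fun x => w x - ε x • (w x + w (R x) + w (R (R x)))

theorem projE_relation (h3 : ∀ x, R (R (R x)) = x) {ε : X → ℕ} {w : X → A}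
    (h : ∀ x, ε x + ε (R x) + ε (R (R x)) = 1 ∨ w x = 0 ∧ w (R x) = 0 ∧ w (R (R x)) = 0) (x : X) :
    projE R ε w x + projE R ε w (R x) + projE R ε w (R (R x)) = 0 := by
  simp only [projE, h3]
  rcases h x with h' | ⟨a, b, c⟩
  · have e1 : w (R x) + w (R (R x)) + w x = w x + w (R x) + w (R (R x)) := by abel
    have e2 : w (R (R x)) + w x + w (R x) = w x + w (R x) + w (R (R x)) := by abel
    rw [e1, e2]
    calc _ = (w x + w (R x) + w (R (R x))) -
        (ε x + ε (R x) + ε (R (R x))) • (w x + w (R x) + w (R (R x))) := by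
          rw [add_nsmul, add_nsmul]
          abel
      _ = 0 := by rw [h', one_nsmul, sub_self]
  · simp [a, b, c]

end Orbit

/-! ## Lifting and corestriction -/

section Coset

open Gamma0

variable {Γ' Γ : Subgroup SL(2, ℤ)} {A : Type*} [AddCommGroup A]

theorem ellCocycle_eq_zero {c : SL(2, ℤ) → SL(2, ℤ) ⧸ Γ → A} (hc : IsCocycle c)
    (h : ∀ γ : Γ, (γ : SL(2, ℤ)) ^ 3 = -1 → hc.toHom (Additive.ofMul γ) = 0)
    {x : SL(2, ℤ) ⧸ Γ} (hx : Gamma0.ST • x = x) : c Gamma0.ST x = 0 := by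
  induction x using QuotientGroup.induction_on with | _ g => ?_
  obtain ⟨γ, hγ, hcγ⟩ := hc.eq_toHom_of_fixed hx
  rw [hcγ]
  refine h γ ?_
  rw [hγ]
  simp only [mul_assoc, pow_succ, pow_zero, one_mul, mul_inv_cancel_left]
  simp only [← mul_assoc]
  rw [mul_assoc g⁻¹, mul_assoc g⁻¹, ← pow_two, ← pow_succ, ST_pow_three]
  simp

/-- Lifting homomorphisms that vanish on the elliptic elements of order three. -/
theorem exists_lift_of_elliptic [Γ.FiniteIndex] {B : Type*} [AddCommGroup B] {R : Type*}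
    [Semiring R] [Module R A] [Module R B] (hneg : -1 ∈ Γ) (h2 : IsUnit (2 : R))
    (f : A →ₗ[R] B) (hf : Function.Surjective f) (φ : Additive Γ →+ B)
    (hφ : ∀ γ : Γ, (γ : SL(2, ℤ)) ^ 3 = -1 → φ (Additive.ofMul γ) = 0) :
    ∃ ψ : Additive Γ →+ A, f.toAddMonoidHom.comp ψ = φ := by
  classical
  -- `φ` comes from a cocycle `c₀` on cosets
  obtain ⟨c₀, hc₀, ⟨hu, hv⟩, rfl⟩ := exists_cocycle_toHom hneg φ
    (IsCoreps.apply_neg_one h2 hneg φ)
  obtain ⟨a, ha⟩ : ∃ a : R, ∀ x : B, a • (x + x) = x := by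
    obtain ⟨u, hu⟩ := h2
    refine ⟨(u⁻¹ : Rˣ), fun x => ?_⟩
    rw [← two_nsmul, ← Nat.cast_smul_eq_nsmul R, Nat.cast_ofNat, ← hu, ← Units.smul_def,
      ← Units.smul_def, inv_smul_smul]
  -- weights for averaging over the free orbits of `ST`
  obtain ⟨ε, hε0, hε⟩ := exists_orbit_weight (R := fun x : SL(2, ℤ) ⧸ Γ => Gamma0.ST • x)
    (Gamma0.ST_smul_three hneg)
  -- lift the values at `S` and `ST`, by `0` at the fixed points of `ST`
  set w : SL(2, ℤ) ⧸ Γ → A := fun x =>
    if Gamma0.ST • x = x then 0 else Function.surjInv hf (c₀ Gamma0.ST x) with hw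
  set wS : SL(2, ℤ) ⧸ Γ → A := fun x => Function.surjInv hf (c₀ ModularGroup.S x) with hwS
  -- projected, they satisfy the relations of `PSL(2, ℤ)`
  have hrel : IsRelPair (IsCoreps.projS R a wS) (projE (fun x => Gamma0.ST • x) ε w) := by
    refine ⟨(IsCoreps.isRelPair_proj hneg a a wS wS).1, fun x => ?_⟩
    refine projE_relation (Gamma0.ST_smul_three hneg) (fun y => ?_) x
    by_cases hy : Gamma0.ST • y = y
    · exact Or.inr (by simp [hw, hy])
    · exact Or.inl (hε y hy)
  obtain ⟨c, hc, hcS, hcR⟩ := exists_cocycle hneg hrel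
  refine ⟨hc.toHom, ?_⟩
  have hcomp : IsCocycle fun g x => f (c g x) := fun g g' x => by
    show f (c (g * g') x) = _
    rw [hc, map_add]
  have hfw : ∀ y, f (w y) = c₀ Gamma0.ST y := fun y => by
    by_cases hy : Gamma0.ST • y = y
    · simp [hw, hy, ellCocycle_eq_zero hc₀ hφ hy]
    · simp [hw, hy, Function.surjInv_eq hf]
  -- and their image is still `c₀`
  have key : (fun g x => f (c g x)) = c₀ := by
    refine hcomp.ext_of_eq hc₀ (funext fun x => ?_) (funext fun x => ?_)
    · show f (c ModularGroup.S x) = _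
      rw [hcS]
      simp only [IsCoreps.projS, hwS, Pi.smul_apply, Pi.sub_apply, map_smul, map_sub,
        Function.surjInv_eq hf]
      conv_rhs => rw [← ha (c₀ ModularGroup.S x)]
      rw [eq_neg_of_add_eq_zero_right (hu x), sub_neg_eq_add]
    · show f (c Gamma0.ST x) = _
      rw [hcR]
      simp only [projE, map_sub, map_nsmul, map_add, hfw, hv x, nsmul_zero, sub_zero]
  refine AddMonoidHom.ext fun x => ?_
  obtain ⟨γ, rfl⟩ := Additive.ofMul.surjective x
  exact congrFun (congrFun key (γ : SL(2, ℤ))) _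

namespace IsCoreps

variable {ι : Type*} {σ : ι → SL(2, ℤ)} (h : IsCoreps Γ' Γ σ) [Fintype ι]
  {R : Type*} [Semiring R] [Module R A]

/-- Corestriction is surjective on torsion-free coefficients. -/
theorem cores_surjective_of_torsionFree [Γ.FiniteIndex] [IsAddTorsionFree A]
    (h2 : IsUnit (2 : R)) (hneg : -1 ∈ Γ') :
    Function.Surjective (h.cores (A := A) R) := by
  classical
  intro φ
  -- `φ` comes from a cocycle `c₀` on the cosets of `Γ`
  obtain ⟨c₀, hc₀, ⟨hu, hv⟩, rfl⟩ :=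
    exists_cocycle_toHom (h.le hneg) φ (apply_neg_one h2 (h.le hneg) φ)
  obtain ⟨a, ha⟩ : ∃ a : R, ∀ x : A, a • (x + x) = x := by
    obtain ⟨u, hu⟩ := h2
    refine ⟨(u⁻¹ : Rˣ), fun x => ?_⟩
    rw [← two_nsmul, ← Nat.cast_smul_eq_nsmul R, Nat.cast_ofNat, ← hu, ← Units.smul_def,
      ← Units.smul_def, inv_smul_smul]
  obtain ⟨ε, -, hε⟩ := exists_orbit_weight (R := fun x : SL(2, ℤ) ⧸ Γ => Gamma0.ST • x)
    (Gamma0.ST_smul_three (h.le hneg))
  -- spread its values over the fibres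
  obtain ⟨w, hw⟩ := h.fibreSum_surjective (c₀ ModularGroup.S)
  obtain ⟨w₀, hw₀⟩ := h.fibreSum_surjective (c₀ Gamma0.ST)
  set w' : SL(2, ℤ) ⧸ Γ' → A := fun y =>
    if Gamma0.ST • h.proj y = h.proj y then 0 else w₀ y with hw'def
  -- at a fixed point of `ST` the value of `c₀` is killed by `3`, hence zero
  have hw' : ∀ x, h.fibreSum w' x = c₀ Gamma0.ST x := fun x => by
    obtain ⟨y, rfl⟩ := h.proj_surjective x
    rw [h.fibreSum_eq rfl]
    simp only [hw'def, h.proj_rightMul]
    by_cases hy : Gamma0.ST • h.proj y = h.proj y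
    · simp only [if_pos hy, Finset.sum_const_zero]
      have h3 := hv (h.proj y)
      rw [hy, hy] at h3
      refine ((nsmul_eq_zero_iff_right (n := 3) (by omega)).1 ?_).symm
      rw [← h3]
      abel
    · simp only [if_neg hy]
      rw [← hw₀, h.fibreSum_eq rfl]
  -- projected, they satisfy the relations of `PSL(2, ℤ)`
  set v : SL(2, ℤ) ⧸ Γ' → A := projE (fun y => Gamma0.ST • y) (fun y => ε (h.proj y)) w'
    with hvdef
  have hrel : IsRelPair (projS R a w) v := by
    refine ⟨(isRelPair_proj hneg a a w w).1, fun y => ?_⟩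
    refine projE_relation (Gamma0.ST_smul_three hneg) (fun z => ?_) y
    simp only [hw'def, h.proj_smul]
    by_cases hz : Gamma0.ST • h.proj z = h.proj z
    · exact Or.inr (by simp [hz])
    · exact Or.inl (hε _ hz)
  obtain ⟨c, hc, hcS, hcR⟩ := exists_cocycle hneg hrel
  refine ⟨hc.toHom, ?_⟩
  rw [h.cores_toHom hc]
  congr 1
  -- and the fibre sums give back `c₀` at `S` and `ST`
  refine (h.isCocycle_fibreSum hc).ext_of_eq hc₀ (funext fun x => ?_) (funext fun x => ?_)
  · rw [hcS, projS, h.fibreSum_smul, h.fibreSum_sub, h.fibreSum_comp_smul, hw, hw,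
      show c₀ ModularGroup.S (ModularGroup.S • x) = -c₀ ModularGroup.S x from
      eq_neg_of_add_eq_zero_right (hu x), sub_neg_eq_add, ha]
  · obtain ⟨y, rfl⟩ := h.proj_surjective x
    rw [hcR, hvdef, h.fibreSum_eq rfl]
    simp only [projE, h.proj_rightMul, Finset.sum_sub_distrib, ← Finset.smul_sum,
      Finset.sum_add_distrib, ← h.rightMul_smul]
    rw [← h.fibreSum_eq rfl, ← h.fibreSum_eq (y := Gamma0.ST • y) rfl,
      ← h.fibreSum_eq (y := Gamma0.ST • Gamma0.ST • y) rfl, hw', hw', hw']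
    simp only [h.proj_smul, hv, nsmul_zero, sub_zero]

end IsCoreps

end Coset

/-! ## Hecke operators at elliptic elements -/

section Level

variable {M : ℕ} {K : Subgroup (ZMod M)ˣ} {n : ℕ} [hn : Fact n.Prime]

theorem isPerm_hRep_unique {g : GLR} {σ τ : HIdx M n → HIdx M n}
    (hσ : IsPerm (gammaH M K) (hRep M n) g σ) (hτ : IsPerm (gammaH M K) (hRep M n) g τ) :
    σ = τ := funext fun i => hRep_injective_mod (Γ := gammaH M K) _ _ (by
  have := mul_mem (inv_mem (hσ.2 i)) (hτ.2 i)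
  simpa [mul_assoc] using this)

/-- The entries of the decomposition have the class of the element. -/
theorem mul_inv_mem_of_hRep {γ c : SL(2, ℤ)} (hγ : γ ∈ Gamma0 M) (hc : c ∈ Gamma0 M)
    {i j : HIdx M n}
    (he : (mapGL ℝ c : GLR) = hRep M n i * mapGL ℝ γ * (hRep M n j)⁻¹) :
    c * γ⁻¹ ∈ gammaH M K := by
  obtain ⟨X, hX, -, hXc, x, hx, hXa⟩ := hRep_mem_heckeSet (K := (⊥ : Subgroup (ZMod M)ˣ)) i
  obtain ⟨Y, hY, -, hYc, y, hy, hYa⟩ := hRep_mem_heckeSet (K := (⊥ : Subgroup (ZMod M)ˣ)) j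
  rw [Subgroup.mem_bot] at hx hy
  subst hx hy
  have heq : hRep M n i * mapGL ℝ γ = mapGL ℝ c * hRep M n j := by
    rw [he, inv_mul_cancel_right]
  have e := congrArg (fun m : Matrix (Fin 2) (Fin 2) ℤ => (m 0 0 : ZMod M))
    ((hX.mul (isIntMat_mapGL _)).unique (heq ▸ (isIntMat_mapGL _).mul hY))
  have hγc := Gamma0_mem.1 hγ
  simp [Matrix.mul_apply, Fin.sum_univ_two, hXa, hYa, hYc, hγc] at e
  exact gamma0_mul_inv_mem hc hγ (one_mem K) (by rw [Units.val_one, one_mul, e])

theorem not_root_of_mod_three (hn3 : n % 3 = 2) {y : ZMod n} : y ^ 2 + y + 1 ≠ 0 := by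
  intro hy
  have hy0 : y ≠ 0 := fun h => by simp [h] at hy
  have h3 : y ^ 3 = 1 := by linear_combination (y - 1) * hy
  have hp := ZMod.pow_card_sub_one_eq_one hy0
  obtain ⟨k, hk⟩ : ∃ k, n - 1 = 3 * k + 1 := ⟨n / 3, by omega⟩
  rw [hk, pow_succ, pow_mul, h3, one_pow, one_mul] at hp
  subst hp
  have h33 : ((3 : ℕ) : ZMod n) = 0 := by
    rw [show ((3 : ℕ) : ZMod n) = 1 ^ 2 + 1 + 1 by norm_num]
    exact hy
  have := (Nat.prime_dvd_prime_iff_eq hn.out Nat.prime_three).1
    ((ZMod.natCast_eq_zero_iff _ _).1 h33)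
  omega

theorem eq_neg_one_or_trace {γ : SL(2, ℤ)} (h : γ ^ 3 = -1) :
    γ = -1 ∨ γ 0 0 + γ 1 1 = 1 := by
  have hd := Gamma0.det_eq γ
  have e := congrArg (fun g : SL(2, ℤ) => (g : Matrix (Fin 2) (Fin 2) ℤ)) h
  simp only [pow_succ, pow_zero, one_mul] at e
  have e00 := congrFun (congrFun e 0) 0
  have e11 := congrFun (congrFun e 1) 1
  have e01 := congrFun (congrFun e 0) 1
  have e10 := congrFun (congrFun e 1) 0
  simp [Matrix.mul_apply, Fin.sum_univ_two] at e00 e11 e01 e10
  set a := γ 0 0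
  set b := γ 0 1
  set c := γ 1 0
  set d := γ 1 1
  set t := a + d with ht
  have f00 : (t ^ 2 - 1) * a - t = -1 := by
    rw [ht]; linear_combination e00 + (2 * a + d) * hd
  have f11 : (t ^ 2 - 1) * d - t = -1 := by
    rw [ht]; linear_combination e11 + (a + 2 * d) * hd
  have f01 : (t ^ 2 - 1) * b = 0 := by
    rw [ht]; linear_combination e01 + b * hd
  have f10 : (t ^ 2 - 1) * c = 0 := by
    rw [ht]; linear_combination e10 + c * hd
  have : (t - 1) * ((t - 1) * (t + 2)) = 0 := by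
    rw [ht] at f00 f11 ⊢; linear_combination f00 + f11
  rcases mul_eq_zero.1 this with h' | h'
  · right; linarith
  rcases mul_eq_zero.1 h' with h' | h'
  · right; linarith
  left
  have ht2 : t = -2 := by linarith
  rw [ht2] at f00 f11 f01 f10
  have ha : a = -1 := by linarith
  have hb : b = 0 := by linarith
  have hc' : c = 0 := by linarith
  have hd' : d = -1 := by linarith
  ext i j
  fin_cases i <;> fin_cases j
  · simpa using ha
  · simpa using hb
  · simpa using hc'
  · simpa using hd'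

theorem mapGL_neg_one : (mapGL ℝ (-1 : SL(2, ℤ)) : GLR) = -1 := by
  ext i j
  fin_cases i <;> fin_cases j <;> simp

/-- For a prime `n ≡ 2 (mod 3)` an element of trace one fixes no coset of `T_n`. -/
theorem hRep_conj_notMem (hn3 : n % 3 = 2) {γ : SL(2, ℤ)} (ht : γ 0 0 + γ 1 1 = 1)
    {i : HIdx M n} {c : SL(2, ℤ)}
    (he : (mapGL ℝ c : GLR) = hRep M n i * mapGL ℝ γ * (hRep M n i)⁻¹) : False := by
  have hd := Gamma0.det_eq γ
  suffices ∃ x : ZMod n, x ^ 2 - x + 1 = 0 by
    obtain ⟨x, hx⟩ := this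
    exact not_root_of_mod_three hn3 (y := -x) (by linear_combination hx)
  have hdz : (γ 0 0 : ZMod n) * (γ 1 1 : ℤ) - (γ 0 1 : ℤ) * (γ 1 0 : ℤ) = 1 := by
    exact_mod_cast congrArg (Int.cast : ℤ → ZMod n) hd
  have htz : (γ 0 0 : ZMod n) + (γ 1 1 : ℤ) = 1 := by
    exact_mod_cast congrArg (Int.cast : ℤ → ZMod n) ht
  rcases i with ⟨_ | j, hi⟩
  · set g := gamma0Elt (ZMod.unitOfCoprime n
      ((Nat.Prime.coprime_iff_not_dvd hn.out).2 (hi rfl)))⁻¹
    have he' : mapGL ℝ (g⁻¹ * c * g) * ModularForm.heckeDiagMatrix n =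
        ModularForm.heckeDiagMatrix n * mapGL ℝ γ := by
      rw [map_mul, map_mul, map_inv, he]
      show (mapGL ℝ g)⁻¹ * ((mapGL ℝ g * ModularForm.heckeDiagMatrix n) * mapGL ℝ γ *
        (mapGL ℝ g * ModularForm.heckeDiagMatrix n)⁻¹) * mapGL ℝ g *
          ModularForm.heckeDiagMatrix n = _
      group
    have e := ((isIntMat_mapGL _).mul (isIntMat_heckeDiagMatrix (n := n))).unique
      (he'.symm ▸ (isIntMat_heckeDiagMatrix (n := n)).mul (isIntMat_mapGL γ))
    have e10 := congrArg (Int.cast : ℤ → ZMod n) (congrFun (congrFun e 1) 0)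
    simp only [coe_mul, coe_inv, Matrix.mul_apply, Fin.sum_univ_two, Matrix.of_apply,
      Matrix.cons_val', Matrix.cons_val_zero, Matrix.cons_val_fin_one, Matrix.cons_val_one,
      mul_zero, add_zero, Int.cast_mul, Int.cast_add, Int.cast_natCast, CharP.cast_eq_zero,
      zero_mul, one_mul, zero_add] at e10
    refine ⟨(γ 0 0 : ℤ), ?_⟩
    rw [← e10] at hdz
    linear_combination (γ 0 0 : ZMod n) * htz - hdz
  · have he' : mapGL ℝ c * ModularForm.heckeMatrix n (j : ℕ) =
        ModularForm.heckeMatrix n (j : ℕ) * mapGL ℝ γ := by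
      rw [he]
      show ModularForm.heckeMatrix n (j : ℕ) * mapGL ℝ γ *
        (ModularForm.heckeMatrix n (j : ℕ))⁻¹ * ModularForm.heckeMatrix n (j : ℕ) = _
      rw [inv_mul_cancel_right]
    have e := ((isIntMat_mapGL _).mul (isIntMat_heckeMatrix (n := n) (j : ℕ))).unique
      (he'.symm ▸ (isIntMat_heckeMatrix (n := n) (j : ℕ)).mul (isIntMat_mapGL γ))
    have e00 := congrArg (Int.cast : ℤ → ZMod n) (congrFun (congrFun e 0) 0)
    have e01 := congrArg (Int.cast : ℤ → ZMod n) (congrFun (congrFun e 0) 1)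
    simp only [Matrix.mul_apply, Matrix.of_apply, Matrix.cons_val', Matrix.cons_val_zero,
      Matrix.cons_val_fin_one, Fin.sum_univ_two, mul_one, Matrix.cons_val_one, mul_zero, add_zero,
      one_mul, Int.cast_add, Int.cast_mul, Int.cast_natCast, CharP.cast_eq_zero] at e00 e01
    refine ⟨(γ 0 0 : ℤ) + ((j : ℕ) : ZMod n) * (γ 1 0 : ℤ), ?_⟩
    rw [e00] at e01
    linear_combination ((γ 0 0 : ZMod n) + ((j : ℕ) : ZMod n) * (γ 1 0 : ℤ)) * htz +
      (γ 1 0 : ZMod n) * e01 - hdz

variable {A : Type*} [AddCommGroup A] (R : Type*) [Semiring R] [Module R A]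

/-- `T_n φ` vanishes on the elements of cube `-1`, for `n ≡ 2 mod 3`. -/
theorem hecke_elliptic (hn3 : n % 3 = 2) (hneg : -1 ∈ K) (h2 : IsUnit (2 : R))
    (φ : Additive (gammaH M K) →+ A) (γ : gammaH M K) (hγ : (γ : SL(2, ℤ)) ^ 3 = -1) :
    hecke M K n R φ (Additive.ofMul γ) = 0 := by
  have hnegΓ := neg_one_mem_gammaH (M := M) hneg
  rcases eq_neg_one_or_trace hγ with h1 | ht
  · rw [show γ = ⟨-1, hnegΓ⟩ from Subtype.ext h1]
    exact IsCoreps.apply_neg_one h2 hnegΓ _
  obtain ⟨σ, hσ⟩ := admissible_hRep (M := M) (K := K) (n := n) γ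
  choose c hc using fun i => exists_of_mem_img (hσ.2 i)
  have hneg' : IsPerm (gammaH M K) (hRep M n) (mapGL ℝ (-1 : SL(2, ℤ))) id :=
    ⟨Function.bijective_id, fun i => by
      rw [id, mapGL_neg_one, mul_neg_one, neg_mul, mul_inv_cancel, ← mapGL_neg_one]
      exact mapGL_mem_img.2 hnegΓ⟩
  have hcube : (mapGL ℝ (γ : SL(2, ℤ)) : GLR) * mapGL ℝ (γ : SL(2, ℤ)) *
      mapGL ℝ (γ : SL(2, ℤ)) = mapGL ℝ (-1 : SL(2, ℤ)) := by
    rw [← map_mul, ← map_mul, ← hγ, pow_succ, pow_two]
  have h3 : ∀ i, σ (σ (σ i)) = i := fun i => by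
    have := (hσ.mul hσ).mul hσ
    rw [hcube] at this
    exact congrFun (isPerm_hRep_unique this hneg') i
  have hfix : ∀ i, σ i ≠ i := fun i hi => hRep_conj_notMem hn3 ht (by rw [hc i, hi])
  unfold hecke
  rw [opOf_apply_of_isPerm _ _ _ hσ]
  simp only [← hc, onImg_mapGL]
  refine sum_eq_zero_of_orbit h3 hfix _ fun i => ?_
  rw [← map_add, ← map_add, ← ofMul_mul, ← ofMul_mul,
    show c i * c (σ i) * c (σ (σ i)) = ⟨-1, hnegΓ⟩ from Subtype.ext
    (Periods.mapGL_int_injective ?_)]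
  · exact IsCoreps.apply_neg_one h2 hnegΓ _
  · simp only [Subgroup.coe_mul, map_mul, hc, h3]
    calc _ = hRep M n i * (mapGL ℝ (γ : SL(2, ℤ)) * mapGL ℝ (γ : SL(2, ℤ)) *
          mapGL ℝ (γ : SL(2, ℤ))) * (hRep M n i)⁻¹ := by group
      _ = _ := by rw [hcube, mapGL_neg_one, mul_neg_one, neg_mul, mul_inv_cancel]

/-- An invariant homomorphism is invariant under conjugation by `Γ₀(M)`. -/
private theorem apply_conj_eq {φ : Additive (gammaH M K) →+ A}
    (hφ : ∀ u, diamond M K R u φ = φ) (g : gammaH M (⊤ : Subgroup (ZMod M)ˣ)) (x : gammaH M K) :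
    φ (Additive.ofMul ⟨(g : SL(2, ℤ)) * x * (g : SL(2, ℤ))⁻¹,
      gammaH_conj (mem_Gamma0_of_mem g.2) x.2⟩) = φ (Additive.ofMul x) := by
  obtain ⟨q, hc⟩ := (isCoreps_deltaRep (M := M) (K := K)).surj g g.2
  set y : gammaH M K := ⟨_, hc⟩
  set z : gammaH M K := ⟨_, gammaH_conj (deltaRep_mem q) x.2⟩
  have hz : φ (Additive.ofMul z) = φ (Additive.ofMul x) := by
    conv_rhs => rw [← hφ q.out, diamond_apply]
    rfl
  rw [show (⟨_, gammaH_conj (mem_Gamma0_of_mem g.2) x.2⟩ : gammaH M K) = y * z * y⁻¹ from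
    Subtype.ext (by simp [y, z, mul_assoc]), ofMul_mul, ofMul_mul, map_add, map_add, ofMul_inv,
    map_neg, hz]
  abel

/-- `T_n - n - 1` maps invariant homomorphisms to restrictions. -/
theorem exists_resTop_eq_hecke_sub (hnM : ¬ n ∣ M) (φ : Additive (gammaH M K) →+ A)
    (hφ : ∀ u, diamond M K R u φ = φ) :
    ∃ h : Additive (gammaH M (⊤ : Subgroup (ZMod M)ˣ)) →+ A,
      resTop R K h = hecke M K n R φ - (n + 1) • φ := by
  set Γ := gammaH M (⊤ : Subgroup (ZMod M)ˣ)
  have hcor := isCoreps_deltaRep (M := M) (K := K)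
  choose cls hcls using fun g : Γ => hcor.surj g g.2
  have hcls' : ∀ (g : Γ) q, (g : SL(2, ℤ)) * (deltaRep K q)⁻¹ ∈ gammaH M K → cls g = q :=
    fun g q hq => hcor.inj _ _ (by
      have := mul_mem (inv_mem (hcls g)) hq
      simpa [mul_assoc] using this)
  set ψ : Γ → A := fun g => φ (Additive.ofMul ⟨_, hcls g⟩)
  have hψ : ∀ (x : gammaH M K) (g : Γ),
      ψ (Subgroup.inclusion le_top_gammaH x * g) = φ (Additive.ofMul x) + ψ g := fun x g => by
    have hcl : cls (Subgroup.inclusion le_top_gammaH x * g) = cls g := hcls' _ _ (by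
      rw [Subgroup.coe_mul, Subgroup.coe_inclusion, mul_assoc]
      exact mul_mem x.2 (hcls g))
    simp only [ψ]
    rw [← map_add, ← ofMul_mul]
    exact congrArg _ (congrArg _ (Subtype.ext (by simp [hcl, mul_assoc])))
  set f : Γ → A := fun g => ψ g - ψ 1
  have hf : ∀ (x : gammaH M K) (g : Γ),
      f (Subgroup.inclusion le_top_gammaH x * g) = φ (Additive.ofMul x) + f g := fun x g => by
    simp only [f, hψ]
    abel
  have hfΓ : ∀ x : gammaH M K, f (Subgroup.inclusion le_top_gammaH x) = φ (Additive.ofMul x) :=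
    fun x => by
      conv_lhs => rw [← mul_one (Subgroup.inclusion le_top_gammaH x)]
      rw [hf]
      simp [f]
  set D : Γ → Γ → A := fun a b => f (a * b) - f a - f b
  have hD : ∀ (x y : gammaH M K) (a b : Γ), D (Subgroup.inclusion le_top_gammaH x * a)
      (Subgroup.inclusion le_top_gammaH y * b) = D a b := by
    intro x y a b
    set y' : gammaH M K := ⟨_, gammaH_conj (mem_Gamma0_of_mem a.2) y.2⟩
    have he : Subgroup.inclusion le_top_gammaH x * a * (Subgroup.inclusion le_top_gammaH y * b) =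
        Subgroup.inclusion le_top_gammaH x * (Subgroup.inclusion le_top_gammaH y' * (a * b)) :=
      Subtype.ext (by simp [y', mul_assoc])
    simp only [D, he, hf, y', apply_conj_eq (R := R) hφ]
    abel
  choose τ hτ using fun g : Γ => admissible_hRep (M := M) (K := ⊤) (n := n) g
  choose c hc using fun (g : Γ) i => exists_of_mem_img ((hτ g).2 i)
  have hclass : ∀ g i, ∃ x : gammaH M K, c g i = Subgroup.inclusion le_top_gammaH x * g :=
    fun g i => ⟨⟨_, mul_inv_mem_of_hRep (mem_Gamma0_of_mem g.2) (mem_Gamma0_of_mem (c g i).2)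
      (hc g i)⟩, Subtype.ext (by simp)⟩
  have hmul : ∀ (a b : Γ) i, c (a * b) i = c a i * c b (τ a i) := fun a b i => by
    have h' : τ (a * b) = τ b ∘ τ a := by
      refine isPerm_hRep_unique (hτ (a * b)) ?_
      rw [Subgroup.coe_mul, map_mul]
      exact (hτ a).mul (hτ b)
    refine Subtype.ext (Periods.mapGL_int_injective ?_)
    simp only [Subgroup.coe_mul, map_mul, hc, h', Function.comp]
    group
  set H : Γ → A := fun g => ∑ i, f (c g i)
  have hH : ∀ a b, H (a * b) = H a + H b + Fintype.card (HIdx M n) • D a b := fun a b => by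
    simp only [H, hmul]
    rw [← (hτ a).1.sum_comp fun i => f (c b i), ← Finset.card_univ, ← Finset.sum_const,
      ← Finset.sum_add_distrib, ← Finset.sum_add_distrib]
    refine Finset.sum_congr rfl fun i _ => ?_
    obtain ⟨x, hx⟩ := hclass a i
    obtain ⟨y, hy⟩ := hclass b (τ a i)
    rw [← hD x y a b, ← hx, ← hy]
    simp only [D]
    abel
  refine ⟨AddMonoidHom.mk' (fun g => H (Additive.toMul g) - (n + 1) • f (Additive.toMul g))
    (fun a b => ?_), ?_⟩
  · rw [toMul_add, hH, card_hIdx hnM]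
    simp only [D, nsmul_sub]
    abel
  refine AddMonoidHom.ext fun x => ?_
  obtain ⟨γ, rfl⟩ := Additive.ofMul.surjective x
  rw [resTop, res_apply, AddMonoidHom.sub_apply, AddMonoidHom.smul_apply, ← hfΓ γ]
  show H (Subgroup.inclusion le_top_gammaH γ) - _ = _
  congr 1
  set g := Subgroup.inclusion le_top_gammaH γ
  have hmem : ∀ i, (c g i : SL(2, ℤ)) ∈ gammaH M K := fun i => by
    obtain ⟨x, hx⟩ := hclass g i
    rw [hx]
    exact mul_mem x.2 γ.2
  have hperm : IsPerm (gammaH M K) (hRep M n) (mapGL ℝ (γ : SL(2, ℤ))) (τ g) :=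
    ⟨(hτ g).1, fun i => by
      have := mapGL_mem_img.2 (hmem i)
      rwa [hc g i] at this⟩
  unfold hecke
  rw [opOf_apply_of_isPerm _ _ _ hperm]
  refine Finset.sum_congr rfl fun i _ => ?_
  rw [show hRep M n i * mapGL ℝ (γ : SL(2, ℤ)) * (hRep M n (τ g i))⁻¹ =
    mapGL ℝ (c g i : SL(2, ℤ)) from (hc g i).symm]
  exact (hfΓ ⟨_, hmem i⟩).trans (onImg_mapGL φ ⟨_, hmem i⟩).symm

end Level

end Fermat.Agent.RT.GammaH
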