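import Mathlib.RingTheory.AdicCompletion.Basic
import Mathlib.RingTheory.Localization.AtPrime.Basic
import Fermat.Prelude.Thm_Algebra_finite_maximalSpectrum_and_bijective_localization_of_module_finite

/-!
# Localisation at a maximal ideal of the operators, as a direct summand

For a commutative algebra `𝔸` of operators on a finite free module `H` over a complete local ring,
an element `e` projects `H` onto its localisation at a maximal ideal `m` of `𝔸`: it is idempotent on
`H`, congruent to `1` modulo `m`, and every element outside `m` is invertible on its range.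
-/

set_option autoImplicit false

noncomputable section

namespace Fermat.Agent.RT.GammaH

open IsLocalRing

variable {O : Type} [CommRing O] {𝔸 : Type} [CommRing 𝔸] [Algebra O 𝔸]

/-- `e` cuts out the localisation of `H` at `m`. -/
structure IsLocalizer (m : Ideal 𝔸) (H : Type*) [AddCommGroup H] [Module 𝔸 H] (e : 𝔸) : Prop where
  sub_one_mem : e - 1 ∈ m
  idem : ∀ x : H, e • e • x = e • x
  invert : ∀ t ∉ m, ∃ t', ∀ x : H, (t * t' * e) • x = e • x

/-- A finite free module over a complete local ring has a localiser at every maximal ideal. -/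
theorem exists_isLocalizer [IsLocalRing O] [IsNoetherianRing O]
    [IsAdicComplete (maximalIdeal O) O] (m : Ideal 𝔸) [m.IsMaximal] (H : Type) [AddCommGroup H]
    [Module 𝔸 H] [Module O H] [IsScalarTower O 𝔸 H] [Module.Finite O H] :
    ∃ e, IsLocalizer m H e := by
  classical
  let φ : 𝔸 →ₐ[O] Module.End O H := Algebra.lsmul O O H
  -- the image `B` of `𝔸` in `End H` is finite over `O`, so a product of local rings
  set B := 𝔸 ⧸ RingHom.ker φ
  have : Module.Finite O B :=
    Module.Finite.of_injective (Ideal.kerLiftAlg φ).toLinearMap (Ideal.kerLiftAlg_injective φ)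
  set π : 𝔸 →+* B := Ideal.Quotient.mk (RingHom.ker φ)
  have hπ : Function.Surjective π := Ideal.Quotient.mk_surjective
  have hsmul : ∀ {a b : 𝔸}, π a = π b → ∀ x : H, a • x = b • x := fun {a b} h x => by
    have h' : φ a = φ b := by
      rw [Ideal.Quotient.eq, RingHom.mem_ker, map_sub, sub_eq_zero] at h
      exact h
    exact LinearMap.congr_fun h' x
  rcases Ideal.map_eq_top_or_isMaximal_of_surjective π hπ (inferInstance : m.IsMaximal) with
    htop | hmax
  -- if `m` becomes the unit ideal, the localised part is zero
  · obtain ⟨a, ha, ha1⟩ := (Ideal.mem_map_iff_of_surjective π hπ).1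
      (htop ▸ Submodule.mem_top : (1 : B) ∈ Ideal.map π m)
    have h0 : ∀ x : H, (1 - a) • x = 0 := fun x => by
      rw [hsmul (a := 1 - a) (b := 0) (by rw [map_sub, map_one, ha1, sub_self, map_zero]) x,
        zero_smul]
    refine ⟨1 - a, by simpa using neg_mem ha, fun x => by rw [h0, h0], fun t _ => ⟨0, fun x => ?_⟩⟩
    simp [h0]
  · obtain ⟨-, hbij, -, -⟩ :=
      Algebra.finite_maximalSpectrum_and_bijective_localization_of_module_finite (𝒪 := O) B
    set Φ := RingHom.pi fun I : MaximalSpectrum B => algebraMap B (Localization.AtPrime I.asIdeal)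
    set I₀ : MaximalSpectrum B := ⟨Ideal.map π m, hmax⟩
    -- otherwise take the idempotent of the factor at `m`
    obtain ⟨ē, hē⟩ := hbij.2 (Pi.single I₀ 1)
    obtain ⟨e, rfl⟩ := hπ ē
    have hcomap : Ideal.comap π (Ideal.map π m) = m :=
      ((inferInstance : m.IsMaximal).eq_of_le
        (Ideal.IsPrime.comap π).ne_top Ideal.le_comap_map).symm
    refine ⟨e, ?_, fun x => ?_, fun t ht => ?_⟩
    · rw [← hcomap, Ideal.mem_comap]
      by_contra h
      have hu := (IsLocalization.AtPrime.isUnit_to_map_iff (Localization.AtPrime I₀.asIdeal)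
        I₀.asIdeal (π (e - 1))).2 h
      have h0 : algebraMap B (Localization.AtPrime I₀.asIdeal) (π (e - 1)) = 0 := by
        have := congrFun hē I₀
        rw [Pi.single_eq_same] at this
        rw [map_sub, map_sub, map_one, map_one, sub_eq_zero]
        exact this
      rw [h0] at hu
      exact not_isUnit_zero hu
    · rw [smul_smul]
      refine hsmul (hbij.1 ?_) x
      rw [map_mul, map_mul, hē, ← Pi.single_mul, one_mul]
    · have hu : IsUnit (algebraMap B (Localization.AtPrime I₀.asIdeal) (π t)) :=
        (IsLocalization.AtPrime.isUnit_to_map_iff _ I₀.asIdeal _).2 fun h => ht (hcomap ▸ h)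
      obtain ⟨u, hu⟩ := hu
      -- elements outside `m` are invertible in that factor
      obtain ⟨t₁, ht₁⟩ := hbij.2 (Pi.single I₀ (u⁻¹ : (Localization.AtPrime I₀.asIdeal)ˣ).val)
      obtain ⟨t', rfl⟩ := hπ t₁
      refine ⟨t', fun x => hsmul (hbij.1 ?_) x⟩
      rw [map_mul, map_mul, map_mul, map_mul, ht₁, hē]
      funext I
      by_cases hI : I = I₀
      · subst hI
        simp only [Pi.mul_apply, Pi.single_eq_same, mul_one]
        show algebraMap B _ (π t) * _ = 1
        rw [← hu, Units.mul_inv]
      · simp [Pi.single_eq_of_ne hI]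

section

variable {m : Ideal 𝔸} {e : 𝔸} {H : Type*} [AddCommGroup H] [Module 𝔸 H]

/-- A localiser of `H` is one of every submodule. -/
theorem IsLocalizer.of_injective (h : IsLocalizer m H e) {H' : Type*} [AddCommGroup H']
    [Module 𝔸 H'] (f : H' →ₗ[𝔸] H) (hf : Function.Injective f) : IsLocalizer m H' e where
  sub_one_mem := h.sub_one_mem
  idem x := hf (by rw [map_smul, map_smul, h.idem])
  invert t ht := (h.invert t ht).imp fun _ ht' x => hf (by rw [map_smul, map_smul, ht'])

/-- If `e` is a localiser at `m`, elements outside `m` act injectively on the part fixed by `e`. -/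
theorem IsLocalizer.eq_zero_of_smul_eq_zero (h : IsLocalizer m H e) {t : 𝔸} (ht : t ∉ m) {x : H}
    (hx : e • x = x) (h0 : t • x = 0) : x = 0 := by
  obtain ⟨t', ht'⟩ := h.invert t ht
  rw [← hx, ← ht' x, show t * t' * e = t' * e * t by ring, mul_smul, h0, smul_zero]

variable (O) in
/-- The localised module: the range of `e`. -/
def localPart (e : 𝔸) (H : Type*) [AddCommGroup H] [Module 𝔸 H] [Module O H]
    [IsScalarTower O 𝔸 H] : Submodule O H where
  carrier := {x | e • x = x}
  zero_mem' := smul_zero e
  add_mem' {x y} (hx : e • x = x) (hy : e • y = y) := by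
    show e • (x + y) = x + y
    rw [smul_add, hx, hy]
  smul_mem' c x (hx : e • x = x) := by
    show e • (c • x) = c • x
    rw [smul_comm, hx]

variable [Module O H] [IsScalarTower O 𝔸 H]

/-- The localised module consists of the elements fixed by `e`. -/
theorem mem_localPart {x : H} : x ∈ localPart O e H ↔ e • x = x := Iff.rfl

/-- The localised module is stable under the operators. -/
theorem smul_mem_localPart (a : 𝔸) {x : H} (hx : x ∈ localPart O e H) :
    a • x ∈ localPart O e H := by
  rw [mem_localPart] at hx ⊢
  rw [smul_comm, hx]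

/-- A localiser maps `H` into the localised module. -/
theorem IsLocalizer.smul_self_mem (h : IsLocalizer m H e) (x : H) : e • x ∈ localPart O e H :=
  h.idem x

variable (O) in
/-- The operators on the localised module. -/
def localAct (e : 𝔸) (H : Type*) [AddCommGroup H] [Module 𝔸 H] [Module O H]
    [IsScalarTower O 𝔸 H] : 𝔸 →ₐ[O] Module.End O (localPart O e H) where
  toFun a :=
    { toFun := fun x => ⟨a • (x : H), smul_mem_localPart a x.2⟩
      map_add' := fun x y => Subtype.ext (smul_add a (x : H) y)
      map_smul' := fun c x => Subtype.ext (smul_comm a c (x : H)) }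
  map_one' := LinearMap.ext fun x => Subtype.ext (one_smul 𝔸 (x : H))
  map_mul' a b := LinearMap.ext fun x => Subtype.ext (mul_smul a b (x : H))
  map_zero' := LinearMap.ext fun x => Subtype.ext (zero_smul 𝔸 (x : H))
  map_add' a b := LinearMap.ext fun x => Subtype.ext (add_smul a b (x : H))
  commutes' c := LinearMap.ext fun x => Subtype.ext (algebraMap_smul 𝔸 c (x : H))

/-- Elements of `m` are topologically nilpotent on the localised module. -/
theorem IsLocalizer.exists_pow_smul_mem [IsLocalRing O] [Finite (ResidueField O)]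
    [IsNoetherianRing O] [Module.Finite O H] (h : IsLocalizer m H e) {r : 𝔸} (hr : r ∈ m)
    (hm : m ≠ ⊤) :
    ∃ n : ℕ, ∀ x ∈ localPart O e H, r ^ n • x ∈ maximalIdeal O • localPart O e H := by
  set M := localPart O e H
  -- modulo `𝔪_O` the module is finite, so two powers of `r` act alike
  set Q := M ⧸ (maximalIdeal O • ⊤ : Submodule O M)
  have : Finite Q := by
    have : Finite (O ⧸ maximalIdeal O) := ‹Finite (ResidueField O)›
    exact Module.finite_of_finite (O ⧸ maximalIdeal O)
  let f : 𝔸 → Q → Q := fun a => Submodule.mapQ _ _ (localAct O e H a) (fun x hx => by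
    rw [Submodule.mem_comap]
    refine Submodule.smul_induction_on hx (fun c hc y _ => ?_) fun y z hy hz => ?_
    · rw [map_smul]
      exact Submodule.smul_mem_smul hc Submodule.mem_top
    · rw [map_add]
      exact add_mem hy hz)
  obtain ⟨i, j, hij, hfij⟩ := Finite.exists_ne_map_eq_of_infinite fun n : ℕ => f (r ^ n)
  obtain ⟨a, b, hab, hfab⟩ : ∃ a b, a < b ∧ f (r ^ a) = f (r ^ b) := by
    rcases lt_or_gt_of_ne hij with hlt | hlt
    exacts [⟨i, j, hlt, hfij⟩, ⟨j, i, hlt, hfij.symm⟩]
  refine ⟨a, fun x hx => ?_⟩
  -- `1 - r ^ (b - a)` is outside `m`, hence invertible on the localised part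
  set s := 1 - r ^ (b - a) with hs
  have hsm : s ∉ m := fun hc => hm ((Ideal.eq_top_iff_one m).2 <| by
    have := add_mem hc (Ideal.pow_mem_of_mem m hr (b - a) (by omega))
    rwa [hs, sub_add_cancel] at this)
  obtain ⟨t, ht⟩ := h.invert s hsm
  -- so `r ^ a • x` is a multiple of `r ^ a • x - r ^ b • x`
  have hq : r ^ a • x = t • (r ^ a • x - r ^ b • x) := by
    rw [← sub_smul, smul_smul, show r ^ a - r ^ b = r ^ a * s by
      rw [hs, mul_sub, mul_one, ← pow_add]; congr 2; omega,
      ← show e • x = x from hx, smul_smul, smul_smul,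
      show t * (r ^ a * s) * e = r ^ a * (s * t * e) by ring, mul_smul (r ^ a) (s * t * e), ht,
      ← mul_smul]
  have hmem : ⟨r ^ a • x - r ^ b • x, sub_mem (smul_mem_localPart _ hx) (smul_mem_localPart _ hx)⟩ ∈
      (maximalIdeal O • ⊤ : Submodule O M) := by
    have := congrFun hfab (Submodule.Quotient.mk ⟨x, hx⟩)
    simp only [f, Submodule.mapQ_apply] at this
    exact (Submodule.Quotient.eq _).1 this
  have himg : ∀ {y : M}, y ∈ (maximalIdeal O • ⊤ : Submodule O M) →
      (y : H) ∈ maximalIdeal O • M := fun {y} hy => by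
    have := Submodule.mem_map_of_mem (f := M.subtype) hy
    rwa [Submodule.map_smul'', Submodule.map_top, Submodule.range_subtype] at this
  have htM : ∀ y ∈ maximalIdeal O • M, t • y ∈ maximalIdeal O • M := fun y hy => by
    induction hy using Submodule.smul_induction_on' with
    | smul c hc y hy =>
      rw [smul_comm]
      exact Submodule.smul_mem_smul hc (smul_mem_localPart t hy)
    | add y _ z _ hy hz =>
      rw [smul_add]
      exact add_mem hy hz
  rw [hq]
  exact htM _ (himg hmem)

end

end Fermat.Agent.RT.GammaH
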