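import Mathlib.GroupTheory.PGroup
import Mathlib.LinearAlgebra.FreeModule.PID
import Mathlib.RingTheory.DiscreteValuationRing.Basic
import Mathlib.RingTheory.Filtration
import Fermat.Agent.RT.GammaH.Localizer

/-!
# Freeness over a group ring from corestriction

`H` carries an action of a finite `p`-group `Δ` through operators congruent to `1` modulo `m`,
`C : H → H₀` is surjective, and `R : H₀ → H` satisfies `R ∘ C = ∑ δ`; modulo the uniformiser and up
to operators outside `m`, `R` is injective and its image contains the invariants. Then the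
localisation of `H` is free over `O[Δ]` of the rank of the localisation of `H₀`: a free submodule
over the group algebra of the residue field containing all invariants is everything.
-/

set_option autoImplicit false

noncomputable section

namespace Fermat.Agent.RT.GammaH

open IsLocalRing

variable {O : Type} [CommRing O] [IsDomain O] [IsDiscreteValuationRing O]
  {p : ℕ} [Fact p.Prime] [CharP (ResidueField O) p]
  {𝔸 : Type} [CommRing 𝔸] [Algebra O 𝔸] {Δ : Type} [CommGroup Δ]
  {H H₀ : Type} [AddCommGroup H] [Module 𝔸 H] [Module O H] [IsScalarTower O 𝔸 H]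
  [AddCommGroup H₀] [Module 𝔸 H₀] [Module O H₀] [IsScalarTower O 𝔸 H₀] [Module.Finite O H₀]

theorem exists_uniformizer_smul {ϖ : O} (hϖ : Irreducible ϖ) {N : Submodule O H} {x : H}
    (hx : x ∈ maximalIdeal O • N) : ∃ y ∈ N, ϖ • y = x := by
  rw [hϖ.maximalIdeal_eq, Submodule.ideal_span_singleton_smul] at hx
  exact (Submodule.mem_smul_pointwise_iff_exists x ϖ N).1 hx

/-- The action preserves the maximal ideal times the localisation. -/
private theorem smul_mem_maximal_smul {e : 𝔸} (a : 𝔸) {z : H}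
    (hz : z ∈ maximalIdeal O • localPart O e H) : a • z ∈ maximalIdeal O • localPart O e H := by
  induction hz using Submodule.smul_induction_on' with
  | smul c hc y hy =>
    rw [smul_comm]
    exact Submodule.smul_mem_smul hc (smul_mem_localPart a hy)
  | add y _ z _ hy hz =>
    rw [smul_add]
    exact add_mem hy hz

/-! ### The map given by the translates of a family -/

section Orbit

-- the section shares one block of hypotheses

variable {e : 𝔸} {ι : Type} (δ : Δ → 𝔸) (b : ι → localPart O e H)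

/-- Coefficients go to the combination of the translates of the family. -/
private def orbitMap : (ι × Δ →₀ O) →ₗ[O] H :=
  Finsupp.linearCombination O fun iq : ι × Δ => δ iq.2 • (b iq.1 : H)

omit [IsDomain O] [IsDiscreteValuationRing O] [CommGroup Δ] in
/-- The value of `orbitMap` as a sum. -/
private theorem orbitMap_apply (c : ι × Δ →₀ O) :
    orbitMap δ b c = c.sum fun iq x => x • δ iq.2 • (b iq.1 : H) :=
  Finsupp.linearCombination_apply O c

omit [IsDomain O] [IsDiscreteValuationRing O] [CommGroup Δ] in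
/-- `orbitMap` takes values in the localisation. -/
private theorem orbitMap_mem (c : ι × Δ →₀ O) : orbitMap δ b c ∈ localPart O e H := by
  rw [orbitMap_apply]
  exact Submodule.sum_mem _ fun iq _ =>
    Submodule.smul_mem _ _ (smul_mem_localPart _ (b iq.1).2)

omit [CommGroup Δ] in
/-- Coefficients in the maximal ideal give values in its multiple of the localisation. -/
private theorem orbitMap_mem_smul {c : ι × Δ →₀ O} (hc : ∀ iq, residue O (c iq) = 0) :
    orbitMap δ b c ∈ maximalIdeal O • localPart O e H := by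
  rw [orbitMap_apply]
  exact Submodule.sum_mem _ fun iq _ =>
    Submodule.smul_mem_smul ((residue_eq_zero_iff _).1 (hc iq))
      (smul_mem_localPart _ (b iq.1).2)

omit [IsDomain O] [IsDiscreteValuationRing O] in
/-- Translating the coefficients by `r` multiplies the value by `δ r`. -/
private theorem orbitMap_translate
    (hmul : ∀ q q' (x : H), δ (q * q') • x = δ q • δ q' • x) (r : Δ) (c : ι × Δ →₀ O) :
    orbitMap δ b (Finsupp.mapDomain (fun iq => (iq.1, r * iq.2)) c) = δ r • orbitMap δ b c := by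
  rw [orbitMap, Finsupp.linearCombination_mapDomain, Finsupp.linearCombination_apply,
    Finsupp.linearCombination_apply, Finsupp.sum, Finsupp.sum, Finset.smul_sum]
  refine Finset.sum_congr rfl fun iq _ => ?_
  show c iq • δ (r * iq.2) • (b iq.1 : H) = _
  rw [hmul, smul_comm]

omit [IsDomain O] [IsDiscreteValuationRing O] in
/-- The coefficients of a translate. -/
private theorem mapDomain_translate (a : Δ) (c : ι × Δ →₀ O) (i : ι) (r : Δ) :
    Finsupp.mapDomain (fun iq => (iq.1, a * iq.2)) c (i, r) = c (i, a⁻¹ * r) := by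
  conv_lhs => rw [show (i, r) = (fun iq : ι × Δ => (iq.1, a * iq.2)) (i, a⁻¹ * r) by simp]
  exact Finsupp.mapDomain_apply (fun x y h => by simpa [Prod.ext_iff] using h) _ _

variable [Fintype ι] [Fintype Δ]

omit [Module.Finite O H₀] [IsDomain O] [IsDiscreteValuationRing O] [CommGroup Δ] in
/-- `R` sends combinations of the basis below to combinations with constant coefficients. -/
private theorem R_sum_smul (C : H →ₗ[𝔸] H₀)
    (R : H₀ →ₗ[𝔸] H) (hRC : ∀ x, R (C x) = ∑ q, δ q • x) {w : ι → localPart O e H₀}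
    (hCb : ∀ i, C (b i : H) = w i) (a : ι → O) :
    R (∑ i, a i • (w i : H₀)) =
      orbitMap δ b (Finsupp.equivFunOnFinite.symm fun iq => a iq.1) := by
  rw [show (∑ i, a i • (w i : H₀)) = C (∑ i, a i • (b i : H)) by
      simp [map_sum, LinearMap.map_smul_of_tower, hCb],
    hRC, orbitMap_apply,
    Finsupp.sum_fintype _ (fun (iq : ι × Δ) x => x • δ iq.2 • (b iq.1 : H)) (fun _ =>
    zero_smul O _),
    Fintype.sum_prod_type_right]
  refine Finset.sum_congr rfl fun q _ => ?_
  rw [Finset.smul_sum]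
  exact Finset.sum_congr rfl fun i _ => smul_comm _ _ _

variable (w : Module.Basis ι O (localPart O e H₀))
  (C : H →ₗ[𝔸] H₀) (R : H₀ →ₗ[𝔸] H)

omit [Fintype ι] [Fintype Δ] in
/-- A nonzero group of families on `ι × Δ` over a field of characteristic `p` stable under
translation by the `p`-group `Δ` has a nonzero element constant along `Δ`. -/
private theorem exists_translate_fixed [Finite (ResidueField O)] [Finite ι] [Finite Δ]
    (hΔ : IsPGroup p Δ) {W₀ : AddSubgroup (ι × Δ → ResidueField O)} (hne : W₀ ≠ ⊥)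
    (hsm : ∀ (r : Δ) (u : ι × Δ → ResidueField O), u ∈ W₀ → (fun iq => u (iq.1, r⁻¹ * iq.2)) ∈ W₀) :
    ∃ u : W₀, u ≠ 0 ∧ ∀ i q, u.1 (i, q) = u.1 (i, 1) := by
  let : MulAction Δ W₀ :=
    { smul := fun r u => ⟨fun iq => u.1 (iq.1, r⁻¹ * iq.2), hsm r u.1 u.2⟩
      one_smul := fun u => Subtype.ext (funext fun iq => by
        show u.1 (iq.1, (1 : Δ)⁻¹ * iq.2) = u.1 iq
        simp)
      mul_smul := fun r r' u => Subtype.ext (funext fun iq => by
        show u.1 (iq.1, (r * r')⁻¹ * iq.2) = u.1 (iq.1, r'⁻¹ * (r⁻¹ * iq.2))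
        rw [mul_inv_rev, mul_assoc]) }
  obtain ⟨u₀, hu₀, hu₀ne⟩ := (AddSubgroup.bot_or_exists_ne_zero W₀).resolve_left hne
  have hp : p ∣ Nat.card W₀ := by
    have hord : p • (⟨u₀, hu₀⟩ : W₀) = 0 := Subtype.ext (funext fun iq => by
      show p • u₀ iq = 0
      rw [← Nat.cast_smul_eq_nsmul (ResidueField O), CharP.cast_eq_zero, zero_smul])
    have h1 : addOrderOf (⟨u₀, hu₀⟩ : W₀) = p :=
      addOrderOf_eq_prime hord fun h => hu₀ne (congrArg Subtype.val h)
    exact h1 ▸ addOrderOf_dvd_natCard (⟨u₀, hu₀⟩ : W₀)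
  obtain ⟨u, hu, hu0⟩ := hΔ.exists_fixed_point_of_prime_dvd_card_of_fixed_point W₀ hp
    (a := 0) (fun r => Subtype.ext (funext fun _ => rfl))
  refine ⟨u, fun h => hu0 h.symm, fun i q => ?_⟩
  have := congrFun (congrArg Subtype.val (hu q)) (i, q)
  change u.1 (i, q⁻¹ * q) = u.1 (i, q) at this
  rw [inv_mul_cancel] at this
  exact this.symm

omit [Module.Finite O H₀] in
/-- The translates are independent modulo the uniformiser: by a fixed point of the `p`-group `Δ`
a relation would give one with constant coefficients. -/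
private theorem orbitMap_coeff_mem [Finite (ResidueField O)] {m : Ideal 𝔸} (hΔ : IsPGroup p Δ)
    (heH₀ : IsLocalizer m H₀ e) (hmul : ∀ q q' (x : H), δ (q * q') • x = δ q • δ q' • x)
    (hRC : ∀ x, R (C x) = ∑ q, δ q • x) (hCb : ∀ i, C (b i : H) = w i)
    {ϖ : O} (hϖ : Irreducible ϖ) {t : 𝔸} (ht : t ∉ m)
    (hres : ∀ (x : H₀) (y : H), R x = ϖ • y → ∃ z : H₀, t • x = ϖ • z) :
    ∀ c, orbitMap δ b c ∈ maximalIdeal O • localPart O e H → ∀ iq, c iq ∈ maximalIdeal O := by
  classical
  let M := localPart O e H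
  let M₀ := localPart O e H₀
  let F := orbitMap δ b
  -- `W₀`: the residues of the coefficients with value divisible by the uniformiser.
  set W₀ : AddSubgroup (ι × Δ → ResidueField O) :=
    { carrier := {u | ∃ c, F c ∈ maximalIdeal O • M ∧ ∀ iq, residue O (c iq) = u iq}
      zero_mem' := ⟨0, by rw [map_zero]; exact zero_mem _, fun iq => by simp⟩
      add_mem' := by
        rintro u u' ⟨c, hc, hu⟩ ⟨c', hc', hu'⟩
        exact ⟨c + c', by rw [map_add]; exact add_mem hc hc', fun iq => by simp [hu, hu']⟩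
      neg_mem' := by
        rintro u ⟨c, hc, hu⟩
        exact ⟨-c, by rw [map_neg]; exact neg_mem hc, fun iq => by simp [hu]⟩ }
  suffices hW : W₀ = ⊥ by
    intro c hc iq
    have h0 : (fun iq => residue O (c iq)) ∈ W₀ := ⟨c, hc, fun _ => rfl⟩
    rw [hW, AddSubgroup.mem_bot] at h0
    exact (residue_eq_zero_iff _).1 (congrFun h0 iq)
  by_contra hne
  -- It is stable under translation, so if nonzero it has a nonzero element `u` constant along `Δ`.
  have hsm : ∀ (r : Δ) (u : ι × Δ → ResidueField O), u ∈ W₀ →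
      (fun iq => u (iq.1, r⁻¹ * iq.2)) ∈ W₀ := by
    rintro r u ⟨c, hc, hu⟩
    refine ⟨Finsupp.mapDomain (fun iq => (iq.1, r * iq.2)) c, ?_, fun iq => ?_⟩
    · rw [orbitMap_translate δ b hmul]
      exact smul_mem_maximal_smul _ hc
    · show _ = u (iq.1, r⁻¹ * iq.2)
      rw [← hu, mapDomain_translate]
  obtain ⟨u, hu0, hfix⟩ := exists_translate_fixed hΔ hne hsm
  obtain ⟨c, hc, hcu⟩ := u.2
  -- `u` being constant along `Δ`, the constant coefficients `c'` still give a multiple of `ϖ`.
  set a : ι → O := fun i => c (i, 1)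
  set c' : ι × Δ →₀ O := Finsupp.equivFunOnFinite.symm fun iq => a iq.1
  have hdiff : F (c - c') ∈ maximalIdeal O • M := by
    rw [orbitMap_apply]
    refine Submodule.sum_mem _ fun iq _ =>
      Submodule.smul_mem_smul ?_ (smul_mem_localPart _ (b iq.1).2)
    rw [← residue_eq_zero_iff]
    simp [c', a, hcu, hfix iq.1 iq.2]
  have hc' : F c' ∈ maximalIdeal O • M := by
    have := sub_mem hc hdiff
    rwa [map_sub, sub_sub_cancel] at this
  obtain ⟨y, -, hy⟩ := exists_uniformizer_smul hϖ hc'
  -- That value is `R w₀`; so `w₀` is `ϖ` times an element of the localisation, and `u = 0`.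
  set w₀ : H₀ := ∑ i, a i • (w i : H₀) with hw₀
  have hRw : R w₀ = F c' := R_sum_smul δ b C R hRC hCb a
  obtain ⟨z, hz⟩ := hres w₀ y (hRw.trans hy.symm)
  obtain ⟨t', ht'⟩ := heH₀.invert t ht
  have hw₀M : e • w₀ = w₀ := by
    show w₀ ∈ M₀
    exact sum_mem fun i _ => Submodule.smul_mem _ _ (w i).2
  have hw₀eq : w₀ = ϖ • ((t' * e) • z) := by
    rw [smul_comm, ← hz, smul_smul, show t' * e * t = t * t' * e by ring, ht', hw₀M]
  have hzM : (t' * e) • z ∈ M₀ := by
    rw [mem_localPart, mul_smul, smul_comm e t', heH₀.idem]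
  set zz : M₀ := ⟨_, hzM⟩
  have hrepr : (∑ i, a i • w i : M₀) = ϖ • zz := Subtype.ext (by
    rw [Submodule.coe_sum]
    exact hw₀eq)
  refine hu0 (Subtype.ext (funext fun iq => ?_))
  have := congrArg (fun m : M₀ => w.repr m iq.1) hrepr
  simp only [map_smul, Finsupp.smul_apply, w.repr_sum_self, smul_eq_mul] at this
  show u.1 iq = (0 : ResidueField O)
  rw [show u.1 iq = u.1 (iq.1, 1) from hfix iq.1 iq.2, ← hcu]
  show residue O (a iq.1) = _
  rw [this, map_mul, (residue_eq_zero_iff ϖ).2 hϖ.not_isUnit, zero_mul]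

omit [Module.Finite O H₀] in
/-- An element of the localisation invariant modulo the span of the translates and the
uniformiser lies in it. -/
private theorem mem_span_of_invariant {m : Ideal 𝔸} (heH : IsLocalizer m H e)
    (heH₀ : IsLocalizer m H₀ e) (hmul : ∀ q q' (x : H), δ (q * q') • x = δ q • δ q' • x)
    (hRC : ∀ x, R (C x) = ∑ q, δ q • x) (hCb : ∀ i, C (b i : H) = w i)
    {ϖ : O} (hϖ : Irreducible ϖ)
    (hmod : ∀ c, orbitMap δ b c ∈ maximalIdeal O • localPart O e H → ∀ iq, c iq ∈ maximalIdeal O)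
    {t₁ : 𝔸} (ht₁ : t₁ ∉ m)
    (hinv : ∀ x : H, (∀ q, ∃ y : H, δ q • x - x = ϖ • y) →
      ∃ (z : H₀) (y : H), t₁ • x = R z + ϖ • y) :
    ∀ x ∈ localPart O e H,
      (∀ q, δ q • x - x ∈ LinearMap.range (orbitMap δ b) ⊔ maximalIdeal O • localPart O e H) →
        x ∈ LinearMap.range (orbitMap δ b) ⊔ maximalIdeal O • localPart O e H := by
  classical
  let M := localPart O e H
  let F := orbitMap δ b
  let P := LinearMap.range F ⊔ maximalIdeal O • M
  intro x hx hd
  have hd' : ∀ q, ∃ c, δ q • x - x - F c ∈ maximalIdeal O • M := fun q => by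
    obtain ⟨v, ⟨c, rfl⟩, w', hw', hsum⟩ := Submodule.mem_sup.1 (hd q)
    exact ⟨c, by rwa [← hsum, add_sub_cancel_left]⟩
  -- The coefficients of `δ q • x - x` form a cocycle modulo `ϖ`.
  choose c hc using hd'
  have hcoc : ∀ (a r : Δ) (i : ι), residue O (c r (i, r)) =
      residue O (c a (i, r)) + residue O (c (a⁻¹ * r) (i, a⁻¹ * r)) := by
    intro a r i
    set v := c (a * (a⁻¹ * r)) - c a -
      Finsupp.mapDomain (fun iq => (iq.1, a * iq.2)) (c (a⁻¹ * r)) with hv
    have hFv : F v ∈ maximalIdeal O • M := by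
      have h := sub_mem (add_mem (hc a) (smul_mem_maximal_smul (δ a) (hc (a⁻¹ * r))))
        (hc (a * (a⁻¹ * r)))
      rw [hmul a (a⁻¹ * r) x, smul_sub, smul_sub] at h
      convert h using 1
      rw [hv, map_sub, map_sub, orbitMap_translate δ b hmul]
      abel
    have h0 := (residue_eq_zero_iff _).2 (hmod v hFv (i, r))
    rw [hv, Finsupp.sub_apply, Finsupp.sub_apply, mapDomain_translate, mul_inv_cancel_left,
      map_sub, map_sub, sub_sub, sub_eq_zero] at h0
    exact h0
  -- It is the coboundary of `u`, so `x' = x + F u` is invariant modulo `ϖ`.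
  set u : ι × Δ →₀ O := Finsupp.equivFunOnFinite.symm fun iq => c iq.2 iq with hu
  set x' := x + F u with hx'
  have hx'M : x' ∈ M := add_mem hx (orbitMap_mem δ b u)
  obtain ⟨t', ht'⟩ := heH.invert t₁ ht₁
  have hinv' : ∀ q, ∃ y : H, δ q • (t' • x') - t' • x' = ϖ • y := by
    intro q
    have h : δ q • x' - x' ∈ maximalIdeal O • M := by
      have h' : F (c q + Finsupp.mapDomain (fun iq => (iq.1, q * iq.2)) u - u) ∈
          maximalIdeal O • M := orbitMap_mem_smul δ b fun ⟨i, r⟩ => by
        rw [Finsupp.sub_apply, Finsupp.add_apply, mapDomain_translate, map_sub, map_add,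
          sub_eq_zero]
        simp only [hu, Finsupp.equivFunOnFinite_symm_apply_apply]
        exact (hcoc q r i).symm
      have hh := add_mem (hc q) h'
      convert hh using 1
      rw [map_sub, map_add, orbitMap_translate δ b hmul, hx', smul_add]
      abel
    obtain ⟨y, -, hy⟩ := exists_uniformizer_smul hϖ (smul_mem_maximal_smul t' h)
    exact ⟨y, by rw [hy, smul_sub, smul_comm (δ q)]⟩
  -- Hence `x'` comes from `H₀` modulo `ϖ`, and so lies in the span.
  obtain ⟨z, y, hzy⟩ := hinv _ hinv'
  have hxP : x' ∈ P := by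
    have he' : x' = R (e • z) + ϖ • (e • y) := by
      rw [map_smul, smul_comm ϖ e, ← smul_add, ← hzy, smul_smul, smul_smul,
        show e * t₁ * t' = t₁ * t' * e by ring, ht', hx'M]
    rw [he']
    refine Submodule.mem_sup.2 ⟨_, ?_, _, ?_, rfl⟩
    · set a := w.repr ⟨e • z, heH₀.idem z⟩
      have hez : e • z = ∑ i, a i • (w i : H₀) := by
        have h := congrArg (Subtype.val) (w.sum_repr ⟨e • z, heH₀.idem z⟩)
        rw [Submodule.coe_sum] at h
        exact h.symm
      refine ⟨Finsupp.equivFunOnFinite.symm fun iq => a iq.1, ?_⟩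
      rw [hez, R_sum_smul δ b C R hRC hCb (fun i => a i)]
    · exact Submodule.smul_mem_smul
        ((mem_maximalIdeal _).2 hϖ.not_isUnit) (heH.idem y)
  have hx0 := sub_mem hxP (Submodule.mem_sup_left (LinearMap.mem_range_self F u))
  rwa [hx', add_sub_cancel_right] at hx0

omit [Fintype ι] [Fintype Δ] [CommGroup Δ] in
/-- Independence modulo the uniformiser is independence. -/
private theorem orbitMap_eq_zero [Finite ι] [Finite Δ] [Module.Free O H] {ϖ : O}
    (hϖ : Irreducible ϖ)
    (hmod : ∀ c, orbitMap δ b c ∈ maximalIdeal O • localPart O e H → ∀ iq, c iq ∈ maximalIdeal O) :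
    ∀ c, orbitMap δ b c = 0 → c = 0 := by
  let F := orbitMap δ b
  have key : ∀ j : ℕ, ∀ c, F c = 0 → ∀ iq, c iq ∈ maximalIdeal O ^ j := by
    intro j
    induction j with
    | zero => intro c _ iq; simp
    | succ j ih =>
      intro c hc iq
      have h1 := hmod c (by rw [hc]; exact zero_mem _)
      simp only [hϖ.maximalIdeal_eq, Ideal.mem_span_singleton] at h1
      choose c₁ hc₁ using h1
      set c₂ := Finsupp.equivFunOnFinite.symm c₁
      have hcc : c = ϖ • c₂ := Finsupp.ext fun iq => by simp [c₂, hc₁ iq]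
      have h0 : F c₂ = 0 := by
        rw [hcc, map_smul] at hc
        exact (smul_eq_zero.1 hc).resolve_left hϖ.ne_zero
      rw [hcc, pow_succ', Finsupp.smul_apply, smul_eq_mul]
      exact Ideal.mul_mem_mul hϖ.not_isUnit (ih c₂ h0 iq)
  intro c hc
  refine Finsupp.ext fun iq => ?_
  have h := (Submodule.mem_iInf _).2 fun j => key j c hc iq
  rwa [Ideal.iInf_pow_eq_bot_of_isLocalRing _ (maximalIdeal.isMaximal O).ne_top] at h

end Orbit

variable [Module.Free O H] [Module.Free O H₀] [Fintype Δ]

theorem exists_freeBasis [Finite (ResidueField O)] [Module.Finite O H] (hΔ : IsPGroup p Δ)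
    {m : Ideal 𝔸} (hm : m ≠ ⊤) {e : 𝔸}
    (heH : IsLocalizer m H e) (heH₀ : IsLocalizer m H₀ e)
    (δ : Δ → 𝔸) (hδm : ∀ q, δ q - 1 ∈ m)
    (hmul : ∀ q q' (x : H), δ (q * q') • x = δ q • δ q' • x)
    (C : H →ₗ[𝔸] H₀) (hC : Function.Surjective C)
    (R : H₀ →ₗ[𝔸] H) (hRC : ∀ x, R (C x) = ∑ q, δ q • x)
    {ϖ : O} (hϖ : Irreducible ϖ) {t : 𝔸} (ht : t ∉ m)
    (hres : ∀ (x : H₀) (y : H), R x = ϖ • y → ∃ z : H₀, t • x = ϖ • z)
    {t₁ : 𝔸} (ht₁ : t₁ ∉ m)
    (hinv : ∀ x : H, (∀ q, ∃ y : H, δ q • x - x = ϖ • y) →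
      ∃ (z : H₀) (y : H), t₁ • x = R z + ϖ • y) :
    ∃ b : Fin (Module.finrank O (localPart O e H₀)) → localPart O e H,
      Function.Bijective fun c : Fin (Module.finrank O (localPart O e H₀)) × Δ →₀ O =>
        c.sum fun iq x => x • localAct O e H (δ iq.2) (b iq.1) := by
  classical
  set M := localPart O e H with hM
  set M₀ := localPart O e H₀ with hM₀
  -- Lift a basis of the localised `H₀`.
  let w : Module.Basis (Fin (Module.finrank O M₀)) O M₀ := Module.finBasis O M₀
  choose pre hpre using fun i => hC (w i : H₀)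
  let b : Fin (Module.finrank O M₀) → M := fun i => ⟨e • pre i, heH.idem _⟩
  have hCb : ∀ i, C (b i : H) = w i := fun i => by
    show C (e • pre i) = _
    rw [map_smul, hpre]
    exact (w i).2
  refine ⟨b, ?_⟩
  let F := orbitMap δ b
  have hval : ∀ c : Fin (Module.finrank O M₀) × Δ →₀ O,
      ((c.sum fun iq x => x • localAct O e H (δ iq.2) (b iq.1) : M) : H) = F c := fun c => by
    rw [orbitMap_apply, Finsupp.sum, Finsupp.sum, Submodule.coe_sum]
    rfl
  -- A power of the augmentation ideal `J` kills the localised `H` modulo `ϖ`.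
  let J : Ideal 𝔸 := Ideal.span (Set.range fun q => δ q - 1)
  let ann : Ideal 𝔸 :=
    { carrier := {a | ∀ x ∈ M, a • x ∈ maximalIdeal O • M}
      zero_mem' := fun x _ => by rw [zero_smul]; exact zero_mem _
      add_mem' := fun {a a'} ha ha' x hx => by
        rw [add_smul]
        exact add_mem (ha x hx) (ha' x hx)
      smul_mem' := fun c a ha x hx => by
        rw [smul_eq_mul, mul_comm, mul_smul]
        exact ha _ (smul_mem_localPart c hx) }
  obtain ⟨N, hN⟩ := Ideal.exists_pow_le_of_le_radical_of_fg (I := J) (J := ann)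
    (Ideal.span_le.2 (by
      rintro _ ⟨q, rfl⟩
      obtain ⟨n, hn⟩ := heH.exists_pow_smul_mem (O := O) (hδm q) hm
      exact ⟨n, hn⟩))
    ⟨(Set.finite_range fun q => δ q - 1).toFinset, by rw [Set.Finite.coe_toFinset]⟩
  have hmod := orbitMap_coeff_mem δ b w C R hΔ heH₀ hmul hRC hCb hϖ ht hres
  set P := LinearMap.range F ⊔ maximalIdeal O • M with hP
  have hfix := mem_span_of_invariant δ b w C R heH heH₀ hmul hRC hCb hϖ hmod ht₁ hinv
  -- Descend along the powers of `J`, and conclude by Nakayama.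
  have hdesc : ∀ j : ℕ, ∀ x ∈ M, (∀ a ∈ J ^ j, a • x ∈ P) → x ∈ P := by
    intro j
    induction j with
    | zero => exact fun x _ h => by simpa using h 1 (by simp)
    | succ j ih =>
      intro x hx h
      refine hfix x hx fun q => ih _ (sub_mem (smul_mem_localPart _ hx) hx) fun a ha => ?_
      rw [show a • (δ q • x - x) = (a * (δ q - 1)) • x by rw [mul_smul, sub_smul, one_smul]]
      refine h _ ?_
      rw [pow_succ]
      exact Ideal.mul_mem_mul ha (Ideal.subset_span ⟨q, rfl⟩)
  have hspan : M ≤ LinearMap.range F :=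
    Submodule.le_of_le_smul_of_le_jacobson_bot (I := maximalIdeal O)
      (IsNoetherian.noetherian M) (maximalIdeal_le_jacobson _) fun x hx =>
        hdesc N x hx fun a ha => Submodule.mem_sup_right (hN ha x hx)
  -- Independence modulo `ϖ` gives independence.
  have hinj := orbitMap_eq_zero δ b hϖ hmod
  refine ⟨fun c c' h => ?_, fun x => ?_⟩
  · have h' := congrArg Subtype.val h
    simp only [hval] at h'
    exact sub_eq_zero.1 (hinj _ (by rw [map_sub, h', sub_self]))
  · obtain ⟨c, hc⟩ := hspan x.2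
    exact ⟨c, Subtype.ext ((hval c).trans hc)⟩

end Fermat.Agent.RT.GammaH
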