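import Fermat.Agent.RT.GammaH.Action
import Fermat.Agent.RT.GammaH.Freeness
import Fermat.Agent.RT.GammaH.Elliptic

/-!
# Freeness of the localised cohomology of `Γ_H` over the group ring of diamond operators

The elliptic elements are killed by `3` when it is invertible, and otherwise by an operator `T_ℓ`,
`ℓ ≡ 2 mod 3`, outside the residual ideal.
-/

set_option autoImplicit false

noncomputable section

namespace Fermat.Agent.RT.GammaH

open IsLocalRing MvPolynomial

section LocalRing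

variable {O : Type} [CommRing O] [IsLocalRing O] {L : ℕ} {Δ : Type} [CommGroup Δ]
    (ψ : (ZMod L)ˣ →* Δ) (S : Finset ℕ) (abar : ℕ → ResidueField O)

/-- The residual system on the polynomial algebra: diamonds to `1`, `T_ℓ` to `abar ℓ`. -/
def opRes (L : ℕ) : OpRing O L S →ₐ[O] ResidueField O :=
  aeval (Sum.elim (fun _ => 1) fun ℓ => abar ℓ.1)

/-- The maximal ideal of the residual system. -/
def resIdeal (L : ℕ) : Ideal (OpRing O L S) := RingHom.ker (opRes S abar L)

/-- The residual ideal is the kernel of the residual system `opRes`. -/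
theorem mem_resIdeal {a : OpRing O L S} : a ∈ resIdeal S abar L ↔ opRes S abar L a = 0 := Iff.rfl

theorem opRes_inl (u : (ZMod L)ˣ) : opRes S abar L (X (Sum.inl u)) = 1 := by simp [opRes]

/-- The residual system sends the symbol of `ℓ` to `abar ℓ`. -/
theorem opRes_inr (ℓ : {ℓ : ℕ // ℓ.Prime ∧ ℓ ∉ S}) :
    opRes S abar L (X (Sum.inr ℓ)) = abar ℓ.1 := by simp [opRes]

theorem opRes_surjective : Function.Surjective (opRes S abar L) := fun x => by
  obtain ⟨c, rfl⟩ := residue_surjective x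
  exact ⟨C c, by simp [opRes, ResidueField.algebraMap_eq]⟩

instance : (resIdeal S abar L).IsMaximal :=
  RingHom.ker_isMaximal_of_surjective _ (opRes_surjective S abar)

/-- The residual ideal is proper. -/
theorem resIdeal_ne_top : resIdeal S abar L ≠ ⊤ :=
  Ideal.IsMaximal.ne_top inferInstance

/-- A natural number prime to `p` is a unit in a local ring of residue characteristic `p`. -/
theorem isUnit_natCast {p : ℕ} [Fact p.Prime] [CharP (ResidueField O) p] {n : ℕ} (hn : ¬ p ∣ n) :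
    IsUnit (n : O) := by
  rw [← residue_ne_zero_iff_isUnit, map_natCast]
  exact fun h => hn ((CharP.cast_eq_zero_iff _ p n).1 h)

/-- `2` is a unit in a local ring of odd residue characteristic. -/
theorem isUnit_two {p : ℕ} [Fact p.Prime] [CharP (ResidueField O) p] (hp : p ≠ 2) :
    IsUnit (2 : O) := by
  exact_mod_cast isUnit_natCast (O := O) (p := p) (n := 2) fun h =>
    hp ((Nat.prime_dvd_prime_iff_eq Fact.out Nat.prime_two).1 h)

/-- `-1` lies in the kernel of a homomorphism to a `p`-group, `p` odd. -/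
theorem neg_one_mem_ker {p : ℕ} [Fact p.Prime] (hp : p ≠ 2) (hΔ : IsPGroup p Δ) : -1 ∈ ψ.ker := by
  rw [MonoidHom.mem_ker]
  obtain ⟨k, hk⟩ := hΔ (ψ (-1))
  have h2 : ψ (-1) ^ 2 = 1 := by rw [← map_pow, neg_one_sq, map_one]
  have hodd : Odd (p ^ k) := ((Nat.Prime.odd_of_ne_two Fact.out hp).pow)
  obtain ⟨j, hj⟩ := hodd
  rw [hj, pow_succ, pow_mul, h2, one_pow, one_mul] at hk
  exact hk

/-- The hypothesis at the elliptic elements of order three: `3` is a unit, or some prime
`ℓ ≡ 2 (mod 3)` outside `S` has `abar ℓ ≠ 0`. -/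
def EllOK : Prop :=
  IsUnit (3 : O) ∨ ∃ ℓ : ℕ, ℓ.Prime ∧ ℓ ∉ S ∧ ℓ % 3 = 2 ∧ abar ℓ ≠ 0

/-- An operator outside the residual ideal whose values vanish on the elements of cube `-1`. -/
theorem exists_ellOp {K : Subgroup (ZMod L)ˣ} (hneg : -1 ∈ K) (h2 : IsUnit (2 : O))
    (h : EllOK S abar) :
    ∃ t ∉ resIdeal S abar L, ∀ (A : Type) [AddCommGroup A] [Module O A] (φ : HomMod O S K A)
      (γ : gammaH L K), (γ : Matrix.SpecialLinearGroup (Fin 2) ℤ) ^ 3 = -1 →
        (t • φ) (Additive.ofMul γ) = 0 := by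
  rcases h with h3 | ⟨ℓ, hℓ, hℓS, hℓ3, hℓ0⟩
  · refine ⟨1, fun hc => resIdeal_ne_top S abar ((Ideal.eq_top_iff_one _).2 hc),
      fun A _ _ φ γ hγ => ?_⟩
    rw [one_smul]
    obtain ⟨u, hu⟩ := h3
    refine (smul_eq_zero_iff_eq u).1 ?_
    rw [Units.smul_def, hu, ← Nat.cast_ofNat, Nat.cast_smul_eq_nsmul, ← map_nsmul, ← ofMul_pow,
      show γ ^ 3 = ⟨-1, neg_one_mem_gammaH hneg⟩ from Subtype.ext hγ]
    exact IsCoreps.apply_neg_one h2 (neg_one_mem_gammaH hneg) (toHomMod.symm φ)
  · refine ⟨X (Sum.inr ⟨ℓ, hℓ, hℓS⟩), fun hc => hℓ0 ?_, fun A _ _ φ γ hγ => ?_⟩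
    · rwa [mem_resIdeal, opRes_inr] at hc
    · have : Fact ℓ.Prime := ⟨hℓ⟩
      rw [X_inr_smul]
      exact hecke_elliptic O hℓ3 hneg h2 φ γ hγ

/-- A section of `ψ`. -/
def psiInv {ψ : (ZMod L)ˣ →* Δ} (hψ : Function.Surjective ψ) (q : Δ) : (ZMod L)ˣ :=
  Function.surjInv hψ q

variable {ψ} {K : Subgroup (ZMod L)ˣ} {A : Type} [AddCommGroup A] [Module O A]

omit [IsLocalRing O] in
/-- `⟨u⟩` depends only on `ψ u` when `K` is the kernel of `ψ`. -/
theorem diamond_congr_ker (hK : ∀ u, u ∈ K ↔ ψ u = 1) {u v : (ZMod L)ˣ} (h : ψ u = ψ v) :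
    diamond (A := A) L K O u = diamond L K O v := by
  rw [← diaHom_mk, ← diaHom_mk]
  congr 1
  rw [QuotientGroup.eq, hK, map_mul, map_inv, h, inv_mul_cancel]

/-- The quotient by the kernel, as `Δ`. -/
theorem exists_deltaEquiv (hK : ∀ u, u ∈ K ↔ ψ u = 1) (hψ : Function.Surjective ψ) :
    ∃ E : Δ ≃ (ZMod L)ˣ ⧸ K, ∀ q, ψ (E q).out = q := by
  have hout : ∀ u : (ZMod L)ˣ, ψ (QuotientGroup.mk u : (ZMod L)ˣ ⧸ K).out = ψ u := fun u => by
    have h := QuotientGroup.out_eq' (QuotientGroup.mk u : (ZMod L)ˣ ⧸ K)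
    rw [QuotientGroup.eq, hK, map_mul, map_inv, inv_mul_eq_one] at h
    exact h
  refine ⟨Equiv.ofBijective (fun q => QuotientGroup.mk (psiInv hψ q)) ⟨fun a b h => ?_,
    fun x => ?_⟩, fun q => (hout _).trans (Function.surjInv_eq hψ q)⟩
  · rw [QuotientGroup.eq, hK, map_mul, map_inv, inv_mul_eq_one] at h
    simpa [psiInv, Function.surjInv_eq hψ] using h
  · induction x using QuotientGroup.induction_on with | _ u => ?_
    refine ⟨ψ u, ?_⟩
    rw [QuotientGroup.eq, hK, map_mul, map_inv, inv_mul_eq_one, psiInv, Function.surjInv_eq hψ]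

variable (K A) in
/-- Corestriction to `Γ₀(L)` as a map of modules over the operators. -/
def coresLin [Fintype ((ZMod L)ˣ ⧸ K)] :
    HomMod O S K A →ₗ[OpRing O L S] HomMod O S (⊤ : Subgroup (ZMod L)ˣ) A :=
  upgrade (((toHomMod (O := O) (S := S) (K := (⊤ : Subgroup (ZMod L)ˣ)) (A := A)).toLinearMap.comp
    (coresTop O K)).comp (toHomMod (O := O) (S := S) (K := K) (A := A)).symm.toLinearMap)
        fun i φ => by
    rcases i with u | ℓ
    · rw [X_inl_smul, X_inl_smul]
      exact (coresTop_diamond O u φ).trans (diamond_top O u _).symm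
    · have : Fact ℓ.1.Prime := ⟨ℓ.2.1⟩
      rw [X_inr_smul, X_inr_smul]
      exact coresTop_hecke O φ

variable (K A) in
/-- Restriction from `Γ₀(L)` as a map of modules over the operators. -/
def resLin : HomMod O S (⊤ : Subgroup (ZMod L)ˣ) A →ₗ[OpRing O L S] HomMod O S K A :=
  upgrade (((toHomMod (O := O) (S := S) (K := K) (A := A)).toLinearMap.comp
    (resTop O K)).comp (toHomMod (O := O) (S := S) (K := (⊤ : Subgroup (ZMod L)ˣ))
      (A := A)).symm.toLinearMap)
        fun i φ => by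
    rcases i with u | ℓ
    · rw [X_inl_smul, X_inl_smul]
      exact (congrArg _ (diamond_top O u φ)).trans (diamond_resTop O u φ).symm
    · have : Fact ℓ.1.Prime := ⟨ℓ.2.1⟩
      rw [X_inr_smul, X_inr_smul]
      exact resTop_hecke O φ

omit [IsLocalRing O] in
theorem mapCoeff_resLin {B : Type} [AddCommGroup B] [Module O B] (f : A →ₗ[O] B)
    (φ : HomMod O S (⊤ : Subgroup (ZMod L)ˣ) A) :
    mapCoeff f (resLin S K A φ) = resLin S K B (mapCoeff f φ) := rfl

/-- Reduction of the coefficients kills the multiples of a non-unit. -/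
private theorem mapCoeff_residue_smul {M : ℕ} {K : Subgroup (ZMod M)ˣ} {ϖ : O} (hϖ : ¬ IsUnit ϖ)
    (y : HomMod O S K O) : mapCoeff (Algebra.linearMap O (ResidueField O)) (ϖ • y) = 0 :=
  DFunLike.ext _ _ fun γ => by
    show residue O (ϖ * y γ) = 0
    rw [map_mul, (residue_eq_zero_iff ϖ).2 hϖ, zero_mul]

end LocalRing

variable {O : Type} [CommRing O] [IsDomain O] [IsDiscreteValuationRing O] {L : ℕ} {Δ : Type}
  [CommGroup Δ] {ψ : (ZMod L)ˣ →* Δ} {K : Subgroup (ZMod L)ˣ} (S : Finset ℕ)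
  (abar : ℕ → ResidueField O)

omit [IsDiscreteValuationRing O] in
/-- A homomorphism with all values divisible by a uniformiser `ϖ` is `ϖ` times a homomorphism. -/
theorem exists_eq_smul {M : ℕ} {K : Subgroup (ZMod M)ˣ} {ϖ : O} (hϖ : Irreducible ϖ)
    {φ : HomMod O S K O} (h : ∀ γ, ϖ ∣ φ γ) : ∃ χ : HomMod O S K O, φ = ϖ • χ := by
  choose f hf using h
  refine ⟨toHomMod (AddMonoidHom.mk' f fun a b => mul_left_cancel₀ hϖ.ne_zero ?_),
    DFunLike.ext _ _ fun γ => hf γ⟩
  rw [mul_add, ← hf, ← hf, ← hf, map_add]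

/-- A homomorphism killed by reduction of the coefficients is a multiple of the uniformiser. -/
private theorem exists_eq_smul_of_mapCoeff_residue {M : ℕ} {K : Subgroup (ZMod M)ˣ} {ϖ : O}
    (hϖ : Irreducible ϖ) {x : HomMod O S K O}
    (hx : mapCoeff (Algebra.linearMap O (ResidueField O)) x = 0) : ∃ y, x = ϖ • y :=
  exists_eq_smul S hϖ fun γ => by
    have hγ : residue O (x γ) = 0 := DFunLike.congr_fun hx γ
    rw [residue_eq_zero_iff, hϖ.maximalIdeal_eq, Ideal.mem_span_singleton] at hγ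
    exact hγ

/-- If the system is not Eisenstein at `ℓ`, then `T_ℓ - (1 + ℓ)` is outside the residual ideal. -/
private theorem X_inr_sub_notMem_resIdeal {ℓ : ℕ} (hℓp : ℓ.Prime) (hℓS : ℓ ∉ S)
    (hℓ : abar ℓ ≠ 1 + (ℓ : ResidueField O)) :
    X (Sum.inr ⟨ℓ, hℓp, hℓS⟩) - C ((1 : O) + (ℓ : O)) ∉ resIdeal S abar L := by
  rw [mem_resIdeal, map_sub, opRes_inr, ← algebraMap_eq, AlgHom.commutes,
    ResidueField.algebraMap_eq, map_add, map_one, map_natCast, sub_eq_zero]
  exact hℓ

omit [IsDomain O] [IsDiscreteValuationRing O] in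
/-- The operator `T_ℓ - (1 + ℓ)`. -/
private theorem X_inr_sub_smul {A : Type} [AddCommGroup A] [Module O A] {ℓ : ℕ} [hℓ : Fact ℓ.Prime]
    (hℓS : ℓ ∉ S) (x : HomMod O S K A) :
    (X (Sum.inr ⟨ℓ, hℓ.out, hℓS⟩) - C ((1 : O) + (ℓ : O)) : OpRing O L S) • x =
      toHomMod (hecke L K ℓ O (toHomMod.symm x)) - (ℓ + 1) • x := by
  rw [sub_smul, X_inr_smul, ← algebraMap_eq, algebraMap_smul,
    show (1 : O) + (ℓ : O) = ((ℓ + 1 : ℕ) : O) by push_cast; ring, Nat.cast_smul_eq_nsmul]
  rfl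

variable [Finite (ResidueField O)] [IsAdicComplete (maximalIdeal O) O] {p : ℕ} [Fact p.Prime]
  [CharP (ResidueField O) p] [Fintype Δ] [NeZero L]

omit [IsAdicComplete (maximalIdeal O) O] in
/-- For a non-Eisenstein residual system satisfying `EllOK` and odd `p`, the localised cohomology
of `Γ_H` is free over `O[Δ]`, of the rank of that of `Γ₀(L)`. -/
theorem exists_freeBasisData [CharZero O] (hp2 : p ≠ 2) (hΔ : IsPGroup p Δ)
    (hψ : Function.Surjective ψ) (hK : ∀ u, u ∈ K ↔ ψ u = 1)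
    (hS : ∀ v : ℕ, v.Prime → v ∣ L → v ∈ S)
    (hEis : ∃ ℓ : ℕ, ℓ.Prime ∧ ℓ ∉ S ∧ abar ℓ ≠ 1 + (ℓ : ResidueField O))
    (hell : EllOK S abar) {e : OpRing O L S}
    (heH : IsLocalizer (resIdeal S abar L) (HomMod O S K O) e)
    (heH₀ : IsLocalizer (resIdeal S abar L) (HomMod O S (⊤ : Subgroup (ZMod L)ˣ) O) e) :
    ∃ b : Fin (Module.finrank O (localPart O e (HomMod O S (⊤ : Subgroup (ZMod L)ˣ) O))) →
        localPart O e (HomMod O S K O),
      Function.Bijective fun c :
          Fin (Module.finrank O (localPart O e (HomMod O S (⊤ : Subgroup (ZMod L)ˣ) O))) × Δ →₀ O =>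
        c.sum fun iq x =>
          x • localAct O e (HomMod O S K O) (X (Sum.inl (psiInv hψ iq.2))) (b iq.1) := by
  classical
  have := Fintype.ofFinite ((ZMod L)ˣ ⧸ K)
  set H := HomMod O S K O
  set H₀ := HomMod O S (⊤ : Subgroup (ZMod L)ˣ) O
  -- `-1 ∈ K` as `p` is odd, and `Δ` is `(ℤ/L)ˣ ⧸ K`, acting by the diamond operators.
  have h2 := isUnit_two (O := O) (p := p) hp2
  have hneg : -1 ∈ K := (hK _).2 (MonoidHom.mem_ker.1 (neg_one_mem_ker ψ hp2 hΔ))
  obtain ⟨E, hEout⟩ := exists_deltaEquiv hK hψ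
  have hE : ∀ (q : Δ) (x : H), (X (Sum.inl (psiInv hψ q)) : OpRing O L S) • x =
      diamond L K O (E q).out x := fun q x => by
    rw [X_inl_smul, diamond_congr_ker hK (u := psiInv hψ q) (v := (E q).out)]
    exact (Function.surjInv_eq hψ q).trans (hEout q).symm
  obtain ⟨ℓ, hℓp, hℓS, hℓ⟩ := hEis
  have : Fact ℓ.Prime := ⟨hℓp⟩
  have hℓL : ¬ ℓ ∣ L := fun hc => hℓS (hS ℓ hℓp hc)
  obtain ⟨ϖ, hϖ⟩ := IsDiscreteValuationRing.exists_irreducible O
  set δ : Δ → OpRing O L S := fun q => X (Sum.inl (psiInv hψ q)) with hδ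
  -- Corestriction `C'` and restriction `R'` commute with the operators; `C'` is surjective.
  set C' : H →ₗ[OpRing O L S] H₀ := coresLin S K O
  set R' : H₀ →ₗ[OpRing O L S] H := resLin S K O
  have : IsAddTorsionFree O := by infer_instance
  have hC : Function.Surjective C' :=
    (isCoreps_deltaRep (K := K)).cores_surjective_of_torsionFree h2 (neg_one_mem_gammaH hneg)
  -- Outside the residual ideal: `t₀`, killing the values at the elliptic elements of order three,
  -- and, as the system is not Eisenstein, `t = T_ℓ - (1 + ℓ)`.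
  obtain ⟨t₀, ht₀, hell₀⟩ := exists_ellOp (K := (⊤ : Subgroup (ZMod L)ˣ)) S abar
    (Subgroup.mem_top _) h2 hell
  set t : OpRing O L S := X (Sum.inr ⟨ℓ, hℓp, hℓS⟩) - C ((1 : O) + (ℓ : O)) with htdef
  have htm : t ∉ resIdeal S abar L := X_inr_sub_notMem_resIdeal S abar hℓp hℓS hℓ
  let r : O →ₗ[O] ResidueField O := Algebra.linearMap O (ResidueField O)
  have hred {K' : Subgroup (ZMod L)ˣ} (y : HomMod O S K' O) : mapCoeff r (ϖ • y) = 0 :=
    mapCoeff_residue_smul S hϖ.not_isUnit y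
  refine exists_freeBasis (O := O) (p := p) (𝔸 := OpRing O L S) (Δ := Δ) (H := H) (H₀ := H₀)
    hΔ (resIdeal_ne_top S abar) heH heH₀ δ (fun q => ?_)
    (fun q q' x => ?_) C' hC R' (fun x => ?_) hϖ (t := t) htm (fun x y hxy => ?_)
    (t₁ := t₀ * t) ((inferInstance : (resIdeal S abar L).IsMaximal).isPrime.mul_notMem ht₀ htm)
    (fun x hx => ?_)
  · -- The diamonds are `1` modulo the residual ideal,
    rw [mem_resIdeal, map_sub, opRes_inl, map_one, sub_self]
  · -- they are multiplicative in `Δ`,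
    rw [X_inl_smul, X_inl_smul, X_inl_smul]
    refine (LinearMap.congr_fun (diamond_congr_ker hK (v := psiInv hψ q * psiInv hψ q') ?_) x).trans
      (diamond_mul O _ _ x)
    rw [map_mul]
    simp only [psiInv, Function.surjInv_eq hψ]
  · -- and their sum over `Δ` is restriction after corestriction.
    simp only [hδ, hE]
    exact (resTop_coresTop O x).trans (E.sum_comp fun i => diamond L K O i.out x).symm
  · -- If `R' x` is divisible by `ϖ`, restriction kills the reduction of `x`, on which `T_ℓ` is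
    -- then `ℓ + 1`: so `t • x` is divisible by `ϖ`.
    refine exists_eq_smul_of_mapCoeff_residue S hϖ ?_
    have h0 : resTop O K (mapCoeff r x) = 0 := by
      show resLin S K _ (mapCoeff r x) = 0
      rw [← mapCoeff_resLin, hxy, hred]
    have hT : hecke L ⊤ ℓ O (mapCoeff r x) = (ℓ + 1) • mapCoeff r x :=
      hecke_of_resTop_eq_zero' O h0 hℓL
    rw [map_smul, htdef, X_inr_sub_smul S hℓS, sub_eq_zero]
    exact hT
  · -- If `x` is fixed by the diamonds modulo `ϖ`, then `t` carries its reduction `φ` to the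
    -- restriction of some `h` on `Γ₀(L)`, and `t₀ • h` vanishes at the elliptic elements, so it
    -- lifts to some `z`: thus `t₀ t • x ≡ R' z` modulo `ϖ`.
    set φ : HomMod O S K (ResidueField O) := mapCoeff r x with hφ
    have hdia : ∀ u, diamond L K O u φ = φ := fun u => by
      obtain ⟨y, hy⟩ := hx (ψ u)
      have h1 : (δ (ψ u) : OpRing O L S) • φ = φ := by
        rw [hφ, ← map_smul, ← sub_eq_zero, ← map_sub, hy, hred]
      rw [hδ, X_inl_smul, diamond_congr_ker hK (v := u)] at h1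
      · exact h1
      · exact Function.surjInv_eq hψ _
    obtain ⟨h, hh⟩ := exists_resTop_eq_hecke_sub (n := ℓ) O hℓL φ hdia
    have hth : t • φ = resLin S K (ResidueField O) (toHomMod h) := by
      show _ = toHomMod (resTop O K h)
      rw [htdef, hh, X_inr_sub_smul S hℓS]
      rfl
    obtain ⟨z, hz⟩ := exists_lift_of_elliptic (neg_one_mem_gammaH (Subgroup.mem_top (-1))) h2 r
      residue_surjective (toHomMod.symm (t₀ • (toHomMod h : HomMod O S ⊤ (ResidueField O))))
      (fun γ hγ => hell₀ _ (toHomMod h) γ hγ)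
    obtain ⟨y, hy⟩ := exists_eq_smul_of_mapCoeff_residue S hϖ
      (x := (t₀ * t) • x - R' (toHomMod z)) (by
      rw [map_sub, map_smul, ← hφ, mul_smul, hth, mapCoeff_resLin, ← map_smul,
        show mapCoeff r (toHomMod z) = t₀ • (toHomMod h : HomMod O S ⊤ (ResidueField O)) from hz,
        sub_self])
    exact ⟨toHomMod z, y, (sub_eq_iff_eq_add'.1 hy)⟩

end Fermat.Agent.RT.GammaH
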