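import Mathlib.LinearAlgebra.Matrix.GeneralLinearGroup.Defs
import Mathlib.Tactic.LinearCombination
import Fermat.Agent.RT.GammaH.Local
import Fermat.Agent.Periods.Injective

/-!
# Boundary classes are Eisenstein

For squarefree `L`, a prime `ℓ ∤ L` and a cusp of type `d ∣ L`, the value of `T_ℓ φ` on the
parabolic element of the cusp is that of `⟨e⟩ φ + ℓ ⟨e'⟩ φ`. Hence the product over `d` of the
operators `T_ℓ - ⟨e⟩ - ℓ ⟨e'⟩` maps every homomorphism with torsion-free values to a parabolic one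
when `-1 ∈ K`.

See `exists_hecke_cusp` and `exists_parabolicOp`.
-/

set_option autoImplicit false

noncomputable section

namespace Fermat.Agent.RT.GammaH

open CongruenceSubgroup Matrix.SpecialLinearGroup MvPolynomial ModularCurve.Period
open scoped MatrixGroups

variable {L : ℕ} {K : Subgroup (ZMod L)ˣ} {ℓ : ℕ} [hℓ : Fact ℓ.Prime]

/-! ## Upper triangular matrices -/

/-- An upper triangular integral matrix in `GL(2, ℝ)`. -/
def upperGL (A B D : ℤ) (h : A * D ≠ 0) : GLR :=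
  Matrix.GeneralLinearGroup.mkOfDetNeZero
    ((!![A, B; 0, D] : Matrix (Fin 2) (Fin 2) ℤ).map (Int.castRingHom ℝ)) <| by
    rw [← RingHom.mapMatrix_apply, ← RingHom.map_det, Matrix.det_fin_two_of]
    simpa using h

theorem isIntMat_upperGL (A B D : ℤ) (h : A * D ≠ 0) :
    IsIntMat (upperGL A B D h) !![A, B; 0, D] := rfl

omit hℓ in
/-- Units with prescribed residues modulo a factor and its cofactor. -/
theorem exists_cuspUnit {d : ℕ} (hd : d ∣ L) (hco : Nat.Coprime d (L / d)) {x y : ℤ}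
    (hx : IsCoprime x d) (hy : IsCoprime y (L / d : ℕ)) :
    ∃ u : (ZMod L)ˣ, ∀ E : ℤ, (d : ℤ) ∣ E - x → ((L / d : ℕ) : ℤ) ∣ E - y → (E : ZMod L) = u := by
  have hL : (L : ℤ) = (d : ℤ) * (L / d : ℕ) := by rw [← Nat.cast_mul, Nat.mul_div_cancel' hd]
  have hco' : IsCoprime (d : ℤ) (L / d : ℕ) := Nat.isCoprime_iff_coprime.2 hco
  obtain ⟨a, b, hab⟩ := hco'
  set E₀ : ℤ := y * (a * d) + x * (b * (L / d : ℕ))
  have h1 : (d : ℤ) ∣ E₀ - x := ⟨(y - x) * a, by linear_combination x * hab⟩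
  have h2 : ((L / d : ℕ) : ℤ) ∣ E₀ - y := ⟨(x - y) * b, by linear_combination y * hab⟩
  have hE : IsCoprime E₀ (L : ℤ) := by
    rw [hL]
    refine IsCoprime.mul_right ?_ ?_
    · obtain ⟨k, hk⟩ := h1
      rw [sub_eq_iff_eq_add'.1 hk]
      exact hx.add_mul_left_left k
    · obtain ⟨k, hk⟩ := h2
      rw [sub_eq_iff_eq_add'.1 hk]
      exact hy.add_mul_left_left k
  refine ⟨((ZMod.coe_int_isUnit_iff_isCoprime _ _).2 hE.symm).unit, fun E hE1 hE2 => ?_⟩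
  rw [IsUnit.unit_spec, eq_comm, ZMod.intCast_eq_intCast_iff_dvd_sub, hL]
  refine IsCoprime.mul_dvd (Nat.isCoprime_iff_coprime.2 hco) ?_ ?_
  · simpa using dvd_sub hE1 h1
  · simpa using dvd_sub hE2 h2

/-! ## The value of `T_ℓ φ` at a cusp -/

section Cusp

theorem isIntMat_inv_mapGL (g : SL(2, ℤ)) :
    IsIntMat (mapGL ℝ g)⁻¹ !![g 1 1, -g 0 1; -g 1 0, g 0 0] := by
  have := isIntMat_mapGL g⁻¹
  rwa [map_inv, Matrix.SpecialLinearGroup.coe_inv, Matrix.adjugate_fin_two] at this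

/-- The congruences of the entries of `g (A B; 0 D) g⁻¹` at a cusp. -/
theorem cusp_congr {g : SL(2, ℤ)} {d d' : ℤ} (hdc : d ∣ g 1 0) {A B D : ℤ}
    (hB : d' ∣ g 1 1 * (A - D) - g 1 0 * B) :
    d * d' ∣ ((g : Matrix (Fin 2) (Fin 2) ℤ) * !![A, B; 0, D] *
        !![g 1 1, -g 0 1; -g 1 0, g 0 0]) 1 0 ∧
      d ∣ ((g : Matrix (Fin 2) (Fin 2) ℤ) * !![A, B; 0, D] *
        !![g 1 1, -g 0 1; -g 1 0, g 0 0]) 0 0 - A ∧
      d' ∣ ((g : Matrix (Fin 2) (Fin 2) ℤ) * !![A, B; 0, D] *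
        !![g 1 1, -g 0 1; -g 1 0, g 0 0]) 0 0 - D := by
  obtain ⟨k, hk⟩ := hdc
  obtain ⟨j, hj⟩ := hB
  have hdet := Gamma0.det_eq g
  refine ⟨⟨k * j, ?_⟩, ⟨k * (A * g 0 1 - g 0 0 * B - g 0 1 * D), ?_⟩, ⟨g 0 0 * j, ?_⟩⟩
  · simp [Matrix.mul_apply, Fin.sum_univ_two]
    linear_combination g 1 0 * hj + (d' * j) * hk
  · simp [Matrix.mul_apply, Fin.sum_univ_two]
    linear_combination A * hdet + (A * g 0 1 - g 0 0 * B - g 0 1 * D) * hk
  · simp [Matrix.mul_apply, Fin.sum_univ_two]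
    linear_combination g 0 0 * hj + D * hdet

omit hℓ in
theorem cuspRep_mem {g : SL(2, ℤ)} {d d' : ℤ} (hL : (L : ℤ) = d * d') (hdc : d ∣ g 1 0)
    {A B D : ℤ} (hAD0 : A * D ≠ 0) (hAD : A * D = (ℓ : ℤ))
    (hB : d' ∣ g 1 1 * (A - D) - g 1 0 * B) {u : (ZMod L)ˣ}
    (hu : ∀ E : ℤ, d ∣ E - A → d' ∣ E - D → (E : ZMod L) = u) :
    mapGL ℝ (gamma0Elt u⁻¹) * (mapGL ℝ g * upperGL A B D hAD0 * (mapGL ℝ g)⁻¹) ∈
      heckeSet L K ℓ := by
  obtain ⟨h10, h00, h00'⟩ := cusp_congr hdc hB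
  rw [← hL, ← ZMod.intCast_zmod_eq_zero_iff_dvd] at h10
  refine ⟨_, (isIntMat_mapGL _).mul (((isIntMat_mapGL g).mul (isIntMat_upperGL A B D hAD0)).mul
    (isIntMat_inv_mapGL g)), ?_, ?_, 1, one_mem K, ?_⟩
  · rw [Matrix.det_mul, Matrix.det_mul, Matrix.det_mul, Matrix.SpecialLinearGroup.det_coe,
      Matrix.SpecialLinearGroup.det_coe, Matrix.det_fin_two_of, Matrix.det_fin_two_of]
    linear_combination (A * D) * Gamma0.det_eq g + hAD
  · rw [Matrix.mul_apply, Fin.sum_univ_two, Int.cast_add, Int.cast_mul, Int.cast_mul,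
      gamma0Elt_lowerLeft, h10, mul_zero, zero_mul, add_zero]
  · rw [Matrix.mul_apply, Fin.sum_univ_two, Int.cast_add, Int.cast_mul, Int.cast_mul,
      gamma0Elt_upperLeft, h10, hu _ h00 h00', mul_zero, add_zero, ← Units.val_mul, inv_mul_cancel]

omit hℓ in
theorem upperGL_eq_of_mul {A B D A' B' D' : ℤ} {hAD : A * D ≠ 0} {hAD' : A' * D' ≠ 0}
    {H : SL(2, ℤ)} (h : upperGL A B D hAD = mapGL ℝ H * upperGL A' B' D' hAD') :
    A = H 0 0 * A' ∧ B = H 0 0 * B' + H 0 1 * D' := by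
  have e := (isIntMat_upperGL A B D hAD).unique
    (h ▸ (isIntMat_mapGL H).mul (isIntMat_upperGL A' B' D' hAD'))
  have e00 := congrFun (congrFun e 0) 0
  have e01 := congrFun (congrFun e 0) 1
  simp [Matrix.mul_apply, Fin.sum_univ_two] at e00 e01
  exact ⟨e00, e01⟩

omit hℓ in
theorem upperGL_mul_T {A B D w B' ε : ℤ} (hAD : A * D ≠ 0) (h : A * w + B = B' + ε * w * D) :
    upperGL A B D hAD * mapGL ℝ (ModularGroup.T ^ w) =
      mapGL ℝ (ModularGroup.T ^ (w * ε)) * upperGL A B' D hAD := by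
  have h1 := (isIntMat_upperGL A B D hAD).mul (isIntMat_mapGL (ModularGroup.T ^ w))
  have h2 := (isIntMat_mapGL (ModularGroup.T ^ (w * ε))).mul (isIntMat_upperGL A B' D hAD)
  refine h1.ext ?_
  convert h2 using 1
  rw [ModularGroup.coe_T_zpow, ModularGroup.coe_T_zpow]
  ext a b
  fin_cases a <;> fin_cases b <;> simp [Matrix.mul_apply, Fin.sum_univ_two]
  linear_combination h

omit hℓ in
theorem onImg_conj_T {A : Type} [AddCommGroup A] (R : Type) [Semiring R] [Module R A]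
    (φ : Additive (gammaH L K) →+ A) {g : SL(2, ℤ)} {w : ℤ}
    (hX : g * ModularGroup.T ^ w * g⁻¹ ∈ gammaH L K) (u : (ZMod L)ˣ) (ε : ℤ) :
    onImg φ (mapGL ℝ (gamma0Elt u⁻¹ * (g * ModularGroup.T ^ (w * ε) * g⁻¹) * (gamma0Elt u⁻¹)⁻¹)) =
      ε • diamond L K R u φ (Additive.ofMul ⟨_, hX⟩) := by
  rw [diamond_apply, ← map_zsmul φ, ← ofMul_zpow]
  have hc : gamma0Elt u⁻¹ * (g * ModularGroup.T ^ (w * ε) * g⁻¹) * (gamma0Elt u⁻¹)⁻¹ =
      (gamma0Elt u⁻¹ * (g * ModularGroup.T ^ w * g⁻¹) * (gamma0Elt u⁻¹)⁻¹) ^ ε := by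
    rw [conj_zpow, conj_zpow, ← zpow_mul]
  rw [hc, ← onImg_mapGL φ, Subgroup.coe_zpow]

/-- The upper triangular parts of the representatives adapted to a cusp. -/
def cuspBeta (w B₀ B₁ : ℤ) (hℓ0 : (ℓ : ℤ) ≠ 0) : Option (Fin ℓ) → GLR := fun i =>
  i.elim (upperGL (ℓ : ℤ) B₁ 1 (by simpa using hℓ0))
    (fun j => upperGL 1 (B₀ + (j : ℕ) * w) (ℓ : ℤ) (by simpa using hℓ0))

theorem cuspBeta_injective {w B₀ B₁ : ℤ} (hw : IsCoprime (ℓ : ℤ) w) {hℓ0 : (ℓ : ℤ) ≠ 0}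
    {i i' : Option (Fin ℓ)} {H : SL(2, ℤ)}
    (h : cuspBeta w B₀ B₁ hℓ0 i = mapGL ℝ H * cuspBeta w B₀ B₁ hℓ0 i') : i = i' := by
  have hp := Nat.prime_iff_prime_int.1 hℓ.out
  rcases i with _ | j <;> rcases i' with _ | j' <;>
    simp only [cuspBeta, Option.elim_none, Option.elim_some] at h
  · rfl
  · have h' : mapGL ℝ H⁻¹ * upperGL (ℓ : ℤ) B₁ 1 (by simpa using hℓ0) =
        upperGL 1 (B₀ + (j' : ℕ) * w) (ℓ : ℤ) (by simpa using hℓ0) := by
      rw [map_inv]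
      exact inv_mul_eq_iff_eq_mul.2 h
    exact absurd ⟨(H⁻¹ : SL(2, ℤ)) 0 0, by linear_combination (upperGL_eq_of_mul h'.symm).1⟩
      hp.not_dvd_one
  · exact absurd ⟨H 0 0, by linear_combination (upperGL_eq_of_mul h).1⟩ hp.not_dvd_one
  · obtain ⟨e00, e01⟩ := upperGL_eq_of_mul h
    have h1 : (ℓ : ℤ) ∣ ((j : ℕ) - (j' : ℕ) : ℤ) * w :=
      ⟨H 0 1, by linear_combination e01 - (B₀ + (j' : ℕ) * w) * e00⟩
    refine congrArg some (Fin.ext ?_)
    have := Int.eq_zero_of_abs_lt_dvd (hw.dvd_of_dvd_mul_right h1) (by rw [abs_lt]; omega)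
    omega

/-- The exponents of the parabolic element along the orbit. -/
def cuspEps (ℓ : ℕ) : Option (Fin ℓ) → ℤ := fun i =>
  i.elim (ℓ : ℤ) fun j => if (j : ℕ) + 1 = ℓ then 1 else 0

theorem cuspBeta_mul_T (w B₀ B₁ : ℤ) (hℓ0 : (ℓ : ℤ) ≠ 0) (i : Option (Fin ℓ)) :
    cuspBeta w B₀ B₁ hℓ0 i * mapGL ℝ (ModularGroup.T ^ w) =
      mapGL ℝ (ModularGroup.T ^ (w * cuspEps ℓ i)) *
        cuspBeta w B₀ B₁ hℓ0 (i.map (finRotate ℓ)) := by
  rcases i with _ | j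
  · exact upperGL_mul_T (by simpa using hℓ0) (by simp [cuspEps]; ring)
  · obtain ⟨n, hn⟩ : ∃ n, ℓ = n + 1 := ⟨ℓ - 1, by have := hℓ.out.pos; omega⟩
    refine upperGL_mul_T (by simpa using hℓ0) ?_
    subst hn
    rcases eq_or_ne (j : ℕ) n with hjn | hjn
    · simp [cuspEps, Fin.val_add_one, Fin.ext_iff, hjn]
      ring
    · simp [cuspEps, Fin.val_add_one, Fin.ext_iff, hjn]
      ring

/-- The value of `T_ℓ φ` at the parabolic element of a cusp of type `d`. -/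
theorem exists_hecke_cusp (hL : Squarefree L) (hℓL : ¬ ℓ ∣ L) {d : ℕ} (hd : d ∣ L) :
    ∃ e e' : (ZMod L)ˣ, ∀ (R : Type) [Semiring R] (A : Type) [AddCommGroup A] [Module R A]
      (φ : Additive (gammaH L K) →+ A) (g : SL(2, ℤ)), Int.gcd (g 1 0) L = d →
      ∀ (h : g * ModularGroup.T ^ (L : ℤ) * g⁻¹ ∈ gammaH L K),
        hecke L K ℓ R φ (Additive.ofMul ⟨_, h⟩) =
          diamond L K R e φ (Additive.ofMul ⟨_, h⟩) +
            ℓ • diamond L K R e' φ (Additive.ofMul ⟨_, h⟩) := by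
  have hℓ0 : (ℓ : ℤ) ≠ 0 := Int.natCast_ne_zero.2 hℓ.out.ne_zero
  have hmul : L = d * (L / d) := (Nat.mul_div_cancel' hd).symm
  have hmulZ : (L : ℤ) = (d : ℤ) * ((L / d : ℕ) : ℤ) := by rw [← Nat.cast_mul, ← hmul]
  have hco : Nat.Coprime d (L / d) := Nat.coprime_of_squarefree_mul (hmul ▸ hL)
  have hℓco : IsCoprime (ℓ : ℤ) (L : ℤ) :=
    Nat.isCoprime_iff_coprime.2 ((Nat.Prime.coprime_iff_not_dvd hℓ.out).2 hℓL)
  rw [hmulZ] at hℓco
  -- `e` is `1` modulo `d` and `ℓ` modulo `L / d`, and `e'` the other way round.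
  obtain ⟨e, he⟩ := exists_cuspUnit hd hco isCoprime_one_left hℓco.of_mul_right_right
  obtain ⟨e', he'⟩ := exists_cuspUnit hd hco hℓco.of_mul_right_left isCoprime_one_left
  refine ⟨e, e', fun R _ A _ _ φ g hg hX => ?_⟩
  -- The lower left entry of `g` is divisible by `d` and prime to `d' = L / d`.
  have hdc : (d : ℤ) ∣ g 1 0 := by
    rw [← hg]
    exact Int.gcd_dvd_left _ _
  have hcd' : IsCoprime (g 1 0) ((L / d : ℕ) : ℤ) := by
    rw [Int.isCoprime_iff_gcd_eq_one]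
    refine Nat.eq_one_of_dvd_coprimes hco ?_
      (Int.natCast_dvd_natCast.1 (Int.gcd_dvd_right _ _))
    conv_rhs => rw [← hg]
    exact Int.gcd_dvd_gcd_of_dvd_right (g 1 0)
      (Int.natCast_dvd_natCast.2 (Nat.div_dvd_of_dvd hd))
  obtain ⟨x, y, hxy⟩ := hcd'
  generalize hd' : ((L / d : ℕ) : ℤ) = d' at hmulZ he he' hxy
  -- Representatives of `T_ℓ` adapted to `g`: `g (1 B₀+jL; 0 ℓ) g⁻¹` and `g (ℓ B₁; 0 1) g⁻¹`,
  -- translated into the set of `T_ℓ` by the units `u`.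
  set B₀ : ℤ := x * (g 1 1 * (1 - (ℓ : ℤ)))
  set B₁ : ℤ := x * (g 1 1 * ((ℓ : ℤ) - 1))
  have hB₀ : ∀ j : ℤ, d' ∣ g 1 1 * (1 - (ℓ : ℤ)) - g 1 0 * (B₀ + j * L) := fun j =>
    ⟨y * (g 1 1 * (1 - (ℓ : ℤ))) - g 1 0 * j * d, by
      linear_combination -(g 1 1 * (1 - (ℓ : ℤ))) * hxy - g 1 0 * j * hmulZ⟩
  have hB₁ : d' ∣ g 1 1 * ((ℓ : ℤ) - 1) - g 1 0 * B₁ :=
    ⟨y * (g 1 1 * ((ℓ : ℤ) - 1)), by linear_combination -(g 1 1 * ((ℓ : ℤ) - 1)) * hxy⟩
  set u : Option (Fin ℓ) → (ZMod L)ˣ := fun i => i.elim e' fun _ => e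
  set rep : Option (Fin ℓ) → GLR := fun i => mapGL ℝ (gamma0Elt (u i)⁻¹) *
    (mapGL ℝ g * cuspBeta (L : ℤ) B₀ B₁ hℓ0 i * (mapGL ℝ g)⁻¹) with hrep
  have hmem : ∀ i, rep i ∈ heckeSet L K ℓ := by
    intro i
    rcases i with _ | j
    · exact cuspRep_mem hmulZ hdc (by simpa using hℓ0) (mul_one _) hB₁ he'
    · exact cuspRep_mem hmulZ hdc (by simpa using hℓ0) (one_mul _) (hB₀ _) he
  have hℓw : IsCoprime (ℓ : ℤ) (L : ℤ) :=
    Nat.isCoprime_iff_coprime.2 ((Nat.Prime.coprime_iff_not_dvd hℓ.out).2 hℓL)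
  -- They are distinct modulo `Γ_H`, so by counting they represent the double coset.
  have hinj : ∀ i i', rep i * (rep i')⁻¹ ∈ img (gammaH L K) → i = i' := by
    intro i i' hm
    obtain ⟨γ, -, hγ⟩ := hm
    refine cuspBeta_injective (B₀ := B₀) (B₁ := B₁) (hℓ0 := hℓ0) hℓw
      (H := g⁻¹ * (gamma0Elt (u i)⁻¹)⁻¹ * γ * gamma0Elt (u i')⁻¹ * g) ?_
    rw [map_mul, map_mul, map_mul, map_mul, map_inv, map_inv, hγ, hrep]
    group
  have hreps : IsReps (gammaH L K) (heckeSet L K ℓ) rep :=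
    isReps_hRep.of_card hmem hinj (by
      rw [Nat.card_eq_fintype_card, card_hIdx hℓL, Nat.card_eq_fintype_card, Fintype.card_option,
        Fintype.card_fin])
  have hadm : Admissible (gammaH L K) (gammaH L K) rep :=
    hreps.admissible fun _ hz γ => heckeSet_mul_gammaH hz γ
  -- `g T^L g⁻¹` fixes the `none` one and permutes the others cyclically, leaving the exponents
  -- `cuspEps`: `ℓ` at the fixed one, and `1` once around the cycle.
  have hu : ∀ i : Option (Fin ℓ), u (i.map (finRotate ℓ)) = u i := fun i => by cases i <;> rfl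
  have hval : ∀ i, rep i * mapGL ℝ (g * ModularGroup.T ^ (L : ℤ) * g⁻¹) *
      (rep (i.map (finRotate ℓ)))⁻¹ = mapGL ℝ (gamma0Elt (u i)⁻¹ *
        (g * ModularGroup.T ^ ((L : ℤ) * cuspEps ℓ i) * g⁻¹) * (gamma0Elt (u i)⁻¹)⁻¹) := fun i => by
    simp only [hrep, hu, map_mul, map_inv, mul_assoc, inv_mul_cancel_left, mul_inv_rev, inv_inv]
    rw [← mul_assoc (cuspBeta (L : ℤ) B₀ B₁ hℓ0 i), cuspBeta_mul_T]
    simp [mul_assoc]
  have hperm : IsPerm (gammaH L K) rep (mapGL ℝ (g * ModularGroup.T ^ (L : ℤ) * g⁻¹))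
      (fun i => i.map (finRotate ℓ)) := by
    refine ⟨Finite.injective_iff_bijective.1 (Option.map_injective (finRotate ℓ).injective),
      fun i => ?_⟩
    rw [hval]
    refine mapGL_mem_img.2 (gammaH_conj (gamma0Elt_mem _) ?_)
    rw [zpow_mul, ← conj_zpow]
    exact Subgroup.zpow_mem _ hX _
  -- Sum over the representatives.
  refine (DFunLike.congr_fun (LinearMap.congr_fun (hecke_eq_opOf R hadm hreps) φ) _).trans ?_
  refine (opOf_apply_of_isPerm hadm φ ⟨_, hX⟩ hperm).trans ?_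
  refine (Finset.sum_congr rfl fun i _ => (congrArg (onImg φ) (hval i)).trans
    (onImg_conj_T R φ hX (u i) (cuspEps ℓ i))).trans ?_
  rw [Fintype.sum_option]
  rw [add_comm]
  refine congrArg₂ (· + ·) ?_ (natCast_zsmul _ _)
  have hlast : ℓ - 1 < ℓ := Nat.sub_lt hℓ.out.pos one_pos
  rw [Finset.sum_eq_single ⟨ℓ - 1, hlast⟩]
  · simp [u, cuspEps, show ℓ - 1 + 1 = ℓ by omega]
  · intro j _ hj
    have : (j : ℕ) + 1 ≠ ℓ := fun h => hj (Fin.ext (by simp; omega))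
    simp [cuspEps, this]
  · simp

end Cusp

/-! ## Parabolic homomorphisms -/

/-- A homomorphism into a torsion-free group is parabolic once it kills the elements
`g T^L g⁻¹`. -/
theorem isParabolicHom_of_cusps [NeZero L] (hneg : -1 ∈ K) {A : Type} [AddCommGroup A]
    [IsAddTorsionFree A] {φ : Additive (gammaH L K) →+ A}
    (h : ∀ (g : SL(2, ℤ)) (hg : g * ModularGroup.T ^ (L : ℤ) * g⁻¹ ∈ gammaH L K),
      φ (Additive.ofMul ⟨_, hg⟩) = 0) :
    IsParabolicHom (gammaH L K) φ := by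
  have hmem : ∀ g : SL(2, ℤ), g * ModularGroup.T ^ (L : ℤ) * g⁻¹ ∈ gammaH L K := fun g =>
    Gamma_le_gammaH ((Gamma_normal L).conj_mem _ (by
      simpa using ModularGroup_T_pow_mem_Gamma (L : ℤ) L dvd_rfl) g)
  have hn1 : φ (Additive.ofMul ⟨-1, neg_one_mem_gammaH hneg⟩) = 0 := by
    refine (nsmul_eq_zero_iff_right two_ne_zero).1 ?_
    rw [← map_nsmul φ, ← ofMul_pow]
    convert map_zero φ
    exact congrArg Additive.ofMul (Subtype.ext (by simp))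
  intro γ hγ
  obtain ⟨δ, m, s, hs, hsγ⟩ : ∃ (δ : SL(2, ℤ)) (m : ℤ) (s : gammaH L K),
      φ (Additive.ofMul s) = 0 ∧
        (γ : SL(2, ℤ)) = (s : SL(2, ℤ)) * (δ * ModularGroup.T ^ m * δ⁻¹) := by
    rw [Matrix.trace_fin_two] at hγ
    rcases sq_eq_sq_iff_eq_or_eq_neg.mp
      (show ((γ : SL(2, ℤ)) 0 0 + (γ : SL(2, ℤ)) 1 1) ^ 2 = (2 : ℤ) ^ 2 by rw [hγ]; norm_num)
      with h' | h'
    · obtain ⟨δ, m, hm⟩ := Periods.exists_conj_T _ h'
      exact ⟨δ, m, 1, by simp, by simpa using hm⟩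
    · obtain ⟨δ, m, hm⟩ := Periods.exists_conj_T (-(γ : SL(2, ℤ))) (by simp; linarith)
      exact ⟨δ, m, ⟨-1, neg_one_mem_gammaH hneg⟩, hn1, by rw [← hm]; simp⟩
  have hL0 : (L : ℕ) ≠ 0 := NeZero.ne L
  have hX : δ * ModularGroup.T ^ m * δ⁻¹ ∈ gammaH L K := by
    have := mul_mem (inv_mem s.2) γ.2
    rwa [hsγ, inv_mul_cancel_left] at this
  have hγeq : γ = s * ⟨_, hX⟩ := Subtype.ext hsγ
  rw [hγeq, ofMul_mul, map_add, hs, zero_add]
  refine (nsmul_eq_zero_iff_right hL0).1 ?_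
  rw [← map_nsmul φ, ← ofMul_pow,
    show (⟨_, hX⟩ : gammaH L K) ^ L = (⟨_, hmem δ⟩ : gammaH L K) ^ m from Subtype.ext (by
      rw [Subgroup.coe_pow, Subgroup.coe_zpow]
      simp only [conj_zpow, ← zpow_natCast, ← zpow_mul, mul_comm m]),
    ofMul_zpow, map_zsmul φ, h δ (hmem δ), zsmul_zero]

variable {O : Type} [CommRing O] [IsLocalRing O] (S : Finset ℕ)
    (abar : ℕ → IsLocalRing.ResidueField O)

/-- An operator outside the residual ideal sending every homomorphism to a parabolic one. -/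
theorem exists_parabolicOp [NeZero L] (hL : Squarefree L) (hneg : -1 ∈ K) {ℓ : ℕ}
    (hℓ : ℓ.Prime) (hℓS : ℓ ∉ S) (hℓL : ¬ ℓ ∣ L)
    (hEis : abar ℓ ≠ 1 + (ℓ : IsLocalRing.ResidueField O)) :
    ∃ P : OpRing O L S, P ∉ resIdeal S abar L ∧
      ∀ (A : Type) [AddCommGroup A] [Module O A] [IsAddTorsionFree A] (φ : HomMod O S K A),
        IsParabolicHom (gammaH L K) (toHomMod.symm (P • φ)) := by
  classical
  have : Fact ℓ.Prime := ⟨hℓ⟩
  choose e e' he using fun d : {d // d ∈ L.divisors} =>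
    exists_hecke_cusp (K := K) (ℓ := ℓ) hL hℓL (Nat.dvd_of_mem_divisors d.2)
  set F : {d // d ∈ L.divisors} → OpRing O L S := fun d =>
    X (Sum.inr ⟨ℓ, hℓ, hℓS⟩) - X (Sum.inl (e d)) - (ℓ : OpRing O L S) * X (Sum.inl (e' d)) with hF
  refine ⟨∏ d, F d, ?_, fun A _ _ _ φ => ?_⟩
  · rw [mem_resIdeal, map_prod, ← ne_eq, Finset.prod_ne_zero_iff]
    intro d _
    simp only [hF, map_sub, map_mul, map_natCast, opRes_inl, opRes_inr, mul_one]
    rw [sub_sub, sub_ne_zero]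
    exact hEis
  · refine isParabolicHom_of_cusps hneg fun g hg => ?_
    set d : {d // d ∈ L.divisors} := ⟨Int.gcd (g 1 0) L, Nat.mem_divisors.2
      ⟨Int.natCast_dvd_natCast.1 (Int.gcd_dvd_right _ _), NeZero.ne L⟩⟩
    rw [← Finset.mul_prod_erase _ _ (Finset.mem_univ d), mul_smul]
    generalize (∏ x ∈ Finset.univ.erase d, F x) • φ = ψ
    have key := he d O A ψ g rfl hg
    have hFψ : F d • ψ = (toHomMod (hecke L K ℓ O ψ - diamond L K O (e d) ψ -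
        ℓ • diamond L K O (e' d) ψ) : HomMod O S K A) := by
      simp only [hF, sub_smul, mul_smul]
      rw [X_inr_smul, X_inl_smul, Nat.cast_smul_eq_nsmul, X_inl_smul]
      rfl
    rw [hFψ]
    show (hecke L K ℓ O ψ - diamond L K O (e d) ψ - ℓ • diamond L K O (e' d) ψ)
      (Additive.ofMul ⟨_, hg⟩) = 0
    rw [AddMonoidHom.sub_apply, AddMonoidHom.sub_apply, key]
    simp

end Fermat.Agent.RT.GammaH
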