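import Fermat.Agent.Poincare.Gamma0Link
import Fermat.Agent.Gamma0.Main

/-!
# `dim S₂(Γ) = g(Γ)` for finite index `Γ ∋ -1`

Weight two cusp forms of an arbitrary finite index subgroup are the vector valued forms on the coset
space, so that their dimension is the genus defined combinatorially in `Gamma0.Count`.
-/

set_option autoImplicit false

noncomputable section

open UpperHalfPlane hiding I
open Filter CongruenceSubgroup
open scoped MatrixGroups ModularForm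

namespace Fermat.Agent.RT.GammaH

open Fermat.Agent.Poincare Fermat.Agent.Gamma0

variable {Γ : Subgroup SL(2, ℤ)}

/-- A cusp form on `Γ` is invariant under the slash action of `Γ`. -/
theorem cuspForm_slash_eq_self {k : ℤ} (f : CuspForm Γ k) {γ : SL(2, ℤ)} (h : γ ∈ Γ) :
    (⇑f) ∣[k] γ = ⇑f :=
  SlashInvariantForm.slash_action_eqn f _ ⟨γ, h, rfl⟩

/-- The vector valued form of a cusp form. -/
def cosetVForm (f : CuspForm Γ 2) (x : SL(2, ℤ) ⧸ Γ) : ℍ → ℂ :=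
  Quotient.liftOn' x (fun g ↦ (⇑f) ∣[(2 : ℤ)] g⁻¹) fun a b hab ↦ by
    rw [QuotientGroup.leftRel_apply] at hab
    show (⇑f) ∣[(2 : ℤ)] a⁻¹ = (⇑f) ∣[(2 : ℤ)] b⁻¹
    conv_lhs => rw [show a⁻¹ = (a⁻¹ * b) * b⁻¹ by group, SlashAction.slash_mul,
      cuspForm_slash_eq_self f hab]

theorem cosetVForm_mk (f : CuspForm Γ 2) (g : SL(2, ℤ)) :
    cosetVForm f (g : SL(2, ℤ) ⧸ Γ) = (⇑f) ∣[(2 : ℤ)] g⁻¹ := rfl

variable [Γ.FiniteIndex]

theorem isVForm_cosetVForm (f : CuspForm Γ 2) : IsVForm true 2 (cosetVForm f) := by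
  refine ⟨fun x ↦ ?_, fun h x ↦ ?_, fun x ↦ ?_⟩
  · induction x using QuotientGroup.induction_on with | _ g => ?_
    rw [cosetVForm_mk]
    exact (CuspFormClass.holo f).slash _ _
  · induction x using QuotientGroup.induction_on with | _ g => ?_
    rw [MulAction.Quotient.smul_coe, smul_eq_mul, cosetVForm_mk, cosetVForm_mk,
      mul_inv_rev, inv_inv, SlashAction.slash_mul]
  · induction x using QuotientGroup.induction_on with | _ g => ?_
    rw [cosetVForm_mk]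
    exact CuspFormClass.zero_at_infty_slash f g⁻¹

/-- The cusp form of a vector valued form. -/
def cuspFormOfVForm {F : SL(2, ℤ) ⧸ Γ → ℍ → ℂ} (hF : IsVForm true 2 F) : CuspForm Γ 2 where
  toFun := F ((1 : SL(2, ℤ)) : SL(2, ℤ) ⧸ Γ)
  slash_action_eq' := by
    rintro _ ⟨γ, hγ, rfl⟩
    show F _ ∣[(2 : ℤ)] γ = _
    rw [hF.slash, MulAction.Quotient.smul_coe, smul_eq_mul, mul_one]
    congr 1
    exact QuotientGroup.eq.mpr (by simpa using hγ)
  holo' := hF.holo _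
  zero_at_cusps' {c} hc := by
    rw [Subgroup.IsArithmetic.isCusp_iff_isCusp_SL2Z] at hc
    rw [OnePoint.isZeroAt_iff_forall_SL2Z hc]
    intro γ _
    rw [hF.slash]
    exact hF.growth _

variable (Γ)

/-- Weight two cusp forms are the vector valued forms on the coset space. -/
def cuspFormVEquiv : CuspForm Γ 2 ≃ₗ[ℂ] vSpace (SL(2, ℤ) ⧸ Γ) true 2 where
  toFun f := ⟨cosetVForm f, isVForm_cosetVForm f⟩
  map_add' f g := Subtype.ext (funext fun x ↦ by
    induction x using QuotientGroup.induction_on with | _ a => ?_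
    show (⇑(f + g)) ∣[(2 : ℤ)] a⁻¹ = (⇑f) ∣[(2 : ℤ)] a⁻¹ + (⇑g) ∣[(2 : ℤ)] a⁻¹
    rw [FunLike.coe_add, SlashAction.add_slash])
  map_smul' c f := Subtype.ext (funext fun x ↦ by
    induction x using QuotientGroup.induction_on with | _ a => ?_
    show (⇑(c • f)) ∣[(2 : ℤ)] a⁻¹ = c • ((⇑f) ∣[(2 : ℤ)] a⁻¹)
    rw [FunLike.coe_smul, ModularForm.SL_smul_slash])
  invFun F := cuspFormOfVForm F.2
  left_inv f := DFunLike.ext' (by
    show (⇑f) ∣[(2 : ℤ)] (1 : SL(2, ℤ))⁻¹ = ⇑f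
    rw [inv_one, SlashAction.slash_one])
  right_inv F := Subtype.ext (funext fun x ↦ by
    induction x using QuotientGroup.induction_on with | _ a => ?_
    show (F : SL(2, ℤ) ⧸ Γ → ℍ → ℂ) ((1 : SL(2, ℤ)) : SL(2, ℤ) ⧸ Γ) ∣[(2 : ℤ)] a⁻¹ = _
    rw [(F.2 : IsVForm true 2 _).slash, inv_inv, MulAction.Quotient.smul_coe, smul_eq_mul, mul_one])

omit [Γ.FiniteIndex] in
theorem natCard_orb_T_eq_cuspSet [Fintype (SL(2, ℤ) ⧸ Γ)] :
    Nat.card (Orb (SL(2, ℤ) ⧸ Γ) ModularGroup.T) = Fintype.card (CuspSet (SL(2, ℤ) ⧸ Γ)) := by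
  classical
  rw [← Nat.card_eq_fintype_card]
  refine Nat.card_congr ((Quotient.congrRight fun x y ↦ ?_) :
    Orb (SL(2, ℤ) ⧸ Γ) ModularGroup.T ≃ Quotient (cuspSetoid (SL(2, ℤ) ⧸ Γ)))
  have hit : ∀ j : ℕ, (shift : SL(2, ℤ) ⧸ Γ → SL(2, ℤ) ⧸ Γ)^[j] =
      fun x => ModularGroup.T ^ (-(j : ℤ)) • x := fun j => by
    funext z
    rw [zpow_neg, zpow_natCast, ← inv_pow]
    exact smul_iterate_apply _ j z
  rw [← Quotient.eq'' (s₁ := MulAction.orbitRel (Subgroup.zpowers ModularGroup.T) _),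
    orb_mk_eq_iff]
  constructor
  · rintro ⟨k, rfl⟩
    set w := cuspWidth x
    have hw : ModularGroup.T ^ (-(w : ℤ)) ∈ MulAction.stabilizer SL(2, ℤ) x := by
      rw [MulAction.mem_stabilizer_iff]
      show (fun z => ModularGroup.T ^ (-(w : ℤ)) • z) x = x
      rw [← hit]
      exact Function.iterate_minimalPeriod
    have hpos : (w : ℤ) ≠ 0 := by
      have := cuspWidth_pos x
      exact_mod_cast this.ne'
    refine ⟨((-k) % w).toNat, ?_⟩
    rw [hit, Int.toNat_of_nonneg (Int.emod_nonneg _ hpos), Int.emod_def]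
    have hk := Subgroup.zpow_mem _ hw (-((-k) / w))
    rw [MulAction.mem_stabilizer_iff, ← zpow_mul] at hk
    conv_rhs => rw [← hk, ← mul_smul, ← zpow_add]
    show _ = ModularGroup.T ^ _ • x
    ring_nf
  · rintro ⟨j, rfl⟩
    exact ⟨-(j : ℤ), (congrFun (hit j) x).symm⟩

/-- `dim S₂(Γ)` is the genus. -/
theorem finrank_cuspForm_two_eq_genusOf (hneg : -1 ∈ Γ) :
    Module.finrank ℂ (CuspForm Γ 2) = genusOf Γ := by
  classical
  have : Fintype (SL(2, ℤ) ⧸ Γ) := Fintype.ofFinite _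
  have hX : ∀ x : SL(2, ℤ) ⧸ Γ, (-1 : SL(2, ℤ)) • x = x := Gamma0.neg_one_smul_coset hneg
  have h := FormBasis.finrank_two_eq (X := SL(2, ℤ) ⧸ Γ) hX
  rw [← (cuspFormVEquiv Γ).finrank_eq, ← natCard_orb_T_eq_cuspSet] at h
  have h2 := card_add_mul_fixed (X := SL(2, ℤ) ⧸ Γ) ModularGroup.S Nat.prime_two fun x => by
    rw [pow_two, mul_smul, S_smul_S_smul hneg]
  have h3 := card_add_mul_fixed (X := SL(2, ℤ) ⧸ Γ) Gamma0.ST Nat.prime_three fun x => by
    rw [ST_pow_three, hX]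
  have h4 := two_mul_genusOf_add hneg
  have e2 : Nat.card (MulAction.fixedBy (SL(2, ℤ) ⧸ Γ) ModularGroup.S) =
      Nat.card {x : SL(2, ℤ) ⧸ Γ // ModularGroup.S • x = x} := rfl
  have e3 : Nat.card (MulAction.fixedBy (SL(2, ℤ) ⧸ Γ) Gamma0.ST) =
      Nat.card {x : SL(2, ℤ) ⧸ Γ // (ModularGroup.S * ModularGroup.T) • x = x} := rfl
  rw [e2] at h2
  rw [e3] at h3
  rw [Nat.card_eq_fintype_card (α := SL(2, ℤ) ⧸ Γ)] at h2 h3 h4
  omega

theorem finrank_parabolicHoms_eq (hneg : -1 ∈ Γ) :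
    Module.finrank ℂ (ModularCurve.Period.parabolicHoms ℂ Γ ℂ) = 2 * genusOf Γ := by
  obtain ⟨γ, hγ⟩ := exists_parabolicHoms_equiv (Γ := Γ) hneg
  obtain ⟨e, -⟩ := hγ ℂ ℂ
  rw [e.finrank_eq, Module.finrank_fin_fun]

end Fermat.Agent.RT.GammaH
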