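import Fermat.Agent.RT.GammaH.DescentScalar
import Fermat.Agent.RT.GammaH.LevelOps

/-!
# Descent to level `L / v` when `v` does not divide the level of the twisted newform

With `W` an Atkin–Lehner matrix at `v`, the trace of `f|W` is a nonzero form of level `L / v` with
the same eigensystem.

Main result: `exists_descent`.
-/

set_option autoImplicit false

noncomputable section

open CongruenceSubgroup UpperHalfPlane ModularFormClass Matrix.SpecialLinearGroup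
open scoped MatrixGroups ModularForm

namespace Fermat.Agent.RT.GammaH

open Fermat.Agent.Newforms (ALData realMat mem_gamma0_iff_dvd IsCuspFn)
open Fermat.Agent.Periods.Congruence (per per_injective)
open P2MW.S_ModularForm_heckeT_slash_eq_self_of_mem_Gamma0.ModularForm.HeckeSlashInvariance

/-! ## The representatives of the trace -/

section AL

variable {q R : ℕ} (D : ALData q R)

/-- Conjugation by an Atkin–Lehner matrix keeps the diagonal modulo `R`. -/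
theorem al_exists_conj_diag (A : Matrix (Fin 2) (Fin 2) ℤ) (hc : ((q * R : ℕ) : ℤ) ∣ A 1 0) :
    ∃ A' : Matrix (Fin 2) (Fin 2) ℤ, ((q * R : ℕ) : ℤ) ∣ A' 1 0 ∧ A'.det = A.det ∧
      (D.gl : Matrix (Fin 2) (Fin 2) ℝ) * realMat A = realMat A' * D.gl ∧
      (R : ℤ) ∣ A' 0 0 - A 0 0 ∧ (R : ℤ) ∣ A' 1 1 - A 1 1 := by
  obtain ⟨A', h1, h2, h3⟩ := D.exists_conj A hc
  refine ⟨A', h1, h2, by rw [ALData.val_gl, ← Matrix.map_mul, ← Matrix.map_mul, h3], ?_, ?_⟩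
  · obtain ⟨c, hc⟩ := hc
    have e := congrFun (congrFun h3 0) 0
    simp only [ALData.intMat, Matrix.mul_apply, Matrix.of_apply, Matrix.cons_val',
      Matrix.cons_val_fin_one, Matrix.cons_val_zero, Fin.sum_univ_two, Matrix.cons_val_one] at e
    push_cast at hc
    rw [hc] at e
    have hq : (q : ℤ) ≠ 0 := by exact_mod_cast D.hq
    have e' : D.x * (A' 0 0 - A 0 0) = (R : ℤ) * (D.y * c - A' 0 1 * D.z) :=
      mul_left_cancel₀ hq (by linear_combination -e)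
    exact ⟨(q : ℤ) * D.v * (D.y * c - A' 0 1 * D.z) - D.z * D.y * (A' 0 0 - A 0 0),
      by linear_combination (q : ℤ) * D.v * e' - (A' 0 0 - A 0 0) * D.eq_one⟩
  · obtain ⟨c, hc⟩ := h1
    have e := congrFun (congrFun h3 1) 1
    simp only [ALData.intMat, Matrix.mul_apply, Matrix.of_apply, Matrix.cons_val',
      Matrix.cons_val_fin_one, Matrix.cons_val_one, Fin.sum_univ_two, Matrix.cons_val_zero] at e
    push_cast at hc
    rw [hc] at e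
    have hq : (q : ℤ) ≠ 0 := by exact_mod_cast D.hq
    have e' : D.v * (A' 1 1 - A 1 1) = (R : ℤ) * (D.z * A 0 1 - c * D.y) :=
      mul_left_cancel₀ hq (by linear_combination -e)
    exact ⟨(q : ℤ) * D.x * (D.z * A 0 1 - c * D.y) - D.z * D.y * (A' 1 1 - A 1 1),
      by linear_combination (q : ℤ) * D.x * e' - (A' 1 1 - A 1 1) * D.eq_one⟩

/-- The representatives used by the trace. -/
def traceRep (i : Option (ZMod q)) : SL(2, ℤ) := i.elim 1 fun j => D.delta j.val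

theorem traceRep_unique (hq : q.Prime) (hqR : ¬ q ∣ R) {γ : SL(2, ℤ)} (hγ : γ ∈ Gamma0 R) :
    ∃! i, γ * (traceRep D i)⁻¹ ∈ Gamma0 (q * R) :=
  Newforms.existsUnique_rep_mem hq hqR D hγ

theorem traceRep_mem_gammaH (hx : D.x = 1) (H : Subgroup (ZMod R)ˣ) (i : Option (ZMod q)) :
    traceRep D i ∈ gammaH R H := by
  rcases i with _ | j
  · exact one_mem _
  · refine ⟨Gamma0_mem.1 (D.delta_mem _), 1, one_mem _, ?_⟩
    show (((D.delta j.val) 0 0 : ℤ) : ZMod R) = _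
    simp [ALData.delta, hx]

theorem add_heckeU_eq_sum [NeZero q] (f : ℍ → ℂ) :
    f + ModularForm.heckeU 2 q (f ∣[(2 : ℤ)] D.gl) =
      ∑ i, f ∣[(2 : ℤ)] traceRep D i := by
  rw [Fintype.sum_option, heckeU_eq_sum_zmod]
  congr 1
  · exact (SlashAction.slash_one _ _).symm
  · exact Finset.sum_congr rfl fun j _ => D.slash_gl_heckeMatrix _ f

end AL

variable {L : ℕ} [NeZero L] {K : Subgroup (ZMod L)ˣ} {χ : (ZMod L)ˣ →* ℂˣ} {e : ℕ}

/-! ## The Atkin–Lehner image -/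

theorem chi_eq_of_unitsMap_eq {v : ℕ} (hv : v.Prime) (hvL : v ∣ L)
    (hvb : v ∉ badPrimes (toDir χ)) {u u' : (ZMod L)ˣ}
    (h : ZMod.unitsMap (Nat.div_dvd_of_dvd hvL) u = ZMod.unitsMap (Nat.div_dvd_of_dvd hvL) u') :
    χ u = χ u' := by
  by_contra hne
  refine hvb (mem_badPrimes.2 ⟨hv, hvL, u * u'⁻¹,
    (unitsMap_eq_one_iff (Nat.div_dvd_of_dvd hvL) _).1 ?_, ?_⟩)
  · rw [map_mul, map_inv, h, mul_inv_cancel]
  · rw [toDir_coe, map_mul, map_inv]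
    exact fun h1 => hne (mul_inv_eq_one.1 (Units.ext h1))

omit [NeZero L] in
theorem unitsMap_eq_of_dvd_sub {d : ℕ} (hd : d ∣ L) {u u' : (ZMod L)ˣ} {a a' : ℤ}
    (ha : (a : ZMod L) = u) (ha' : (a' : ZMod L) = u') (h : (d : ℤ) ∣ a' - a) :
    ZMod.unitsMap hd u = ZMod.unitsMap hd u' := by
  refine Units.ext ?_
  rw [ZMod.unitsMap_val, ZMod.unitsMap_val, ← ha, ← ha', ZMod.cast_intCast hd, ZMod.cast_intCast hd]
  rw [ZMod.intCast_eq_intCast_iff_dvd_sub]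
  exact h

/-- The Atkin–Lehner image of a function of nebentype `χ` has nebentype `χ`. -/
private theorem slash_al_neb
    {v : ℕ} (D₀ : ALData v (L / v)) (hv : v.Prime) (hvL : v ∣ L)
    (hvb : v ∉ badPrimes (toDir χ))
    {f : ℍ → ℂ} (hfneb : ∀ γ ∈ Gamma0 L, ∀ u : (ZMod L)ˣ, ((γ 1 1 : ℤ) : ZMod L) = u →
      f ∣[(2 : ℤ)] γ = (χ u : ℂ) • f)
    {γ : SL(2, ℤ)} (hγ : γ ∈ Gamma0 L) (u : (ZMod L)ˣ) (hu : ((γ 1 1 : ℤ) : ZMod L) = u) :
    (f ∣[(2 : ℤ)] D₀.gl) ∣[(2 : ℤ)] γ = (χ u : ℂ) • (f ∣[(2 : ℤ)] D₀.gl) := by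
  have hd : L / v ∣ L := Nat.div_dvd_of_dvd hvL
  have hLv : v * (L / v) = L := Nat.mul_div_cancel' hvL
  obtain ⟨A', h1, h2, h3, -, h5⟩ := al_exists_conj_diag D₀ (γ : Matrix (Fin 2) (Fin 2) ℤ)
    (by rw [hLv]; exact mem_gamma0_iff_dvd.1 hγ)
  let γ' : SL(2, ℤ) := ⟨A', h2.trans γ.det_coe⟩
  have hγ' : γ' ∈ Gamma0 L := mem_gamma0_iff_dvd.2 (by rw [← hLv]; exact h1)
  have hu' : IsUnit ((γ' 1 1 : ℤ) : ZMod L) := DeligneSerre.isUnit_lowerRight hγ'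
  have hχu : χ u = χ hu'.unit :=
    chi_eq_of_unitsMap_eq hv hvL hvb (unitsMap_eq_of_dvd_sub hd hu hu'.unit_spec.symm h5)
  have he' : D₀.gl * mapGL ℝ γ = mapGL ℝ γ' * D₀.gl := by
    refine Units.ext ?_
    rw [Units.val_mul, Units.val_mul, Newforms.mapGL_eq_realMat, Newforms.mapGL_eq_realMat]
    exact h3
  have hn : f ∣[(2 : ℤ)] (mapGL ℝ γ' : GL (Fin 2) ℝ) = (χ u : ℂ) • f := by
    rw [hχu]; exact hfneb γ' hγ' _ hu'.unit_spec.symm
  show (f ∣[(2 : ℤ)] D₀.gl) ∣[(2 : ℤ)] (mapGL ℝ γ : GL (Fin 2) ℝ) = _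
  rw [← SlashAction.slash_mul, he', SlashAction.slash_mul, hn, slash_al_smul]

/-- `T_ℓ` commutes with an Atkin–Lehner operator away from the bad primes of the nebentype. -/
private theorem slashSum_slash_al
    {v : ℕ} (D₀ : ALData v (L / v)) (hv : v.Prime) (hvL : v ∣ L)
    (hvb : v ∉ badPrimes (toDir χ))
    {f : ℍ → ℂ} (hfneb : ∀ γ ∈ Gamma0 L, ∀ u : (ZMod L)ˣ, ((γ 1 1 : ℤ) : ZMod L) = u →
      f ∣[(2 : ℤ)] γ = (χ u : ℂ) • f)
    {ℓ : ℕ} [hℓ : Fact ℓ.Prime] (hℓL : ¬ ℓ ∣ L) {c : ℂ} (hfT : slashSum (hRep L ℓ) f = c • f) :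
    slashSum (hRep L ℓ) (f ∣[(2 : ℤ)] D₀.gl) = c • (f ∣[(2 : ℤ)] D₀.gl) := by
  have hd : L / v ∣ L := Nat.div_dvd_of_dvd hvL
  have hLv : v * (L / v) = L := Nat.mul_div_cancel' hvL
  -- conjugated representatives
  have hconj : ∀ i : HIdx L ℓ, ∃ B : GLR, B ∈ heckeSet L χ.ker ℓ ∧
      D₀.gl * hRep L ℓ i = B * D₀.gl := by
    intro i
    obtain ⟨A, hA, hAd, hAc, w, hw, hAa⟩ :=
      hRep_mem_heckeSet (K := (⊥ : Subgroup (ZMod L)ˣ)) i
    rw [Subgroup.mem_bot] at hw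
    subst hw
    obtain ⟨A', h1, h2, h3, h4, -⟩ := al_exists_conj_diag D₀ A
      (by rw [hLv]; exact (ZMod.intCast_zmod_eq_zero_iff_dvd _ _).1 hAc)
    rw [hLv] at h1
    have hA'c : ((A' 1 0 : ℤ) : ZMod L) = 0 := (ZMod.intCast_zmod_eq_zero_iff_dvd _ _).2 h1
    have hA'u : IsUnit ((A' 0 0 : ℤ) : ZMod L) := by
      have hdet := congrArg (Int.cast : ℤ → ZMod L) (h2.trans hAd)
      rw [Matrix.det_fin_two] at hdet
      push_cast at hdet
      rw [hA'c, mul_zero, sub_zero] at hdet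
      exact isUnit_of_mul_isUnit_left (x := ((A' 0 0 : ℤ) : ZMod L)) (y := ((A' 1 1 : ℤ) : ZMod L))
        (hdet ▸ (ZMod.isUnit_iff_coprime _ _).2 ((hℓ.out.coprime_iff_not_dvd).2 hℓL))
    have hker : hA'u.unit ∈ χ.ker := by
      rw [MonoidHom.mem_ker, ← map_one χ]
      refine chi_eq_of_unitsMap_eq hv hvL hvb ?_
      exact (unitsMap_eq_of_dvd_sub hd hAa hA'u.unit_spec.symm h4).symm
    refine ⟨D₀.gl * hRep L ℓ i * D₀.gl⁻¹, ⟨A', ?_, h2.trans hAd, hA'c, hA'u.unit, hker,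
      hA'u.unit_spec.symm⟩, (inv_mul_cancel_right _ _).symm⟩
    unfold IsIntMat at hA ⊢
    rw [Units.val_mul, Units.val_mul, hA]
    rw [show (A.map (Int.castRingHom ℝ)) = realMat A from rfl, h3, mul_assoc, ← Units.val_mul,
      mul_inv_cancel, Units.val_one, mul_one]
  choose B hB hBe using hconj
  have hfK : ∀ γ ∈ gammaH L χ.ker, f ∣[(2 : ℤ)] γ = f := by
    intro γ hγ
    obtain ⟨hc, w, hw, hwa⟩ := hγ
    have hdet : ((γ 0 0 : ℤ) : ZMod L) * γ 1 1 - γ 0 1 * γ 1 0 = 1 := by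
      exact_mod_cast congrArg (Int.cast : ℤ → ZMod L) (Gamma0.det_eq γ)
    rw [hc, mul_zero, sub_zero, hwa] at hdet
    rw [hfneb γ (Gamma0_mem.2 hc) w⁻¹ (Units.inv_eq_of_mul_eq_one_right hdet).symm, map_inv,
      MonoidHom.mem_ker.1 hw, inv_one, Units.val_one, one_smul]
  have hBreps : IsReps (gammaH L χ.ker) (heckeSet L χ.ker ℓ) B := by
    refine (isReps_hRep (M := L) (K := χ.ker) (n := ℓ)).of_card hB (fun i j hij => ?_) le_rfl
    obtain ⟨γ, hγ, hγe⟩ := hij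
    obtain ⟨γ', hγ', he'⟩ := D₀.exists_gamma0_conj' (γ := γ)
      (by rw [hLv]; exact gammaH_le_Gamma0 hγ)
    rw [hLv] at hγ'
    refine hRep_injective_mod (Γ := Gamma0 L) i j ⟨γ', hγ', ?_⟩
    rw [eq_mul_inv_iff_mul_eq] at hγe ⊢
    refine mul_left_cancel (a := D₀.gl) ?_
    rw [hBe, ← hγe, mul_assoc (mapGL ℝ γ), ← hBe, ← mul_assoc, ← mul_assoc, he']
  rw [← slash_al_smul, ← hfT, slashSum_eq_of_isReps isReps_hRep hBreps hfK, slashSum, slashSum,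
    SlashAction.sum_slash]
  refine Finset.sum_congr rfl fun i _ => ?_
  rw [← SlashAction.slash_mul, hBe, SlashAction.slash_mul]

/-- A sum `Z + κ f` of eigenfunctions of the representatives of level `L` which is a form of lower
level is an eigenform of the Hecke operator there. -/
private theorem heckeForm_eq_smul_of_sum {L v : ℕ} [NeZero (L / v)] (hvL : v ∣ L)
    {K : Subgroup (ZMod L)ˣ} {K' : Subgroup (ZMod (L / v))ˣ}
    (hK : ∀ u ∈ K, ZMod.unitsMap (Nat.div_dvd_of_dvd hvL) u ∈ K') {h : FormH (L / v) K'}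
    {Z F : ℍ → ℂ} {κ c : ℂ} (hcoe : ⇑h = Z + κ • F) {ℓ : ℕ} [hℓ : Fact ℓ.Prime] (hℓL : ¬ ℓ ∣ L)
    (hZT : slashSum (hRep L ℓ) Z = c • Z) (hfT : slashSum (hRep L ℓ) F = c • F) :
    heckeForm ℓ h = c • h := by
  have hd : L / v ∣ L := Nat.div_dvd_of_dvd hvL
  have hℓR : ¬ ℓ ∣ L / v := fun hh => hℓL (hh.trans hd)
  have hreps : IsReps (gammaH (L / v) K') (heckeSet (L / v) K' ℓ) (hRep L ℓ) := by
    refine (isReps_hRep (M := L / v) (K := K') (n := ℓ)).of_card (fun i =>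
      heckeSet_level_mono hd (fun u hu => Subgroup.mem_comap.2 (hK u hu))
        (hRep_mem_heckeSet (K := K) i)) hRep_injective_mod ?_
    rw [Nat.card_eq_fintype_card, Nat.card_eq_fintype_card, card_hIdx hℓR, card_hIdx hℓL]
  refine DFunLike.coe_injective ?_
  rw [coe_heckeForm, FunLike.coe_smul,
    slashSum_eq_of_isReps isReps_hRep hreps fun _ hγ => cuspForm_slash_eq_self h hγ, hcoe]
  have hadd : slashSum (hRep L ℓ) (Z + κ • F) =
      slashSum (hRep L ℓ) Z + κ • slashSum (hRep L ℓ) F := by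
    simp only [slashSum, SlashAction.add_slash, Finset.sum_add_distrib, Finset.smul_sum]
    congr 1
    refine Finset.sum_congr rfl fun i _ => ?_
    obtain ⟨A, hA, hdA, -⟩ := hRep_mem_heckeSet (K := K) i
    rw [ModularForm.smul_slash, UpperHalfPlane.σ, if_pos (det_pos_of_isIntMat hA
      (hdA ▸ Int.natCast_pos.2 hℓ.out.pos)), ContinuousAlgEquiv.refl_apply]
  rw [hadd, hZT, hfT, smul_add, smul_comm κ]

/-- An Atkin–Lehner matrix `(v, -y; R, v * x)` at a prime `v` prime to `R`. -/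
private theorem exists_alData {v R : ℕ} (hv : v.Prime) (hvR : ¬ v ∣ R) :
    ∃ D : ALData v R, D.x = 1 ∧ (v : ℤ) ∣ D.v := by
  obtain ⟨x, y, hxy⟩ := Nat.isCoprime_iff_coprime.2 ((hv.coprime_iff_not_dvd.2 hvR).pow_left 2)
  exact ⟨⟨hv.ne_zero, 1, -y, 1, (v : ℤ) * x, by push_cast at hxy ⊢; linear_combination hxy⟩,
    rfl, dvd_mul_right _ _⟩

/-- The trace of a function of nebentype `χ` on `Γ₀(L)` is invariant at level `L / v`. -/
private theorem sum_slash_traceRep_inv {v : ℕ} [NeZero v] (D₀ : ALData v (L / v))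
    (hD : D₀.x = 1) (hv : v.Prime) (hvL : v ∣ L) (hvb : v ∉ badPrimes (toDir χ))
    (hvR : ¬ v ∣ L / v) (hχ : ∀ u ∈ K, χ u = 1) {Z : ℍ → ℂ}
    (hZneb : ∀ γ ∈ Gamma0 L, ∀ u : (ZMod L)ˣ, ((γ 1 1 : ℤ) : ZMod L) = u →
      Z ∣[(2 : ℤ)] γ = (χ u : ℂ) • Z)
    {γ : SL(2, ℤ)}
    (hγ : γ ∈ gammaH (L / v) (K.map (ZMod.unitsMap (Nat.div_dvd_of_dvd hvL)))) :
    (∑ i, Z ∣[(2 : ℤ)] traceRep D₀ i) ∣[(2 : ℤ)] γ =
      ∑ i, Z ∣[(2 : ℤ)] traceRep D₀ i := by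
  classical
  have hd : L / v ∣ L := Nat.div_dvd_of_dvd hvL
  have hLv : v * (L / v) = L := Nat.mul_div_cancel' hvL
  set K' := K.map (ZMod.unitsMap (Nat.div_dvd_of_dvd hvL))
  refine Newforms.sum_slash_reps_inv (G := gammaH (L / v) K')
    (Γ := gammaH (L / v) K' ⊓ Gamma0 L) (traceRep D₀) ?_ ?_ ?_ hγ
  · exact traceRep_mem_gammaH D₀ hD _
  · intro g hg
    obtain ⟨i, hi, huniq⟩ := traceRep_unique D₀ hv hvR (gammaH_le_Gamma0 hg)
    rw [hLv] at hi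
    refine ⟨i, ⟨(gammaH (L / v) K').mul_mem hg
      ((gammaH (L / v) K').inv_mem (traceRep_mem_gammaH D₀ hD K' i)), hi⟩, fun j hj => huniq j ?_⟩
    show g * (traceRep D₀ j)⁻¹ ∈ Gamma0 (v * (L / v))
    rw [hLv]; exact hj.2
  · rintro g ⟨⟨-, k, hk, hga⟩, hg⟩
    obtain ⟨k₀, hk₀, rfl⟩ := hk
    have hu : IsUnit ((g 1 1 : ℤ) : ZMod L) := DeligneSerre.isUnit_lowerRight hg
    have h1 : χ hu.unit = χ k₀⁻¹ := by
      refine chi_eq_of_unitsMap_eq hv hvL hvb (Units.ext ?_)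
      have hdet : ((g 0 0 : ℤ) : ZMod (L / v)) * g 1 1 - g 0 1 * g 1 0 = 1 := by
        exact_mod_cast congrArg (Int.cast : ℤ → ZMod (L / v)) (Gamma0.det_eq g)
      have hc : ((g 1 0 : ℤ) : ZMod (L / v)) = 0 := by
        rw [← map_intCast (ZMod.castHom hd (ZMod (L / v))), Gamma0_mem.1 hg, map_zero]
      rw [hc, mul_zero, sub_zero, hga] at hdet
      rw [ZMod.unitsMap_val, hu.unit_spec, ZMod.cast_intCast hd, map_inv]
      exact (Units.inv_eq_of_mul_eq_one_right hdet).symm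
    rw [hZneb g hg hu.unit hu.unit_spec.symm, h1, hχ _ (inv_mem hk₀), Units.val_one, one_smul]

omit [NeZero L] in
/-- A function of nebentype `χ` on `Γ₀(L)` which is a form of level `L / v` has the diamond
eigenvalues `χ` there. -/
private theorem diaForm_eq_smul_of_neb {d : ℕ} [NeZero d] (hd : d ∣ L) {K' : Subgroup (ZMod d)ˣ}
    {h : FormH d K'} (hneb : ∀ γ ∈ Gamma0 L, ∀ u : (ZMod L)ˣ, ((γ 1 1 : ℤ) : ZMod L) = u →
      ⇑h ∣[(2 : ℤ)] γ = (χ u : ℂ) • ⇑h) (u : (ZMod L)ˣ) :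
    diaForm (ZMod.unitsMap hd u) h = (χ u : ℂ) • h := by
  refine DFunLike.coe_injective ?_
  rw [coe_diaForm, FunLike.coe_smul]
  set σ := gamma0Elt (M := L) u⁻¹ with hσ
  have hσ0 : σ ∈ Gamma0 d := mem_gamma0_iff_dvd.2
    ((Int.natCast_dvd_natCast.2 hd).trans (mem_gamma0_iff_dvd.1 (gamma0Elt_mem _)))
  have hmem : gamma0Elt (ZMod.unitsMap hd u)⁻¹ * σ⁻¹ ∈ gammaH d K' := by
    refine gamma0_mul_inv_mem (gamma0Elt_mem _) hσ0 (one_mem K') ?_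
    rw [Units.val_one, one_mul, gamma0Elt_upperLeft, ← map_intCast
      (ZMod.castHom hd (ZMod d)) (σ 0 0), hσ, gamma0Elt_upperLeft, ← map_inv,
      ZMod.unitsMap_val]
    rfl
  have hd11 : ((σ 1 1 : ℤ) : ZMod L) = u := by
    have h1 : ((σ 0 0 : ℤ) : ZMod L) * (σ 1 1 : ℤ) - (σ 0 1 : ℤ) * (σ 1 0 : ℤ) = 1 := by
      exact_mod_cast congrArg (Int.cast : ℤ → ZMod L) (Gamma0.det_eq σ)
    rw [gamma0Elt_lowerLeft, mul_zero, sub_zero, gamma0Elt_upperLeft] at h1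
    simpa using (Units.inv_mul_eq_one (u := u)).1 h1 |>.symm
  rw [← inv_mul_cancel_right (gamma0Elt (ZMod.unitsMap hd u)⁻¹) σ, SlashAction.slash_mul,
    cuspForm_slash_eq_self h hmem, hneb σ (gamma0Elt_mem _) u hd11]

/-! ## Descent -/

/-- **Descent**: if a prime `v ∣ L` good for `χ` is not in the level of the newform of the twist,
the eigensystem of `f` occurs on `Hom(Γ_H, ℂ)` at level `L / v`. -/
theorem exists_descent (hL : Squarefree L) (he : toDir χ ^ (2 * e + 1) = 1)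
    (hχ : ∀ u ∈ K, χ u = 1) {S : Finset ℕ} (hS : ∀ p : ℕ, p.Prime → p ∣ L → p ∈ S) {a : ℕ → ℂ}
    {f : FormH L K} (hf : IsChiForm χ f) {lam : ℕ → ℂ}
    (hlam : ∀ (p : ℕ) [Fact p.Prime], heckeForm p f = lam p • f)
    (hla : ∀ p, p.Prime → p ∉ S → lam p = a p)
    {G : CuspForm (Gamma0 (twistLevel (toDir χ))) 2} (hG : G.IsNormalizedEigenform)
    (hGf : ∀ n, qCoeff G n = etaSeq (toDir χ) e n * qCoeff f n) {M : ℕ}
    {g : CuspForm (Gamma0 M) 2} (hMN : M ∣ twistLevel (toDir χ)) (hg : g.IsNormalizedEigenform)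
    (heq : ∀ ℓ, ℓ.Prime → ¬ ℓ ∣ twistLevel (toDir χ) → qCoeff g ℓ = qCoeff G ℓ)
    {v : ℕ} (hv : v.Prime) (hvL : v ∣ L) (hvb : v ∉ badPrimes (toDir χ)) (hvM : ¬ v ∣ M) :
    ∃ φ' : Additive (gammaH (L / v) (K.map (ZMod.unitsMap (Nat.div_dvd_of_dvd hvL)))) →+ ℂ,
      φ' ≠ 0 ∧
      (∀ u, diamond (L / v) _ ℂ (ZMod.unitsMap (Nat.div_dvd_of_dvd hvL) u) φ' = (χ u : ℂ) • φ') ∧
      ∀ (ℓ : ℕ) [Fact ℓ.Prime], ℓ ∉ S → hecke (L / v) _ ℓ ℂ φ' = a ℓ • φ' := by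
  classical
  have : Fact v.Prime := ⟨hv⟩
  have hd : L / v ∣ L := Nat.div_dvd_of_dvd hvL
  have hR₀ : NeZero (L / v) :=
    ⟨(Nat.div_pos (Nat.le_of_dvd (Nat.pos_of_ne_zero (NeZero.ne L)) hvL) hv.pos).ne'⟩
  have hvR₀ : ¬ v ∣ L / v := coprime_div_of_squarefree hL hv hvL
  have hLv : v * (L / v) = L := Nat.mul_div_cancel' hvL
  set R₁ := L / v * (∏ w ∈ badPrimes (toDir χ), w) * (L / v) with hR₁
  have hvR₁ : ¬ v ∣ R₁ := by
    refine hv.prime.not_dvd_mul (hv.prime.not_dvd_mul hvR₀ ?_) hvR₀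
    rw [hv.prime.dvd_finsetProd_iff]
    rintro ⟨w, hw, hvw⟩
    exact hvb ((Nat.prime_dvd_prime_iff_eq hv (mem_badPrimes.1 hw).1).1 hvw ▸ hw)
  obtain ⟨D, hDx, hDv⟩ := exists_alData hv hvR₁
  have hdR : L / v ∣ R₁ := dvd_mul_left _ _
  let D₀ : ALData v (L / v) := alLower hdR D
  have hne : ∀ κ : ℂ, ⇑f ∣[(2 : ℤ)] D₀.gl ≠ κ • ⇑f := fun κ => by
    rw [alLower_gl]
    exact al_ne_smul hL he hv hvL hvb hf hG hGf hMN hg heq hvM D hDx hDv κ
  set K' := K.map (ZMod.unitsMap (Nat.div_dvd_of_dvd hvL)) with hK'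
  set Z := ⇑f ∣[(2 : ℤ)] D₀.gl with hZ
  -- `Z` has nebentype `χ` on `Γ₀(L)`
  have hfneb : ∀ γ ∈ Gamma0 L, ∀ u : (ZMod L)ˣ, ((γ 1 1 : ℤ) : ZMod L) = u →
      ⇑f ∣[(2 : ℤ)] γ = (χ u : ℂ) • ⇑f := fun γ hγ u hu => slash_eq_of_mem_gamma0 hf hγ hu
  have hZneb : ∀ γ ∈ Gamma0 L, ∀ u : (ZMod L)ˣ, ((γ 1 1 : ℤ) : ZMod L) = u →
      Z ∣[(2 : ℤ)] γ = (χ u : ℂ) • Z := fun γ hγ u hu => slash_al_neb D₀ hv hvL hvb hfneb hγ u hu
  -- the trace is `Z + κ • f`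
  obtain ⟨δ, hδ, hδe⟩ := D₀.exists_sq
  rw [hLv] at hδ
  have hZD : Z ∣[(2 : ℤ)] D₀.gl = toDir χ ((δ 1 1 : ℤ) : ZMod L) • ⇑f := by
    rw [hZ, ← SlashAction.slash_mul]
    refine (ALData.slash_two_of_smul (g' := (mapGL ℝ δ : GL (Fin 2) ℝ))
      (Nat.cast_pos.2 hv.pos) (by simp) ?_ ⇑f).trans ((isNeb_of_isChiForm hf).neb δ hδ)
    rw [Units.val_mul, Newforms.mapGL_eq_realMat, hδe]
  have hUf : ModularForm.heckeU 2 v ⇑f = lam v • ⇑f := by
    have h := congrArg DFunLike.coe (hlam v)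
    rw [coe_heckeForm, slashSum_hRep_of_dvd hvL] at h
    exact h
  set κ := toDir χ ((δ 1 1 : ℤ) : ZMod L) * lam v with hκ
  have hsum : ∑ i, Z ∣[(2 : ℤ)] traceRep D₀ i = Z + κ • ⇑f := by
    rw [← add_heckeU_eq_sum, hZD, ModularForm.heckeU_smul, hUf, smul_smul]
  set H := Z + κ • ⇑f with hH
  have hHinv : ∀ γ ∈ gammaH (L / v) K', H ∣[(2 : ℤ)] γ = H := fun γ hγ => by
    rw [← hsum]
    exact sum_slash_traceRep_inv D₀ hDx hv hvL hvb hvR₀ hχ hZneb hγ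
  have hHcusp : IsCuspFn 2 H := by
    refine IsCuspFn.add ?_ (IsCuspFn.smul (isCuspFn_formH f) _)
    obtain ⟨r, hr⟩ := D₀.gl_eq_ratGL
    rw [hZ, hr]
    exact (isCuspFn_formH f).slash r
  set h : FormH (L / v) K' := mkFormH H hHinv hHcusp with hh
  have hh0 : h ≠ 0 := fun h0 => by
    have h1 : H = 0 := congrArg DFunLike.coe h0
    exact hne (-κ) (by rw [_root_.neg_smul]; exact eq_neg_of_add_eq_zero_left h1)
  have hdia : ∀ u, diaForm (ZMod.unitsMap (Nat.div_dvd_of_dvd hvL) u) h = (χ u : ℂ) • h :=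
    diaForm_eq_smul_of_neb hd fun γ hγ u hu => by
      rw [coe_mkFormH, hH, SlashAction.add_slash, ModularForm.SL_smul_slash, hZneb γ hγ u hu,
        hfneb γ hγ u hu, smul_add, smul_comm]
  have hT : ∀ (ℓ : ℕ) [Fact ℓ.Prime], ℓ ∉ S → heckeForm ℓ h = a ℓ • h := by
    intro ℓ hℓ hℓS
    have hℓL : ¬ ℓ ∣ L := fun hh => hℓS (hS ℓ hℓ.out hh)
    have hfT : slashSum (hRep L ℓ) ⇑f = a ℓ • ⇑f := by
      rw [← hla ℓ hℓ.out hℓS]
      exact congrArg DFunLike.coe (hlam ℓ)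
    exact heckeForm_eq_smul_of_sum hvL (fun _ hu => Subgroup.mem_map_of_mem _ hu)
      (coe_mkFormH _ hHinv hHcusp) hℓL
      (slashSum_slash_al D₀ hv hvL hvb hfneb hℓL hfT) hfT
  refine ⟨per h, fun h0 => hh0 (per_injective Gamma_le_gammaH h0), fun u => ?_, fun ℓ _ hℓS => ?_⟩
  · rw [← per_diaForm, hdia, per_smul]
  · rw [← per_heckeForm, hT ℓ hℓS, per_smul]

end Fermat.Agent.RT.GammaH
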