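import Fermat.Agent.Newforms.Semisimple

/-!
# `a_v ≠ ±(v + 1)` for normalised eigenforms and `v` prime to the level

Equality in the Cauchy–Schwarz inequality for `⟨g, T_v g⟩` would force `g(vτ)` to be a multiple of
`g(τ)`.
-/

set_option autoImplicit false

noncomputable section

open CongruenceSubgroup UpperHalfPlane ModularFormClass MeasureTheory
open scoped ModularForm ComplexConjugate

namespace Fermat.Agent.RT.GammaH

open Fermat.Agent.Newforms
open P2MW.S_ModularForm_heckeT_slash_eq_self_of_mem_Gamma0.ModularForm.HeckeSlashInvariance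

theorem qCoeff_ne_mul_succ {N v : ℕ} [NeZero N] (hv : v.Prime) (hvN : ¬ v ∣ N)
    {g : CuspForm (Gamma0 N) 2} (hg : g.IsNormalizedEigenform) {s : ℂ} (hs : s = 1 ∨ s = -1) :
    qCoeff g v ≠ s * ((v : ℂ) + 1) := by
  classical
  intro ha
  have : Fact v.Prime := ⟨hv⟩
  have : NeZero (N * v) := ⟨mul_ne_zero (NeZero.ne N) hv.ne_zero⟩
  have : NeZero (N * v * v) := ⟨mul_ne_zero (NeZero.ne _) hv.ne_zero⟩
  -- the two forms of level `N v`
  set g₁ : CuspForm (Gamma0 (N * v)) 2 := levelIncl (dvd_mul_right N v) g with hg₁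
  set h : CuspForm (Gamma0 (N * v)) 2 :=
    (v : ℂ) • levelRaise v (dvd_of_eq (mul_comm v N)) g with hh
  have hgcoe : ⇑g₁ = ⇑g := coe_levelIncl _ _
  have hhcoe : ⇑h = ⇑g ∣[(2 : ℤ)] ModularForm.heckeDiagMatrix v := by
    funext τ
    rw [hh, FunLike.coe_smul, Pi.smul_apply, smul_eq_mul,
      ModularForm.slash_heckeDiagMatrix_apply 2 hv.ne_zero,
      levelRaise_apply, show (2 : ℤ) - 1 = 1 by norm_num, zpow_one]
  clear_value h g₁
  set P := meanOn (auxDomain N v) (petersson 2 g g) with hP
  have hPinner : peterssonInner g g = P := peterssonInner_eq_mean (ℓ := v) g g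
  have hmean : ∀ a b : CuspForm (Gamma0 (N * v)) 2,
      peterssonInner a b = meanOn (auxDomain N v) (petersson 2 a b) := fun a b =>
    (meanOn_eq (relIndex_imageSub _) (relIndex_imageSub _) goodDomain_gamma0Domain
      goodDomain_auxDomain ((bdd2_cuspForm a).isBC (bdd2_cuspForm b))
      (petersson_invariant (fun _ h => slash_gamma0_eq a h) fun _ h => slash_gamma0_eq b h)
      (petersson_invariant (slash_invariant_self dvd_rfl a) (slash_invariant_self dvd_rfl b))).symm
  have hgg : peterssonInner g₁ g₁ = P := by rw [hmean, hgcoe]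
  -- `‖h‖ = ‖g₁‖`
  have hhh : peterssonInner h h = P := by
    rw [← hgg, peterssonInner_eq_mean (ℓ := v) h h, peterssonInner_eq_mean (ℓ := v) g₁ g₁]
    have hadj := mean_adjoint (N := N * v) (ℓ := v) g₁ h (A := ModularForm.heckeDiagMatrix v)
      (A' := ModularForm.heckeMatrix v 0) (B := !![(v : ℤ), 0; 0, 1]) (by
        rw [ModularForm.val_heckeDiagMatrix hv.ne_zero]
        ext i j; fin_cases i <;> fin_cases j <;> simp [realMat])
      (by simp [Matrix.det_fin_two_of]) (by
        rw [ModularForm.val_heckeMatrix hv.ne_zero, Matrix.adjugate_fin_two_of]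
        ext i j; fin_cases i <;> fin_cases j <;> simp [realMat])
    have e2 : ⇑h ∣[(2 : ℤ)] ModularForm.heckeMatrix v 0 = ⇑g₁ := by
      rw [hgcoe, hhcoe, ← SlashAction.slash_mul, ALData.slash_two_of_smul (g' := 1)
        (Nat.cast_pos.2 hv.pos) (by simp) ?_, SlashAction.slash_one]
      rw [Units.val_mul, ModularForm.val_heckeDiagMatrix hv.ne_zero,
        ModularForm.val_heckeMatrix hv.ne_zero, Units.val_one]
      ext i j; fin_cases i <;> fin_cases j <;> simp [Matrix.mul_apply, Fin.sum_univ_two]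
    rw [e2, hgcoe, ← hhcoe] at hadj
    simpa [hgcoe] using hadj
  -- `⟨g, g|diag⟩ = s ‖g‖²`
  choose B A' hB hdet hA' hx hxa using exists_doubleCoset (N := N) (ℓ := v) hvN
  obtain ⟨B₀, -, hdet₀, hB₀⟩ := exists_heckeRep_eq (ℓ := v) ((0 : ZMod v) : OnePoint (ZMod v))
  set I := meanOn (auxDomain N v) (petersson 2 g (⇑g ∣[(2 : ℤ)]
    heckeRep v ((0 : ZMod v) : OnePoint (ZMod v)))) with hI
  have hall : ∀ x : OnePoint (ZMod v),
      meanOn (auxDomain N v) (petersson 2 g (⇑g ∣[(2 : ℤ)] heckeRep v x)) = I := by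
    intro x
    obtain ⟨γ, hγ, δ, hδ, hxe⟩ := hx x
    exact mean_doubleCoset g g hB₀ hdet₀ hγ hδ hxe
  have hT : ((v : ℂ) + 1) * I = qCoeff g v * P := by
    have hr : petersson 2 ⇑g ⇑(CuspForm.heckeTLin 2 hv hvN g) =
        fun τ => ∑ x, petersson 2 g (⇑g ∣[(2 : ℤ)] heckeRep v x) τ := by
      funext τ
      rw [CuspForm.coe_heckeTLin_apply, heckeT_eq_sum_onePoint]
      simp [petersson, Finset.sum_apply, Finset.mul_sum, Finset.sum_mul]
    have h2 : peterssonInner g (CuspForm.heckeTLin 2 hv hvN g) = qCoeff g v * P := by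
      rw [← hOp_eq_heckeTLin hv hvN, hOp_of_isNormalizedEigenform hg hv,
        peterssonInner_smul_right, hPinner]
    rw [← h2, peterssonInner_eq_mean (ℓ := v), hr, meanOn_sum _ goodDomain_auxDomain.lt_top
      (fun x _ => (bdd2_cuspForm g).isBC (bdd2_slash g _)), Finset.sum_congr rfl fun x _ => hall x,
      Finset.sum_const, Finset.card_univ, show Fintype.card (OnePoint (ZMod v)) = v + 1 from
        Fintype.card_option.trans (by rw [ZMod.card]), nsmul_eq_mul]
    push_cast
    ring
  have hv1 : (v : ℂ) + 1 ≠ 0 := Nat.cast_add_one_ne_zero v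
  have hIP : I = s * P := by
    rw [ha] at hT
    refine mul_left_cancel₀ hv1 ?_
    linear_combination hT
  have hgh : peterssonInner g₁ h = s * P := by
    rw [hmean, hgcoe, hhcoe, ← hIP, ← hall (OnePoint.infty), heckeRep_infty]
  have hconjs : conj s = s := by rcases hs with rfl | rfl <;> simp
  have hconjP : conj P = P := by rw [← hPinner, peterssonInner_conj]
  have hhg : peterssonInner h g₁ = s * P := by
    rw [← peterssonInner_conj, hgh, map_mul, hconjs, hconjP]
  have hs2 : s * s = 1 := by rcases hs with rfl | rfl <;> norm_num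
  have h0 : h + (-s) • g₁ = 0 := peterssonInner_self_eq_zero (by
    rw [peterssonInner_add_left, peterssonInner_add_right, peterssonInner_add_right,
      peterssonInner_smul_left, peterssonInner_smul_right, peterssonInner_smul_left,
      peterssonInner_smul_right, hhh, hgh, hhg, hgg, map_neg, hconjs]
    linear_combination (-P) * hs2)
  have h1 := congrArg (fun F : CuspForm (Gamma0 (N * v)) 2 => coeffLin 1 F) h0
  simp only [map_add, map_smul, map_zero, coeffLin_apply] at h1
  rw [hh, hg₁, HeckeDuality.coeff_smul, qCoeff_levelRaise, if_neg hv.not_dvd_one, qCoeff_levelIncl,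
    hg.qCoeff_one] at h1
  rcases hs with rfl | rfl <;> simp at h1

end Fermat.Agent.RT.GammaH
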