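import Fermat.Agent.RT.GammaH.Descent

/-!
# The newform attached to an eigen homomorphism on `Γ_H`

For squarefree level and odd index, a parabolic eigen homomorphism gives an eigenform with
nebentype `χ` of odd order; its twist by `χ ^ e` has trivial character and comes from a newform,
whose level detects the primes at which `χ` is nontrivial.
-/

set_option autoImplicit false

noncomputable section

open CongruenceSubgroup ModularFormClass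
open ModularCurve.Period
open scoped ModularForm

namespace Fermat.Agent.RT.GammaH

variable {L : ℕ} [NeZero L] {K : Subgroup (ZMod L)ˣ}

/-- **The newform of an eigen homomorphism.** -/
theorem exists_newform_of_eigen (hL : Squarefree L) (hneg : -1 ∈ K)
    (hodd : Odd (Nat.card ((ZMod L)ˣ ⧸ K))) (S : Finset ℕ) (hS : ∀ v : ℕ, v.Prime → v ∣ L → v ∈ S)
    (χ : (ZMod L)ˣ →* ℂˣ) (hχ : ∀ u ∈ K, χ u = 1) (a : ℕ → ℂ)
    {φ : Additive (gammaH L K) →+ ℂ} (hφ : φ ∈ parabolicHoms ℂ (gammaH L K) ℂ) (hne : φ ≠ 0)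
    (hdia : ∀ u, diamond L K ℂ u φ = (χ u : ℂ) • φ)
    (hT : ∀ (ℓ : ℕ) [Fact ℓ.Prime], ℓ ∉ S → hecke L K ℓ ℂ φ = a ℓ • φ) :
    ∃ (L' : ℕ) (g : CuspForm (Gamma0 L') 2), g.IsNewform ∧ L' ∣ L ^ 2 ∧
      (∀ ℓ : ℕ, ℓ.Prime → ℓ ∉ S → ∀ u : (ZMod L)ˣ, (u : ZMod L) = (ℓ : ZMod L) →
        ModularFormClass.qCoeff g ℓ =
          (χ u : ℂ) ^ ((Nat.card ((ZMod L)ˣ ⧸ K) - 1) / 2) * a ℓ) ∧
      (∀ v : ℕ, v.Prime → v ∣ L → (v ^ 2 ∣ L' ↔ ∃ u : (ZMod L)ˣ,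
        ((u : ZMod L).cast : ZMod (L / v)) = 1 ∧ χ u ≠ 1)) ∧
      (∀ (v : ℕ), v.Prime → ∀ hv : v ∣ L, ¬ v ∣ L' →
        ∃ φ' : Additive (gammaH (L / v) (K.map (ZMod.unitsMap (Nat.div_dvd_of_dvd hv)))) →+ ℂ,
          φ' ≠ 0 ∧ (∀ u, diamond (L / v) _ ℂ (ZMod.unitsMap (Nat.div_dvd_of_dvd hv) u) φ' =
          (χ u : ℂ) • φ') ∧
          ∀ (ℓ : ℕ) [Fact ℓ.Prime], ℓ ∉ S → hecke (L / v) _ ℓ ℂ φ' = a ℓ • φ') ∧
      ∃ f : CuspForm (Gamma1 L) 2, ModularFormClass.qCoeff f 1 = 1 ∧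
        (∀ (γ : Gamma0 L) (u : (ZMod L)ˣ), Gamma0Map L γ = (u : ZMod L) →
          (⇑f) ∣[(2 : ℤ)] (γ : Matrix.SpecialLinearGroup (Fin 2) ℤ) = (χ u : ℂ) • ⇑f) ∧
        (∀ ℓ : ℕ, ℓ.Prime → ℓ ∉ S → ModularFormClass.qCoeff f ℓ = a ℓ) ∧
        ∀ ℓ : ℕ, ℓ.Prime → ℓ ∉ S → ∀ u : (ZMod L)ˣ, (u : ZMod L) = (ℓ : ZMod L) → ∀ n : ℕ,
          ModularFormClass.qCoeff f (n * ℓ) +
              (if ℓ ∣ n then (χ u : ℂ) * ℓ * ModularFormClass.qCoeff f (n / ℓ) else 0) =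
            ModularFormClass.qCoeff f ℓ * ModularFormClass.qCoeff f n := by
  set e := (Nat.card ((ZMod L)ˣ ⧸ K) - 1) / 2 with he_def
  have he : toDir χ ^ (2 * e + 1) = 1 := toDir_pow_eq_one hχ hodd
  -- an eigenform with Nebentypus `χ`
  obtain ⟨f, lam, hf, hf1, hseq, hlam, hla⟩ := exists_eigenForm hneg hφ hne hdia hT
  -- twisted at the bad primes it has trivial character; take its newform
  obtain ⟨G, hG, hGf⟩ := exists_twist_eigenForm hL he hf hf1 hseq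
  have := neZero_twistLevel (χ := toDir χ)
  obtain ⟨M, g, hMN, hg, heq⟩ := Newforms.exists_newform hG
  have hfp : ∀ p, p.Prime → p ∉ S → qCoeff f p = a p := fun p hp hpS => by
    have h := hseq p hp 1
    rw [if_neg hp.not_dvd_one, hf1, one_mul, add_zero, mul_one, hla p hp hpS] at h
    exact h
  -- the bad primes are those whose component of `χ` is nontrivial
  have hbad : ∀ v, v ∈ badPrimes (toDir χ) ↔ v.Prime ∧ v ∣ L ∧
      ∃ u : (ZMod L)ˣ, ((u : ZMod L).cast : ZMod (L / v)) = 1 ∧ χ u ≠ 1 := fun v => by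
    rw [mem_badPrimes]
    simp only [toDir_coe, ne_eq, Units.val_eq_one]
  refine ⟨M, g, hg, hMN.trans twistLevel_dvd_sq, fun ℓ hℓ hℓS u hu => ?_, fun v hv hvL => ?_,
    fun v hv hvL hvM => ?_, toGamma1 f, ?_, fun γ u hu => ?_, ?_, ?_⟩
  · have hℓL : ¬ ℓ ∣ L := fun h => hℓS (hS ℓ hℓ h)
    rw [heq ℓ hℓ (mt (prime_dvd_twistLevel_iff hℓ).1 hℓL), hGf, etaSeq_eq hL hu, toDir_coe,
      hfp ℓ hℓ hℓS]
  -- the level has a square factor only at bad primes, `L` being square-free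
  · refine ⟨fun h => ?_, fun h => sq_dvd_newform_level hL he ((hbad v).2 ⟨hv, hvL, h⟩) hf hG hGf hMN
      hg.1 heq⟩
    by_contra hcon
    have hb : v ∉ badPrimes (toDir χ) := fun hb => hcon ((hbad v).1 hb).2.2
    have hc : ¬ v ∣ ∏ w ∈ badPrimes (toDir χ), w := by
      rw [hv.prime.dvd_finsetProd_iff]
      rintro ⟨w, hw, hvw⟩
      exact hb ((Nat.prime_dvd_prime_iff_eq hv ((hbad w).1 hw).1).1 hvw ▸ hw)
    have h2 : v ^ 2 ∣ L :=
      ((hv.coprime_iff_not_dvd.2 hc).pow_left 2).dvd_of_dvd_mul_right (h.trans hMN)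
    exact hv.not_isUnit (hL v (by rwa [← pow_two]))
  -- at a prime of `L` outside the level, descend
  · refine exists_descent hL he hχ hS hf hlam hla hG hGf hMN hg.1 heq hv hvL (fun hb => hvM ?_) hvM
    exact (dvd_pow_self v two_ne_zero).trans
      (sq_dvd_newform_level hL he hb hf hG hGf hMN hg.1 heq)
  · rw [coe_toGamma1, hf1]
  · rw [coe_toGamma1]
    exact slash_eq_of_mem_gamma0 hf γ.2 hu
  · intro ℓ hℓ hℓS
    rw [coe_toGamma1, hfp ℓ hℓ hℓS]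
  · intro ℓ hℓ hℓS u hu n
    simp only [coe_toGamma1]
    rw [hfp ℓ hℓ hℓS, ← hla ℓ hℓ hℓS, ← hseq ℓ hℓ n, nebWeight, ← hu, toDir_coe]

end Fermat.Agent.RT.GammaH
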