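import Mathlib.LinearAlgebra.Eigenspace.Charpoly
import Mathlib.LinearAlgebra.LinearIndependent.BaseChange
import Fermat.Agent.HeckeDuality.Eigenform
import Fermat.Agent.RT.GammaH.Complex

/-!
# Eigenclasses for the systems of the localised module

If an operator outside the maximal ideal maps all homomorphisms to parabolic ones, a ring
homomorphism to `ℂ` of the image of the operators on the localised module is the system of a
parabolic eigenclass in `Hom(Γ_H, ℂ)`.
-/

set_option autoImplicit false

noncomputable section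

namespace Fermat.Agent.RT.GammaH

open MvPolynomial ModularCurve.Period

variable {O : Type} [CommRing O] [IsDomain O] [IsPrincipalIdealRing O] [Algebra O ℂ]
  {L : ℕ} [NeZero L] {S : Finset ℕ} {K : Subgroup (ZMod L)ˣ}

omit [IsDomain O] [IsPrincipalIdealRing O] [NeZero L] in
theorem smul_homC (c : O) (φ : HomC K) : c • φ = algebraMap O ℂ c • φ :=
  AddMonoidHom.ext fun γ => Algebra.smul_def c (φ γ)

omit [IsDomain O] [IsPrincipalIdealRing O] [Algebra O ℂ] in
/-- The image of an algebra in a finite module of endomorphisms is spanned by finitely many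
images. -/
private theorem exists_image_generators {R N : Type*} [CommRing R] [Algebra O R]
    [AddCommGroup N] [Module O N] [IsNoetherian O (Module.End O N)]
    (φ : R →ₐ[O] Module.End O N) :
    ∃ (r : ℕ) (a : Fin r → R), ∀ x, ∃ c : Fin r → O, φ x = ∑ i, c i • φ (a i) := by
  obtain ⟨r, gen, hgen⟩ := Submodule.fg_iff_exists_fin_generating_family.1
    (IsNoetherian.noetherian (LinearMap.range φ.toLinearMap))
  have hgen' : ∀ i, gen i ∈ LinearMap.range φ.toLinearMap := fun i =>
    hgen ▸ Submodule.subset_span (Set.mem_range_self i)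
  choose a ha using hgen'
  refine ⟨r, a, fun x => ?_⟩
  have hx : φ x ∈ Submodule.span O (Set.range gen) :=
    hgen.symm ▸ LinearMap.mem_range_self φ.toLinearMap x
  obtain ⟨c, hc⟩ := Submodule.mem_span_range_iff_exists_fun O |>.1 hx
  exact ⟨c, hc.symm.trans (Finset.sum_congr rfl fun i _ => congrArg _ (ha i).symm)⟩

omit [IsDomain O] [IsPrincipalIdealRing O] in
/-- A character killing the kernel of a matrix representation takes eigenvalues: `θ g` is a root
of the complexified characteristic polynomial of the image of `g`. -/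
private theorem isRoot_charpoly_map {R ι : Type*} [CommRing R] [Algebra O R] [Fintype ι]
    [DecidableEq ι] (φ : R →ₐ[O] Matrix ι ι O) (θ : R →ₐ[O] ℂ) (hθ : ∀ x, φ x = 0 → θ x = 0)
    (g : R) : ((φ g).map (algebraMap O ℂ)).charpoly.IsRoot (θ g) := by
  have h0 : φ (Polynomial.aeval g (φ g).charpoly) = 0 := by
    rw [← Polynomial.aeval_algHom_apply]
    exact Matrix.aeval_self_charpoly _
  have h1 := hθ _ h0
  rw [← Polynomial.aeval_algHom_apply, Polynomial.aeval_def, ← Polynomial.eval_map] at h1
  rw [Matrix.charpoly_map]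
  exact h1

omit [IsDomain O] [IsPrincipalIdealRing O] in
/-- A vector on which generators of the image act by `θ` is one on which all elements act by
`θ`. -/
private theorem apply_eq_smul_of_generators {R W : Type*} [CommRing R] [Algebra O R]
    [AddCommGroup W] [Module ℂ W] (ρ : R →+* Module.End ℂ W) (θ : R →ₐ[O] ℂ)
    (hC : ∀ c : O, ρ (algebraMap O R c) = algebraMap ℂ _ (algebraMap O ℂ c)) {r : ℕ}
    {a : Fin r → R}
    (hspan : ∀ x, ∃ c : Fin r → O, ρ (x - ∑ i, algebraMap O R (c i) * a i) = 0 ∧
      θ (x - ∑ i, algebraMap O R (c i) * a i) = 0)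
    {v : W} (hv : ∀ i, ρ (a i) v = θ (a i) • v) (x : R) : ρ x v = θ x • v := by
  obtain ⟨c, hρy, hθy⟩ := hspan x
  have h1 : ρ x = ∑ i, ρ (algebraMap O R (c i)) * ρ (a i) := by
    rw [← sub_eq_zero, ← hρy]
    simp only [map_sub, map_sum, map_mul]
  have h2 : θ x = ∑ i, algebraMap O ℂ (c i) * θ (a i) := by
    rw [← sub_eq_zero, ← hθy]
    simp only [map_sub, map_sum, map_mul, AlgHom.commutes]
  rw [h1, h2, LinearMap.sum_apply, Finset.sum_smul]
  refine Finset.sum_congr rfl fun i _ => ?_
  rw [Module.End.mul_apply, hv, map_smul, hC, Module.algebraMap_end_apply, smul_smul,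
    mul_comm]

/-- An eigenvector of a matrix gives one of an operator acting by that matrix on a family. -/
private theorem map_sum_smul_of_matrix {ι V : Type*} [Fintype ι] [AddCommGroup V] [Module ℂ V]
    (T : V →ₗ[ℂ] V) (vv : ι → V) (A : Matrix ι ι ℂ) (v : ι → ℂ) (μ : ℂ)
    (hcol : ∀ j, T (vv j) = ∑ i, A i j • vv i) (hv : ∀ i, ∑ j, A i j * v j = μ * v i) :
    T (∑ i, v i • vv i) = μ • ∑ i, v i • vv i := by
  calc T (∑ i, v i • vv i) = ∑ j, v j • ∑ i, A i j • vv i := by
        simp only [map_sum, map_smul, hcol]
    _ = ∑ i, (∑ j, A i j * v j) • vv i := by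
        simp only [Finset.smul_sum, Finset.sum_smul, smul_smul]
        rw [Finset.sum_comm]
        simp only [mul_comm (v _)]
    _ = μ • ∑ i, v i • vv i := by
        simp only [hv, Finset.smul_sum, smul_smul]

omit [IsDomain O] [IsPrincipalIdealRing O] in
/-- An operator outside the maximal ideal sends a basis of the localised module to homomorphisms
to `ℂ` that are linearly independent over `ℂ`. -/
private theorem linearIndependent_opC_basis (hinj : Function.Injective (algebraMap O ℂ))
    {m : Ideal (OpRing O L S)} {e P : OpRing O L S} (he : IsLocalizer m (HomMod O S K O) e)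
    (hP : P ∉ m) {ι : Type*} (bs : Module.Basis ι O (localPart O e (HomMod O S K O))) :
    LinearIndependent ℂ fun i => opC O S K P (toHomC (bs i : HomMod O S K O)) := by
  have : FaithfulSMul O ℂ := (faithfulSMul_iff_algebraMap_injective O ℂ).2 hinj
  obtain ⟨nc, γ, hγ⟩ := exists_coords (K := K)
  let ev : HomMod O S K O →ₗ[O] (Fin nc → O) :=
    { toFun := fun φ i => φ (γ i)
      map_add' := fun _ _ => rfl
      map_smul' := fun _ _ => rfl }
  let evC : HomC K →ₗ[ℂ] (Fin nc → ℂ) :=
    { toFun := fun φ i => φ (γ i)
      map_add' := fun _ _ => rfl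
      map_smul' := fun _ _ => rfl }
  have hev : Function.Injective ev := fun φ ψ h => hγ O φ ψ (congrFun h)
  let f : localPart O e (HomMod O S K O) →ₗ[O] (Fin nc → O) := ev.comp
    ((DistribSMul.toLinearMap O (HomMod O S K O) P).comp (localPart O e (HomMod O S K O)).subtype)
  have hf : LinearMap.ker f = ⊥ := LinearMap.ker_eq_bot'.2 fun x hx =>
    Subtype.ext (he.eq_zero_of_smul_eq_zero hP x.2 (hev (hx.trans (map_zero ev).symm)))
  have h := linearIndependent_algebraMap_comp_iff (S := ℂ) |>.2 (bs.linearIndependent.map' f hf)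
  refine LinearIndependent.of_comp evC ?_
  have heq : (⇑evC ∘ fun i => opC O S K P (toHomC (bs i : HomMod O S K O))) =
      fun i => ⇑(algebraMap O ℂ) ∘ (⇑f ∘ ⇑bs) i := by
    funext i j
    show opC O S K P (toHomC (bs i : HomMod O S K O)) (γ j) =
      algebraMap O ℂ ((P • (bs i : HomMod O S K O)) (γ j))
    simp only [← toHomC_smul, toHomC_apply]
  rw [heq]
  exact h

/-- A system `θ` of the localised module has a nonzero parabolic eigenclass in `Hom(Γ_H, ℂ)`, if
an operator outside the maximal ideal sends all homomorphisms to parabolic ones. -/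
theorem exists_eigvec (hinj : Function.Injective (algebraMap O ℂ))
    {m : Ideal (OpRing O L S)} {e P : OpRing O L S} (he : IsLocalizer m (HomMod O S K O) e)
    (hP : P ∉ m)
    (hpar : ∀ φ : HomMod O S K ℂ, IsParabolicHom (gammaH L K) (toHomMod.symm (P • φ)))
    (θ : OpRing O L S →ₐ[O] ℂ)
    (hθ : ∀ a, localAct O e (HomMod O S K O) a = 0 → θ a = 0) :
    ∃ φ : HomC K, φ ≠ 0 ∧ φ ∈ parabolicHoms ℂ (gammaH L K) ℂ ∧
      ∀ a, opC O S K a φ = θ a • φ := by
  classical
  set H := HomMod O S K O
  set M := localPart O e H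
  -- a basis of the localised module and the matrices of the operators over `ℂ`
  set bs := Module.Free.chooseBasis O M
  let toMat : Module.End O M ≃ₐ[O] _ := LinearMap.toMatrixAlgEquiv bs
  let matC := (algebraMap O ℂ).mapMatrix.comp
    (toMat.toAlgHom.toRingHom.comp (localAct O e H).toRingHom)
  let ρ : OpRing O L S →+* Module.End ℂ (Module.Free.ChooseBasisIndex O M → ℂ) :=
    Matrix.toLinAlgEquiv'.toAlgHom.toRingHom.comp matC
  -- finitely many generators
  obtain ⟨r, a, hspan⟩ := exists_image_generators (localAct O e H)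
  -- the tuples of eigenvalues and a generic combination
  set Tset : Set (Fin r → ℂ) := Set.pi Set.univ fun i => {z | (ρ (a i)).HasEigenvalue z}
  have hT : Tset.Finite := Set.Finite.pi fun i => Module.End.finite_hasEigenvalue _
  obtain ⟨n, hn⟩ := HeckeDuality.exists_nat_separating hT fun i => θ (a i)
  set g : OpRing O L S := ∑ i : Fin r, (n : OpRing O L S) ^ (i : ℕ) * a i
  -- its eigenvalue
  have hroot : (ρ g).HasEigenvalue (θ g) := by
    rw [Module.End.hasEigenvalue_iff_isRoot_charpoly]
    show (Matrix.toLin' (matC g)).charpoly.IsRoot _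
    rw [Matrix.charpoly_toLin']
    exact isRoot_charpoly_map (toMat.toAlgHom.comp (localAct O e H)) θ
      (fun x hx => hθ x (toMat.injective (hx.trans (map_zero toMat).symm))) g
  set W := (ρ g).eigenspace (θ g)
  obtain ⟨θ', v, hvW, hv, heig⟩ := HeckeDuality.exists_eigenCharacter ρ W hroot fun x w hw => by
    rw [Module.End.mem_eigenspace_iff] at hw ⊢
    rw [← Module.End.mul_apply, ← map_mul, mul_comm, map_mul, Module.End.mul_apply, hw, map_smul]
  have hg : θ' g = θ g := smul_left_injective ℂ hv
    ((heig g).symm.trans (Module.End.mem_eigenspace_iff.1 hvW))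
  have hθa : ∀ i, θ' (a i) = θ (a i) := fun j => by
    simp only [g, map_sum, map_mul, map_pow, map_natCast] at hg
    exact congrFun (hn (fun i => θ' (a i)) (fun i _ => Module.End.hasEigenvalue_of_hasEigenvector
      ⟨Module.End.mem_eigenspace_iff.2 (heig (a i)), hv⟩) hg) j
  -- hence the eigenvalues of all operators
  have hC : ∀ c : O, ρ (C c) = algebraMap ℂ _ (algebraMap O ℂ c) := fun c => by
    show Matrix.toLinAlgEquiv' ((algebraMap O ℂ).mapMatrix (toMat (localAct O e H (C c)))) = _
    rw [← algebraMap_eq, AlgHom.commutes, AlgEquiv.commutes, RingHom.mapMatrix_apply,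
      Matrix.algebraMap_eq_diagonal, Matrix.diagonal_map (map_zero _)]
    exact AlgEquiv.commutes Matrix.toLinAlgEquiv' (algebraMap O ℂ c)
  have hρ : ∀ x, ρ x v = θ x • v := fun x =>
    apply_eq_smul_of_generators ρ θ hC (a := a) (fun x => by
      obtain ⟨c, hc⟩ := hspan x
      have hy : localAct O e H (x - ∑ i, algebraMap O (OpRing O L S) (c i) * a i) = 0 := by
        simp only [map_sub, map_sum, ← Algebra.smul_def, map_smul, hc, sub_self]
      refine ⟨c, ?_, hθ _ hy⟩
      show Matrix.toLinAlgEquiv' ((algebraMap O ℂ).mapMatrix (toMat (localAct O e H _))) = 0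
      rw [hy, map_zero, map_zero, map_zero]) (fun i => by rw [heig, hθa]) x
  -- transport to homomorphisms
  set vv : Module.Free.ChooseBasisIndex O M → HomC K :=
    fun i => opC O S K P (toHomC (bs i : H))
  have hli : LinearIndependent ℂ vv := linearIndependent_opC_basis hinj he hP bs
  refine ⟨∑ i, v i • vv i, fun h0 => hv (_root_.funext fun i =>
      Fintype.linearIndependent_iff.1 hli v h0 i),
    sum_mem fun i _ => Submodule.smul_mem _ _ (hpar (toHomMod (toHomC (bs i : H)))), fun x => ?_⟩
  have hcol : ∀ j, opC O S K x (vv j) = ∑ i, matC x i j • vv i := fun j => by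
    have hb : x • (bs j : H) = ∑ i, toMat (localAct O e H x) i j • (bs i : H) := by
      have h := congrArg M.subtype (bs.sum_repr (localAct O e H x (bs j))).symm
      rw [map_sum] at h
      refine h.trans (Finset.sum_congr rfl fun i _ => ?_)
      rw [map_smul]
      exact congrArg (· • (bs i : H))
        (LinearMap.toMatrixAlgEquiv_apply bs (localAct O e H x) i j).symm
    calc opC O S K x (vv j) = toHomC (P • x • (bs j : H)) := by
          simp only [vv, ← toHomC_smul]
          rw [smul_comm]
      _ = ∑ i, matC x i j • vv i := by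
          rw [hb, Finset.smul_sum, map_sum]
          refine Finset.sum_congr rfl fun i _ => ?_
          rw [smul_comm, map_smul, smul_homC, toHomC_smul]
          rfl
  exact map_sum_smul_of_matrix (opC O S K x) vv (matC x) v (θ x) hcol fun i =>
    congrFun (hρ x) i

end Fermat.Agent.RT.GammaH
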