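import Fermat.Agent.RT.Glue.Points

/-!
# An embedding of a complete discrete valuation ring of characteristic zero into `ℂ`
-/

set_option autoImplicit false

noncomputable section

open Cardinal IsLocalRing

namespace Fermat.Agent.RT.GammaH

variable (O : Type) [CommRing O] [IsDomain O] [IsDiscreteValuationRing O]
  [IsAdicComplete (maximalIdeal O) O] [Finite (ResidueField O)] [CharZero O]

omit [IsAdicComplete (maximalIdeal O) O] in
/-- A complete discrete valuation ring of characteristic zero with finite residue field embeds
into `ℂ`. -/
theorem exists_injective_complex : ∃ σ : O →+* ℂ, Function.Injective σ := by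
  set F := FractionRing O
  have : CharZero F := charZero_of_injective_algebraMap (IsFractionRing.injective O F)
  set P := MvPolynomial ℂ F
  set E := FractionRing P
  set K := AlgebraicClosure E
  have : CharZero P := charZero_of_injective_algebraMap (algebraMap F P).injective
  have : CharZero E := charZero_of_injective_algebraMap (IsFractionRing.injective P E)
  have : CharZero K := charZero_of_injective_algebraMap (algebraMap E K).injective
  have hP : #P = 𝔠 := by
    rw [MvPolynomial.cardinalMk_eq_max]
    simp only [mk_complex]
    refine le_antisymm (max_le (max_le ?_ le_rfl) aleph0_le_continuum)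
      ((le_max_right _ _).trans (le_max_left _ _))
    exact (IsFractionRing.cardinalMk (R := O) F).trans_le (Glue.cardinalMk_le_continuum O)
  have hE : #E = 𝔠 := (IsFractionRing.cardinalMk (R := P) E).trans hP
  have hK : #K = 𝔠 := by
    refine le_antisymm ((Algebra.IsAlgebraic.cardinalMk_le_max E K).trans
      (max_le hE.le aleph0_le_continuum)) ?_
    rw [← hE]
    exact mk_le_of_injective (algebraMap E K).injective
  obtain ⟨e⟩ := IsAlgClosed.ringEquiv_of_equiv_of_charZero (K := K) (L := ℂ)
    (by rw [hK]; exact aleph0_lt_continuum) (Cardinal.eq.1 (hK.trans mk_complex.symm))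
  refine ⟨e.toRingHom.comp ((algebraMap E K).comp ((algebraMap P E).comp
    ((algebraMap F P).comp (algebraMap O F)))), ?_⟩
  exact e.injective.comp ((algebraMap E K).injective.comp ((IsFractionRing.injective P E).comp
    ((algebraMap F P).injective.comp (IsFractionRing.injective O F))))

end Fermat.Agent.RT.GammaH
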