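import Fermat.Agent.RT.GammaH.Complex
import Fermat.Agent.RT.GammaH.Eigen
import Fermat.Agent.RT.Ihara.Degeneracy

/-!
# The newform of an eigen homomorphism killed by both degeneracy traces

If `corDeg` and `starDeg` at `q` kill a parabolic eigen homomorphism of squarefree level `M q`, of
odd index, the twisted newform of its system has `q` exactly once in its level: the form is an
eigenvector of `W_q`.
-/

set_option autoImplicit false

noncomputable section

open CongruenceSubgroup UpperHalfPlane ModularFormClass Matrix.SpecialLinearGroup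
open ModularCurve.Period
open scoped MatrixGroups ModularForm

namespace Fermat.Agent.RT.GammaH

open Fermat.Agent.Periods.Congruence (per perLin per_injective per_add_conj_injective)
open Fermat.Agent.Newforms (ALData realMat mem_gamma0_iff_dvd IsCuspFn)
open Fermat.Agent.LevelRaising (RaiseData bezQ bezN)
open Fermat.Agent.RT.Ihara

/-! ### Representatives conjugated by `J` -/

section Conj

theorem isIntMat_conjJ {g : GLR} {A : Matrix (Fin 2) (Fin 2) ℤ} (hg : IsIntMat g A) :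
    IsIntMat (UpperHalfPlane.J * g * UpperHalfPlane.J) !![A 0 0, -A 0 1; -A 1 0, A 1 1] := by
  unfold IsIntMat at *
  rw [Units.val_mul, Units.val_mul, hg]
  ext i j
  fin_cases i <;> fin_cases j <;>
    simp [Matrix.mul_apply, Matrix.vecMul, dotProduct, Fin.sum_univ_two]

theorem isReps_conjJ {Γ' : Subgroup SL(2, ℤ)} (hΓ : ∀ γ ∈ Γ', jConjSL γ ∈ Γ') {D : Set GLR}
    (hD : ∀ g ∈ D, UpperHalfPlane.J * g * UpperHalfPlane.J ∈ D) {ι : Type*} [Finite ι]
    {rep : ι → GLR} (h : IsReps Γ' D rep) :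
    IsReps Γ' D fun i => UpperHalfPlane.J * rep i * UpperHalfPlane.J := by
  have hJ : (UpperHalfPlane.J : GLR) * UpperHalfPlane.J = 1 := by rw [← sq, UpperHalfPlane.J_sq]
  refine h.of_card (fun i => hD _ (h.mem i)) (fun i j hij => h.inj i j ?_) le_rfl
  obtain ⟨γ, hγ, he⟩ := hij
  refine ⟨jConjSL γ, hΓ γ hγ, ?_⟩
  rw [show rep i * (rep j)⁻¹ = UpperHalfPlane.J * mapGL ℝ γ * UpperHalfPlane.J by
      rw [he, mul_inv_rev, mul_inv_rev, Periods.J_inv]
      simp only [← mul_assoc, hJ, one_mul]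
      simp only [mul_assoc, hJ, mul_one],
    Periods.J_mul_mapGL, mul_assoc, hJ, mul_one]

theorem slashSum_slash_J {Γ' : Subgroup SL(2, ℤ)} (hΓ : ∀ γ ∈ Γ', jConjSL γ ∈ Γ') {D : Set GLR}
    (hD : ∀ g ∈ D, UpperHalfPlane.J * g * UpperHalfPlane.J ∈ D) {ι : Type*} [Fintype ι]
    {rep : ι → GLR} (h : IsReps Γ' D rep) {f : ℍ → ℂ} (hf : ∀ γ ∈ Γ', f ∣[(2 : ℤ)] γ = f) :
    slashSum rep (f ∣[(2 : ℤ)] UpperHalfPlane.J) =
      slashSum rep f ∣[(2 : ℤ)] UpperHalfPlane.J := by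
  conv_rhs => rw [slashSum_eq_of_isReps h (isReps_conjJ hΓ hD h) hf]
  rw [slashSum, slashSum, SlashAction.sum_slash]
  refine Finset.sum_congr rfl fun i _ => ?_
  rw [← SlashAction.slash_mul, ← SlashAction.slash_mul, mul_assoc, ← sq, UpperHalfPlane.J_sq,
    mul_one]

end Conj

variable {M q : ℕ} (h : RaiseData q M) [NeZero M] [NeZero (M * q)] {K : Subgroup (ZMod M)ˣ}

/-! ### The traces of forms -/

/-- `corDeg` on forms. -/
def corForm (f : FormH (M * q) (liftSub q K)) : FormH M K :=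
  mkFormH (slashSum (cRep h) f)
    (fun _ hγ => slashSum_inv (admissible_cRep h) (fun _ hg => cuspForm_slash_eq_self f hg) hγ)
    (Finset.sum_induction _ (IsCuspFn 2) (fun _ _ => IsCuspFn.add) IsCuspFn.zero fun _ _ =>
      (isCuspFn_formH f).slash_SL _)

/-- `starDeg` on forms. -/
def starForm (f : FormH (M * q) (liftSub q K)) : FormH M K :=
  mkFormH (slashSum (sRep h) f)
    (fun _ hγ => slashSum_inv (admissible_sRep h) (fun _ hg => cuspForm_slash_eq_self f hg) hγ)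
    (Finset.sum_induction _ (IsCuspFn 2) (fun _ _ => IsCuspFn.add) IsCuspFn.zero fun i _ => by
      obtain ⟨A, hA, hd, -⟩ := (sRep_mem h (K := K) i).1
      exact isCuspFn_slash (isCuspFn_formH f) hA
        (hd ▸ Int.natCast_ne_zero.2 (by rw [mul_one]; exact h.prime.ne_zero)))

theorem per_corForm (f : FormH (M * q) (liftSub q K)) :
    per (corForm h f) = corDeg h ℂ K (per f) :=
  Periods.Congruence.per_opOf _ (fun _ => by simp [cRep]) Gamma_le_gammaH f _ rfl

theorem per_starForm (f : FormH (M * q) (liftSub q K)) :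
    per (starForm h f) = starDeg h ℂ K (per f) :=
  Periods.Congruence.per_opOf _ (fun i => by
    obtain ⟨A, hA, hd, -⟩ := (sRep_mem h (K := K) i).1
    exact det_pos_of_isIntMat hA (hd ▸ Int.natCast_pos.2 (by rw [mul_one]; exact h.prime.pos)))
    Gamma_le_gammaH f _ rfl

theorem slashSum_cRep_eq_zero {f : FormH (M * q) (liftSub q K)}
    (hf : corDeg h ℂ K (per f) = 0) : slashSum (cRep h) ⇑f = 0 := by
  rw [← per_corForm] at hf
  exact congrArg DFunLike.coe (per_injective Gamma_le_gammaH hf)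

theorem slashSum_sRep_eq_zero {f : FormH (M * q) (liftSub q K)}
    (hf : starDeg h ℂ K (per f) = 0) : slashSum (sRep h) ⇑f = 0 := by
  rw [← per_starForm] at hf
  exact congrArg DFunLike.coe (per_injective Gamma_le_gammaH hf)

theorem corDeg_formConjH {g : FormH (M * q) (liftSub q K)} (hg : corDeg h ℂ K (per g) = 0) :
    corDeg h ℂ K (per (formConjH g)) = 0 := by
  rw [← per_corForm, show corForm h (formConjH g) = (0 : FormH M K) from DFunLike.coe_injective ?_]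
  · exact Periods.Congruence.per_zero Gamma_le_gammaH
  · show slashSum (cRep h) ⇑(formConjH g) = _
    rw [coe_formConjH, slashSum_slash_J (fun _ => jConjSL_mem_gammaH) ?_ (isReps_cRep h)
      (fun _ hγ => cuspForm_slash_eq_self g hγ), slashSum_cRep_eq_zero h hg,
      SlashAction.zero_slash]
    · rfl
    · intro x hx
      obtain ⟨γ, rfl⟩ := exists_of_mem_img hx
      rw [Periods.J_mul_mapGL, mul_assoc, ← sq, UpperHalfPlane.J_sq, mul_one]
      exact mapGL_mem_img.2 (jConjSL_mem_gammaH γ.2)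

theorem starDeg_formConjH {g : FormH (M * q) (liftSub q K)} (hg : starDeg h ℂ K (per g) = 0) :
    starDeg h ℂ K (per (formConjH g)) = 0 := by
  rw [← per_starForm, show starForm h (formConjH g) =
    (0 : FormH M K) from DFunLike.coe_injective ?_]
  · exact Periods.Congruence.per_zero Gamma_le_gammaH
  · show slashSum (sRep h) ⇑(formConjH g) = _
    rw [coe_formConjH, slashSum_slash_J (fun _ => jConjSL_mem_gammaH) ?_ (isReps_sRep h)
      (fun _ hγ => cuspForm_slash_eq_self g hγ), slashSum_sRep_eq_zero h hg,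
      SlashAction.zero_slash]
    · rfl
    · rintro x ⟨⟨A, hA, hd, hc, u, hu, ha⟩, hrow⟩
      refine ⟨⟨_, isIntMat_conjJ hA, ?_, by simp [hc], u, hu, by simpa using ha⟩, fun B hB => ?_⟩
      · rw [Matrix.det_fin_two] at hd
        rw [Matrix.det_fin_two_of]
        linear_combination hd
      · rw [hB.unique (isIntMat_conjJ hA)]
        obtain ⟨h0, h1⟩ := hrow A hA
        exact ⟨by simpa using h0, by simpa using h1⟩

/-- If both traces kill `per f + conjHom (per g)`, they kill `per f` and `per g`. -/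
private theorem traces_eq_zero_of_add_conj {f g : FormH (M * q) (liftSub q K)}
    (hcor : corDeg h ℂ K (per f + conjHom (per g)) = 0)
    (hstar : starDeg h ℂ K (per f + conjHom (per g)) = 0) :
    (corDeg h ℂ K (per f) = 0 ∧ corDeg h ℂ K (per g) = 0) ∧
      starDeg h ℂ K (per f) = 0 ∧ starDeg h ℂ K (per g) = 0 := by
  constructor
  · have hc : corDeg h ℂ K (conjHom (per g)) = conjHom (corDeg h ℂ K (per g)) :=
      opOf_comp_coeff _ _ _
    rw [map_add, hc, ← per_corForm, ← per_corForm] at hcor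
    obtain ⟨h1, h2⟩ := per_add_conj_injective Gamma_le_gammaH
      (fun γ => DFunLike.congr_fun hcor (Additive.ofMul γ))
    rw [← per_corForm, ← per_corForm, h1, h2]
    exact ⟨Periods.Congruence.per_zero Gamma_le_gammaH,
      Periods.Congruence.per_zero Gamma_le_gammaH⟩
  · have hc : starDeg h ℂ K (conjHom (per g)) = conjHom (starDeg h ℂ K (per g)) :=
      opOf_comp_coeff _ _ _
    rw [map_add, hc, ← per_starForm, ← per_starForm] at hstar
    obtain ⟨h1, h2⟩ := per_add_conj_injective Gamma_le_gammaH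
      (fun γ => DFunLike.congr_fun hstar (Additive.ofMul γ))
    rw [← per_starForm, ← per_starForm, h1, h2]
    exact ⟨Periods.Congruence.per_zero Gamma_le_gammaH,
      Periods.Congruence.per_zero Gamma_le_gammaH⟩

/-! ### An eigenform killed by both traces -/

variable {S : Finset ℕ} {χ : (ZMod (M * q))ˣ →* ℂˣ} {a : ℕ → ℂ}

/-- An eigenvector of all Hecke operators away from `q` killed by both traces, in a stable subspace
containing the components of the eigen homomorphism. -/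
theorem exists_form_new_mem (P₀ : Submodule ℂ (FormH (M * q) (liftSub q K)))
    (hP₀ : ∀ (p : ℕ) [Fact p.Prime], p ≠ q → ∀ f ∈ P₀, heckeForm p f ∈ P₀) (hneg : -1 ∈ liftSub q K)
    (hqS : q ∈ S)
    {φ : HomC (liftSub q K)}
    (hφ : φ ∈ parabolicHoms ℂ (gammaH (M * q) (liftSub q K)) ℂ) (hne : φ ≠ 0)
    (hdia : ∀ u, diamond (M * q) (liftSub q K) ℂ u φ = (χ u : ℂ) • φ)
    (hT : ∀ (ℓ : ℕ) [Fact ℓ.Prime], ℓ ∉ S → hecke (M * q) (liftSub q K) ℓ ℂ φ = a ℓ • φ)
    (hcor : corDeg h ℂ K φ = 0) (hstar : starDeg h ℂ K φ = 0)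
    (hφP : ∀ f g, φ = per f + conjHom (per g) → f ∈ P₀ ∧ formConjH g ∈ P₀) :
    ∃ (f : FormH (M * q) (liftSub q K)) (lam : ℕ → ℂ), f ≠ 0 ∧ IsChiForm χ f ∧ f ∈ P₀ ∧
      corDeg h ℂ K (per f) = 0 ∧ starDeg h ℂ K (per f) = 0 ∧
      (∀ (p : ℕ) [Fact p.Prime], p ≠ q → heckeForm p f = lam p • f) ∧
      (∀ p, p.Prime → p ∉ S → lam p = a p) := by
  classical
  have := finiteDimensional_formH (M := M * q) hneg
  let P := perLin (M := M * q) (Γ := gammaH (M * q) (liftSub q K)) Gamma_le_gammaH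
  let V : Submodule ℂ (FormH (M * q) (liftSub q K)) :=
    (LinearMap.ker (corDeg h ℂ K ∘ₗ P) ⊓ LinearMap.ker (starDeg h ℂ K ∘ₗ P)) ⊓ P₀
  -- `W`: the forms in `V` with the given character and eigenvalues outside `S`
  let W : Submodule ℂ (FormH (M * q) (liftSub q K)) :=
    { carrier := {f | f ∈ V ∧ IsChiForm χ f ∧
        ∀ (ℓ : ℕ) [Fact ℓ.Prime], ℓ ∉ S → heckeLin ℓ f = a ℓ • f}
      zero_mem' := by
        refine ⟨zero_mem _, fun u => DFunLike.coe_injective ?_,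
          fun ℓ _ _ => by rw [map_zero, smul_zero]⟩
        simp [coe_diaForm, SlashAction.zero_slash]
      add_mem' := fun {x y} hx hy => by
        refine ⟨add_mem hx.1 hy.1, ?_,
          fun ℓ _ hℓ => by rw [map_add, hx.2.2 ℓ hℓ, hy.2.2 ℓ hℓ, smul_add]⟩
        simpa [sub_eq_add_neg] using hx.2.1.sub (hy.2.1.smul (-1))
      smul_mem' := fun c x hx =>
        ⟨Submodule.smul_mem _ c hx.1, hx.2.1.smul c,
          fun ℓ _ hℓ => by rw [map_smul, hx.2.2 ℓ hℓ, smul_comm]⟩ }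
  obtain ⟨f₀, g₀, hfg, hne', hf, hg⟩ := exists_forms_of_eigen hneg hφ hne hdia hT
  have hmem : ∀ {f : FormH (M * q) (liftSub q K)}, corDeg h ℂ K (per f) = 0 →
      starDeg h ℂ K (per f) = 0 → f ∈ P₀ → f ∈ V := fun h1 h2 h3 => ⟨⟨h1, h2⟩, h3⟩
  -- the components of `φ` are killed by both traces, so one of them gives a nonzero element of `W`
  rw [hfg] at hcor hstar
  have hsplit := traces_eq_zero_of_add_conj h hcor hstar
  have hW : W ≠ ⊥ := by
    rw [Submodule.ne_bot_iff]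
    obtain ⟨⟨c1, c2⟩, s1, s2⟩ := hsplit
    obtain ⟨p1, p2⟩ := hφP f₀ g₀ hfg
    rcases hne' with h0 | h0
    · exact ⟨f₀, ⟨hmem c1 s1 p1, hf⟩, h0⟩
    · exact ⟨formConjH g₀, ⟨hmem (corDeg_formConjH h c2) (starDeg_formConjH h s2) p2, hg⟩, h0⟩
  -- the commuting Hecke operators away from `q` preserve `W`, so have a common eigenvector in it
  let gen : Set (Module.End ℂ (FormH (M * q) (liftSub q K))) :=
    Set.range fun p : {p : ℕ // p.Prime ∧ p ≠ q} => @heckeLin (M * q) _ (liftSub q K) p.1 ⟨p.2.1⟩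
  have hcomm : ∀ x ∈ gen, ∀ y ∈ gen, x * y = y * x := by
    rintro _ ⟨⟨p, hp, -⟩, rfl⟩ _ ⟨⟨p', hp', -⟩, rfl⟩
    have : Fact p.Prime := ⟨hp⟩
    have : Fact p'.Prime := ⟨hp'⟩
    exact LinearMap.ext fun f => heckeForm_comm p p' f
  let : CommRing (Algebra.adjoin ℂ gen) :=
    have := Algebra.isMulCommutative_adjoin ℂ hcomm
    open scoped IsMulCommutative in inferInstance
  have hWinv : ∀ T ∈ Algebra.adjoin ℂ gen, ∀ w ∈ W, T w ∈ W := by
    intro T hT'
    induction hT' using Algebra.adjoin_induction with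
    | mem x hx =>
      obtain ⟨⟨p, hp, hpq⟩, rfl⟩ := hx
      have : Fact p.Prime := ⟨hp⟩
      intro w hw
      refine ⟨hmem ?_ ?_ (hP₀ p hpq w hw.1.2), heckeForm_isChiForm hw.2.1, fun ℓ _ hℓ => ?_⟩
      · show corDeg h ℂ K (per (heckeForm p w)) = 0
        rw [per_heckeForm, corDeg_hecke h ℂ hpq, show corDeg h ℂ K (per w) =
          0 from hw.1.1.1, map_zero]
      · show starDeg h ℂ K (per (heckeForm p w)) = 0
        rw [per_heckeForm, starDeg_hecke h ℂ hpq, show starDeg h ℂ K (per w) = 0 from hw.1.1.2,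
          map_zero]
      · show heckeForm ℓ (heckeForm p w) = _
        rw [heckeForm_comm, show heckeForm ℓ w = a ℓ • w from hw.2.2 ℓ hℓ]
        exact map_smul (heckeLin p) (a ℓ) w
    | algebraMap r => exact fun w hw => W.smul_mem r hw
    | add x y _ _ hx hy => exact fun w hw => W.add_mem (hx w hw) (hy w hw)
    | mul x y _ _ hx hy => exact fun w hw => hx _ (hy w hw)
  obtain ⟨θ, f, hfW, hf0, heig⟩ := HeckeDuality.exists_eigenCharacter
    (Algebra.adjoin ℂ gen).val.toRingHom W hW (fun T w hw => hWinv T.1 T.2 w hw)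
  let lam : ℕ → ℂ := fun p => if hp : p.Prime ∧ p ≠ q then
    θ ⟨_, Algebra.subset_adjoin (Set.mem_range_self ⟨p, hp⟩)⟩ else 0
  have hlam : ∀ (p : ℕ) [Fact p.Prime], p ≠ q → heckeForm p f = lam p • f := fun p hp hpq => by
    simp only [lam, dif_pos (⟨hp.out, hpq⟩ : p.Prime ∧ p ≠ q)]
    exact heig ⟨_, Algebra.subset_adjoin (Set.mem_range_self ⟨p, hp.out, hpq⟩)⟩
  refine ⟨f, lam, hf0, hfW.2.1, hfW.1.2, hfW.1.1.1, hfW.1.1.2, hlam, fun p hp hpS => ?_⟩
  have : Fact p.Prime := ⟨hp⟩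
  exact smul_left_injective ℂ hf0
    ((hlam p fun hpq => hpS (hpq ▸ hqS)).symm.trans (hfW.2.2 p hpS))

/-- An eigenvector of all Hecke operators away from `q` killed by both traces. -/
theorem exists_form_new (hneg : -1 ∈ liftSub q K) (hqS : q ∈ S) {φ : HomC (liftSub q K)}
    (hφ : φ ∈ parabolicHoms ℂ (gammaH (M * q) (liftSub q K)) ℂ) (hne : φ ≠ 0)
    (hdia : ∀ u, diamond (M * q) (liftSub q K) ℂ u φ = (χ u : ℂ) • φ)
    (hT : ∀ (ℓ : ℕ) [Fact ℓ.Prime], ℓ ∉ S → hecke (M * q) (liftSub q K) ℓ ℂ φ = a ℓ • φ)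
    (hcor : corDeg h ℂ K φ = 0) (hstar : starDeg h ℂ K φ = 0) :
    ∃ (f : FormH (M * q) (liftSub q K)) (lam : ℕ → ℂ), f ≠ 0 ∧ IsChiForm χ f ∧
      corDeg h ℂ K (per f) = 0 ∧ starDeg h ℂ K (per f) = 0 ∧
      (∀ (p : ℕ) [Fact p.Prime], p ≠ q → heckeForm p f = lam p • f) ∧
      (∀ p, p.Prime → p ∉ S → lam p = a p) := by
  obtain ⟨f, lam, h0, hf, -, hrest⟩ := exists_form_new_mem h ⊤ (fun _ _ _ _ _ => trivial) hneg hqS
    hφ hne hdia hT hcor hstar fun _ _ _ => ⟨trivial, trivial⟩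
  exact ⟨f, lam, h0, hf, hrest⟩

/-- The trace to level `M` of a form killed by `corDeg`, through an Atkin–Lehner matrix. -/
private theorem add_heckeU_slash_eq_zero {f : FormH (M * q) (liftSub q K)}
    (hc : corDeg h ℂ K (per f) = 0) (D₀ : ALData q M) (hD : D₀.x = 1) :
    ⇑f + ModularForm.heckeU 2 q (⇑f ∣[(2 : ℤ)] D₀.gl) = 0 := by
  classical
  have hq : Fact q.Prime := ⟨h.prime⟩
  have hqM : q * M = M * q := mul_comm q M
  rw [add_heckeU_eq_sum, ← slashSum_cRep_eq_zero h hc]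
  refine Eq.trans ?_ (slashSum_eq_of_isReps ((isReps_cRep h (K := K)).of_card
    (rep' := fun i => mapGL ℝ (traceRep D₀ i))
    (fun i => mapGL_mem_img.2 (traceRep_mem_gammaH D₀ hD K i)) (fun i j hij => ?_) ?_)
    (isReps_cRep h) fun γ hγ => cuspForm_slash_eq_self f hγ)
  · rfl
  · simp only [← map_inv, ← map_mul, mapGL_mem_img] at hij
    obtain ⟨k, -, huniq⟩ := traceRep_unique D₀ h.prime h.not_dvd
      (gammaH_le_Gamma0 (traceRep_mem_gammaH D₀ hD K i))
    exact (huniq i (by simp only; rw [mul_inv_cancel]; exact one_mem _)).trans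
      (huniq j (hqM ▸ gammaH_le_Gamma0 hij)).symm
  · simp [Nat.card_eq_fintype_card]

include h in
omit [NeZero M] [NeZero (M * q)] in
/-- The lower right entries of the matrices carrying the transposed trace to an Atkin–Lehner matrix
and squaring the latter are inverse to each other modulo `M`. -/
private theorem lowerRight_mul_eq_one (D₀ : ALData q M) (hD : D₀.x = 1) {γ δ : SL(2, ℤ)}
    (hγc : ((q * M : ℕ) : ℤ) ∣ γ 1 0) (hγa : (M : ℤ) ∣ γ 0 0 - (q : ℤ) * bezQ q M * D₀.v)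
    (hδe : (D₀.gl : Matrix (Fin 2) (Fin 2) ℝ) * D₀.gl =
      (q : ℝ) • realMat (δ : Matrix (Fin 2) (Fin 2) ℤ)) :
    ((γ 1 1 : ℤ) : ZMod M) * ((δ 1 1 : ℤ) : ZMod M) = 1 := by
  have e1 := congrArg (Int.cast : ℤ → ZMod M) D₀.eq_one
  have e2 := congrArg (Int.cast : ℤ → ZMod M) h.bez
  have e3 : ((γ 0 0 : ℤ) : ZMod M) * γ 1 1 - γ 0 1 * γ 1 0 = 1 := by
    exact_mod_cast congrArg (Int.cast : ℤ → ZMod M) (Gamma0.det_eq γ)
  have e4 : ((γ 1 0 : ℤ) : ZMod M) = 0 := (ZMod.intCast_zmod_eq_zero_iff_dvd _ _).2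
    ((Int.natCast_dvd_natCast.2 (dvd_mul_left M q)).trans hγc)
  have e5 := (ZMod.intCast_zmod_eq_zero_iff_dvd _ _).2 hγa
  have e6 : (δ 1 1 : ℤ) = M * D₀.z * D₀.y + q * D₀.v ^ 2 := by
    have e := congrFun (congrFun hδe 1) 1
    simp [ALData.val_gl, ALData.intMat, realMat, Matrix.mul_apply, Fin.sum_univ_two] at e
    have e' : ((q : ℤ) : ℝ) * ((δ 1 1 : ℤ) : ℝ) =
        ((q : ℤ) * (M * D₀.z * D₀.y + q * D₀.v ^ 2) : ℤ) := by
      push_cast
      linear_combination -e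
    exact mul_left_cancel₀ (by exact_mod_cast h.prime.ne_zero : (q : ℤ) ≠ 0)
      (by exact_mod_cast e')
  rw [hD] at e1
  push_cast at e1 e2 e5
  rw [ZMod.natCast_self] at e1 e2
  rw [e4, mul_zero, sub_zero] at e3
  rw [e6]
  push_cast
  rw [ZMod.natCast_self]
  linear_combination ((γ 1 1 : ℤ) : ZMod M) * (D₀.v : ZMod M) * e1 + e3 -
    ((γ 1 1 : ℤ) : ZMod M) * e5 - ((γ 1 1 : ℤ) : ZMod M) * (D₀.v : ZMod M) * e2

/-- For a form killed by the transposed trace, `U_q f` is a multiple of `f | W` and `f | W ^ 2` of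
`f`, by inverse constants. -/
private theorem exists_atkinLehner_consts
    (hχM : ∀ u : (ZMod (M * q))ˣ, ZMod.unitsMap (dvd_mul_right M q) u = 1 → χ u = 1)
    {f : FormH (M * q) (liftSub q K)} (hf : IsChiForm χ f) (hs : starDeg h ℂ K (per f) = 0)
    (D₀ : ALData q M) (hD : D₀.x = 1) :
    ∃ c c' : ℂ, c * c' = 1 ∧
      ModularForm.heckeU 2 q ⇑f = (-c) • (⇑f ∣[(2 : ℤ)] D₀.gl) ∧
      (⇑f ∣[(2 : ℤ)] D₀.gl) ∣[(2 : ℤ)] D₀.gl = c' • ⇑f := by
  have hq : Fact q.Prime := ⟨h.prime⟩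
  have hqM : q * M = M * q := mul_comm q M
  -- the transposed trace
  let D' : ALData q M := ⟨h.prime.ne_zero, bezQ q M, -bezN q M, 1, 1, by linear_combination h.bez⟩
  obtain ⟨γ, hγc, hγa, hγ⟩ := al_exists_mul D' D₀
  have hγ0 : γ ∈ Gamma0 (M * q) := mem_gamma0_iff_dvd.2 (hqM ▸ hγc)
  have hγu : IsUnit ((γ 1 1 : ℤ) : ZMod (M * q)) := DeligneSerre.isUnit_lowerRight hγ0
  obtain ⟨δ, hδ, hδe⟩ := D₀.exists_sq
  rw [hqM] at hδ
  have hδu : IsUnit ((δ 1 1 : ℤ) : ZMod (M * q)) := DeligneSerre.isUnit_lowerRight hδ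
  set c : ℂ := ((χ hγu.unit : ℂˣ) : ℂ) with hcdef
  set c' : ℂ := ((χ hδu.unit : ℂˣ) : ℂ) with hc'def
  have hcc : c * c' = 1 := by
    rw [hcdef, hc'def, ← Units.val_mul, ← map_mul, Units.val_eq_one]
    refine hχM _ (Units.ext ?_)
    rw [map_mul, Units.val_mul, Units.val_one, ZMod.unitsMap_val, ZMod.unitsMap_val,
      hγu.unit_spec, hδu.unit_spec, ZMod.cast_intCast (dvd_mul_right M q),
      ZMod.cast_intCast (dvd_mul_right M q)]
    exact lowerRight_mul_eq_one h D₀ hD hγc hγa hδe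
  have hD' : sRep h none = D'.gl := by
    refine (isIntMat_sRep_none h).ext ?_
    unfold IsIntMat
    rw [ALData.val_gl, ← show (D'.intMat : Matrix (Fin 2) (Fin 2) ℤ) =
      !![bezQ q M * q, -bezN q M; (M : ℤ) * q, (q : ℤ)] by
        ext i j
        fin_cases i <;> fin_cases j <;> simp [ALData.intMat, D', mul_comm]]
  set W₀ : ℍ → ℂ := ⇑f ∣[(2 : ℤ)] D₀.gl with hW₀
  have hslash : ∀ (δ : SL(2, ℤ)) (hδ : δ ∈ Gamma0 (M * q))
      (hu : IsUnit ((δ 1 1 : ℤ) : ZMod (M * q))),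
      ⇑f ∣[(2 : ℤ)] (mapGL ℝ δ : GL (Fin 2) ℝ) = (χ hu.unit : ℂ) • ⇑f := fun δ hδ hu =>
    slash_eq_of_mem_gamma0 hf hδ hu.unit_spec.symm
  refine ⟨c, c', hcc, ?_, ?_⟩
  · have e := slashSum_sRep_eq_zero h hs
    rw [slashSum, Fintype.sum_option, hD', hγ, SlashAction.slash_mul, hslash γ hγ0 hγu,
      slash_al_smul] at e
    rw [ModularForm.heckeU_def, ← Fin.sum_univ_eq_sum_range
      (fun j => ⇑f ∣[(2 : ℤ)] ModularForm.heckeMatrix q j), _root_.neg_smul]
    exact eq_neg_of_add_eq_zero_right e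
  · rw [hW₀, ← SlashAction.slash_mul]
    refine (ALData.slash_two_of_smul (g' := (mapGL ℝ δ : GL (Fin 2) ℝ))
      (Nat.cast_pos.2 h.prime.pos) (by simp) ?_ ⇑f).trans (hslash δ hδ hδu)
    rw [Units.val_mul, Newforms.mapGL_eq_realMat, hδe]

/-- A normalised eigenform of all Hecke operators which is an eigenvector of an Atkin–Lehner
matrix at `q`. -/
theorem exists_eigenForm_new (hneg : -1 ∈ liftSub q K) (hqS : q ∈ S)
    (hχM : ∀ u : (ZMod (M * q))ˣ, ZMod.unitsMap (dvd_mul_right M q) u = 1 → χ u = 1)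
    {φ : HomC (liftSub q K)}
    (hφ : φ ∈ parabolicHoms ℂ (gammaH (M * q) (liftSub q K)) ℂ) (hne : φ ≠ 0)
    (hdia : ∀ u, diamond (M * q) (liftSub q K) ℂ u φ = (χ u : ℂ) • φ)
    (hT : ∀ (ℓ : ℕ) [Fact ℓ.Prime], ℓ ∉ S → hecke (M * q) (liftSub q K) ℓ ℂ φ = a ℓ • φ)
    (hcor : corDeg h ℂ K φ = 0) (hstar : starDeg h ℂ K φ = 0) (D₀ : ALData q M) (hD : D₀.x = 1) :
    ∃ (f : FormH (M * q) (liftSub q K)) (lam : ℕ → ℂ), IsChiForm χ f ∧ qCoeff f 1 = 1 ∧
      HeckeDuality.SeqEigen (nebWeight (toDir χ)) lam (qCoeff f) ∧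
      (∀ p, p.Prime → p ∉ S → lam p = a p) ∧
      ∃ κ : ℂ, ⇑f ∣[(2 : ℤ)] D₀.gl = κ • ⇑f := by
  classical
  have hq : Fact q.Prime := ⟨h.prime⟩
  obtain ⟨f, lam, hf0, hf, hc, hs, hlam, hla⟩ :=
    exists_form_new h hneg hqS hφ hne hdia hT hcor hstar
  -- the trace to level `M`
  have hcor' : ⇑f + ModularForm.heckeU 2 q (⇑f ∣[(2 : ℤ)] D₀.gl) = 0 :=
    add_heckeU_slash_eq_zero h hc D₀ hD
  obtain ⟨c, c', hcc, hUf, hWW⟩ := exists_atkinLehner_consts h hχM hf hs D₀ hD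
  set W₀ : ℍ → ℂ := ⇑f ∣[(2 : ℤ)] D₀.gl with hW₀
  set U : Module.End ℂ (FormH (M * q) (liftSub q K)) := heckeLin q
  have hU : ∀ F : FormH (M * q) (liftSub q K), ⇑(U F) = ModularForm.heckeU 2 q ⇑F := fun F => by
    show ⇑(heckeForm q F) = _
    rw [coe_heckeForm, slashSum_hRep_of_dvd (dvd_mul_left q M)]
  have hstar' : ⇑(U f) = (-c) • W₀ := (hU f).trans hUf
  have hUU : U (U f) = c • f := DFunLike.coe_injective (by
    rw [hU, hstar', ModularForm.heckeU_smul, eq_neg_of_add_eq_zero_right hcor', FunLike.coe_smul,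
      smul_neg, _root_.neg_smul, neg_neg])
  obtain ⟨μ, hμ⟩ := IsAlgClosed.exists_pow_nat_eq c (show 0 < 2 by norm_num)
  have hc0 : c ≠ 0 := left_ne_zero_of_mul_eq_one hcc
  have hμ0 : μ ≠ 0 := fun h0 => hc0 (by rw [← hμ, h0]; ring)
  obtain ⟨ν, hν, hF0⟩ : ∃ ν : ℂ, ν ^ 2 = c ∧ U f + ν • f ≠ 0 := by
    by_cases h1 : U f + μ • f = 0
    · refine ⟨-μ, by rw [neg_sq, hμ], fun h2 => hf0 ?_⟩
      have h3 : (2 * μ) • f = 0 := by
        rw [two_mul, add_smul]
        rw [_root_.neg_smul, ← sub_eq_add_neg] at h2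
        rw [sub_eq_zero.1 h2] at h1
        exact h1
      exact (smul_eq_zero.1 h3).resolve_left (mul_ne_zero two_ne_zero hμ0)
    · exact ⟨μ, hμ, h1⟩
  set F := U f + ν • f with hF
  have hFχ : IsChiForm χ F := by
    have h' := (heckeForm_isChiForm (p := q) hf).sub ((hf.smul ν).smul (-1))
    rw [_root_.neg_smul, one_smul, sub_neg_eq_add] at h'
    exact h' 
  let lam' : ℕ → ℂ := Function.update lam q ν
  have hlamF : ∀ (p : ℕ) [Fact p.Prime], heckeForm p F = lam' p • F := fun p hp => by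
    rw [← heckeLin_apply, hF, map_add, map_smul]
    by_cases hpq : p = q
    · subst hpq
      simp only [lam', Function.update_self]
      rw [show (heckeLin p : Module.End ℂ _) = U from rfl, hUU, smul_add, smul_smul, ← hν, sq]
      exact add_comm _ _
    · simp only [lam', Function.update_of_ne hpq, heckeLin_apply, hlam p hpq, U]
      rw [heckeForm_comm, hlam p hpq, ← heckeLin_apply, map_smul, heckeLin_apply, smul_add,
        smul_comm ν]
  have hseq : HeckeDuality.SeqEigen (nebWeight (toDir χ)) lam' (qCoeff F) := fun p hp n => by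
    have : Fact p.Prime := ⟨hp⟩
    have h' := congrArg (fun G : FormH (M * q) (liftSub q K) => qCoeff G n) (hlamF p)
    simp only [qCoeff_heckeForm hFχ, qCoeff_formH_smul] at h'
    exact h'
  have h1 : qCoeff F 1 ≠ 0 := fun h' =>
    hF0 (formH_eq_zero (hseq.eq_zero (qCoeff_formH_zero F) h'))
  refine ⟨(qCoeff F 1)⁻¹ • F, lam', hFχ.smul _,
    by rw [qCoeff_formH_smul, inv_mul_cancel₀ h1], fun p hp n => ?_, fun p hp hpS => ?_,
    -(ν / c), ?_⟩
  · simp only [qCoeff_formH_smul]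
    have := hseq p hp n
    split_ifs at this ⊢ <;> linear_combination (qCoeff F 1)⁻¹ * this
  · simp only [lam', Function.update_of_ne (fun hpq : p = q => hpS (hpq ▸ hqS))]
    exact hla p hp hpS
  · have hW : W₀ = -(c⁻¹ • ⇑(U f)) := by
      rw [hstar', smul_smul, mul_neg, inv_mul_cancel₀ hc0, _root_.neg_smul, one_smul, neg_neg]
    have hFD : ⇑F ∣[(2 : ℤ)] D₀.gl = (-(ν / c)) • ⇑F := by
      rw [hF, FunLike.coe_add, FunLike.coe_smul, SlashAction.add_slash, slash_al_smul, ← hW₀,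
        hstar', slash_al_smul, hWW, smul_smul]
      rw [show -c * c' = -1 by linear_combination -hcc]
      rw [← hν]
      have hν0 : ν ≠ 0 := fun h0 => hc0 (by rw [← hν, h0]; ring)
      ext τ
      simp only [Pi.add_apply, Pi.smul_apply, smul_eq_mul]
      field_simp
      ring
    rw [FunLike.coe_smul, slash_al_smul, hFD, smul_comm]

omit h in
/-- `q` is not bad for a character trivial on the kernel of reduction to level `M`. -/
theorem notMem_badPrimes_lift (hq0 : 0 < q)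
    (hχM : ∀ u : (ZMod (M * q))ˣ, ZMod.unitsMap (dvd_mul_right M q) u = 1 → χ u = 1) :
    q ∉ badPrimes (toDir χ) := fun hb => by
  obtain ⟨-, -, u, hu, hu'⟩ := mem_badPrimes.1 hb
  refine hu' ?_
  rw [toDir_coe, Units.val_eq_one]
  refine hχM u (Units.ext ?_)
  rw [ZMod.unitsMap_val, Units.val_one]
  have key : ∀ R, R = M → ((u : ZMod (M * q)).cast : ZMod R) = 1 →
      ((u : ZMod (M * q)).cast : ZMod M) = 1 := by rintro R rfl h'; exact h'
  exact key _ (Nat.mul_div_cancel M hq0) hu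

/-- **The newform of an eigen homomorphism killed by both traces.** -/
theorem exists_newform_new (hL : Squarefree (M * q)) (hneg : -1 ∈ liftSub q K)
    (hodd : Odd (Nat.card ((ZMod (M * q))ˣ ⧸ liftSub q K))) (hqS : q ∈ S)
    (hS : ∀ v : ℕ, v.Prime → v ∣ M * q → v ∈ S) (hχ : ∀ u ∈ liftSub q K, χ u = 1)
    {φ : HomC (liftSub q K)}
    (hφ : φ ∈ parabolicHoms ℂ (gammaH (M * q) (liftSub q K)) ℂ) (hne : φ ≠ 0)
    (hdia : ∀ u, diamond (M * q) (liftSub q K) ℂ u φ = (χ u : ℂ) • φ)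
    (hT : ∀ (ℓ : ℕ) [Fact ℓ.Prime], ℓ ∉ S → hecke (M * q) (liftSub q K) ℓ ℂ φ = a ℓ • φ)
    (hcor : corDeg h ℂ K φ = 0) (hstar : starDeg h ℂ K φ = 0) :
    ∃ (L' : ℕ) (g : CuspForm (Gamma0 L') 2), g.IsNewform ∧ L' ∣ (M * q) ^ 2 ∧
      (∀ ℓ : ℕ, ℓ.Prime → ℓ ∉ S → ∀ u : (ZMod (M * q))ˣ, (u : ZMod (M * q)) = (ℓ : ZMod (M * q)) →
        qCoeff g ℓ =
          (χ u : ℂ) ^ ((Nat.card ((ZMod (M * q))ˣ ⧸ liftSub q K) - 1) / 2) * a ℓ) ∧
      q ∣ L' ∧ ¬ q ^ 2 ∣ L' := by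
  classical
  set e := (Nat.card ((ZMod (M * q))ˣ ⧸ liftSub q K) - 1) / 2
  have he : toDir χ ^ (2 * e + 1) = 1 := toDir_pow_eq_one hχ hodd
  have hLq : M * q / q = M := Nat.mul_div_cancel M h.prime.pos
  have hχM : ∀ u : (ZMod (M * q))ˣ, ZMod.unitsMap (dvd_mul_right M q) u = 1 → χ u = 1 :=
    fun u hu => hχ u (show ZMod.unitsMap (dvd_mul_right M q) u ∈ K by rw [hu]; exact one_mem K)
  -- `q` is not a bad prime
  have hqb : q ∉ badPrimes (toDir χ) := notMem_badPrimes_lift h.prime.pos hχM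
  set c₀ := ∏ w ∈ badPrimes (toDir χ), w
  set R₁ := M * q / q * c₀ * (M * q / q) with hR₁
  have hqR₁ : ¬ q ∣ R₁ := by
    rw [hR₁, hLq]
    refine h.prime.prime.not_dvd_mul (h.prime.prime.not_dvd_mul h.not_dvd ?_) h.not_dvd
    rw [h.prime.prime.dvd_finsetProd_iff]
    rintro ⟨w, hw, hqw⟩
    exact hqb ((Nat.prime_dvd_prime_iff_eq h.prime (mem_badPrimes.1 hw).1).1 hqw ▸ hw)
  -- an Atkin-Lehner matrix at `q`
  obtain ⟨x, y, hxy⟩ := Nat.isCoprime_iff_coprime.2
    ((h.prime.coprime_iff_not_dvd.2 hqR₁).pow_left 2)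
  let D : ALData q R₁ :=
    ⟨h.prime.ne_zero, 1, -y, 1, (q : ℤ) * x, by push_cast at hxy ⊢; linear_combination hxy⟩
  have hdR : M ∣ R₁ := by rw [hR₁, hLq]; exact dvd_mul_left M _
  -- killed by both traces, the eigenform is an eigenvector of `W_q`
  obtain ⟨f, lam, hf, hf1, hseq, hla, κ, hκ⟩ := exists_eigenForm_new h hneg hqS hχM hφ hne hdia hT
    hcor hstar (alLower hdR D) rfl
  rw [alLower_gl] at hκ
  -- twist to trivial character and take the newform
  obtain ⟨G, hG, hGf⟩ := exists_twist_eigenForm hL he hf hf1 hseq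
  have := neZero_twistLevel (χ := toDir χ)
  obtain ⟨L', g, hL', hg, heq⟩ := Newforms.exists_newform hG
  have hfp : ∀ p, p.Prime → p ∉ S → qCoeff f p = a p := fun p hp hpS => by
    have h' := hseq p hp 1
    rw [if_neg hp.not_dvd_one, hf1, one_mul, add_zero, mul_one, hla p hp hpS] at h'
    exact h'
  refine ⟨L', g, hg, hL'.trans twistLevel_dvd_sq, fun ℓ hℓ hℓS u hu => ?_, ?_, fun h2 => ?_⟩
  · have hℓL : ¬ ℓ ∣ M * q := fun h' => hℓS (hS ℓ hℓ h')
    rw [heq ℓ hℓ (mt (prime_dvd_twistLevel_iff hℓ).1 hℓL), hGf, etaSeq_eq hL hu, toDir_coe,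
      hfp ℓ hℓ hℓS]
  -- an eigenvector of `W_q` forces `q` into the level
  · by_contra hcon
    exact al_ne_smul hL he h.prime (dvd_mul_left q M) hqb hf hG hGf hL' hg.1 heq hcon D rfl
      (dvd_mul_right _ _) κ hκ
  -- and square-freeness forbids `q ^ 2`
  · have hc : ¬ q ∣ c₀ := by
      rw [h.prime.prime.dvd_finsetProd_iff]
      rintro ⟨w, hw, hqw⟩
      exact hqb ((Nat.prime_dvd_prime_iff_eq h.prime (mem_badPrimes.1 hw).1).1 hqw ▸ hw)
    have h3 : q ^ 2 ∣ M * q :=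
      ((h.prime.coprime_iff_not_dvd.2 hc).pow_left 2).dvd_of_dvd_mul_right (h2.trans hL')
    exact h.prime.not_isUnit (hL q (by rwa [← pow_two]))

end Fermat.Agent.RT.GammaH
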